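import Fermat.Agent.ThompsonTransfer.PComp
import Mathlib.GroupTheory.QuotientGroup.Basic
import Mathlib.GroupTheory.Transfer
import Mathlib.Data.Set.Finite.Lemmas

/-!
# Isolated involutions

An involution is isolated when it commutes with none of its other conjugates. The product of two
conjugates then has odd order, the property passes to subgroups and to quotients, and in an
induction for the `Z*` theorem one may assume that there is no normal subgroup of odd order and no
central involution.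
-/

set_option autoImplicit false
set_option linter.style.haveILetI false

universe u

noncomputable section

open Subgroup FA.Thompson

namespace FA.ZStar

variable {G : Type u} [Group G]

/-- An isolated involution. -/
def Isolated (t : G) : Prop :=
  t ≠ 1 ∧ t * t = 1 ∧ ∀ g, Commute t (g * t * g⁻¹) → g * t * g⁻¹ = t

/-- Central modulo a normal subgroup of odd order. -/
def ZCentral (G : Type u) [Group G] (t : G) : Prop :=
  ∃ N : Subgroup G, N.Normal ∧ Odd (Nat.card N) ∧ ∀ g, g * t * g⁻¹ * t⁻¹ ∈ N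

/-- The inductive hypothesis. -/
def Below (G : Type u) : Prop :=
  ∀ (H : Type u) [Group H] [Finite H], Nat.card H < Nat.card G → ∀ x : H, Isolated x → ZCentral H x

theorem inv_eq_of_sq {t : G} (h : t * t = 1) : t⁻¹ = t := inv_eq_of_mul_eq_one_right h

theorem conj_pow_mul {a b : G} (ha : a * a = 1) (hb : b * b = 1) (i : ℕ) :
    a * (a * b) ^ i * a = ((a * b) ^ i)⁻¹ := by
  have h : a * (a * b) * a⁻¹ = (a * b)⁻¹ := by
    rw [mul_inv_rev, inv_eq_of_sq hb, ← mul_assoc a a b, ha, one_mul, inv_eq_of_sq ha]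
  calc a * (a * b) ^ i * a = a * (a * b) ^ i * a⁻¹ := by rw [inv_eq_of_sq ha]
    _ = (a * (a * b) * a⁻¹) ^ i := conj_pow.symm
    _ = _ := by rw [h, inv_pow]

/-- Two involutions with product of odd order are conjugate. -/
theorem conj_of_odd {a b : G} (ha : a * a = 1) (hb : b * b = 1)
    (h : ¬ 2 ∣ orderOf (a * b)) : ∃ i, (a * b) ^ i * a * ((a * b) ^ i)⁻¹ = b := by
  obtain ⟨i, hi⟩ : ∃ i, orderOf (a * b) = 2 * i + 1 := ⟨orderOf (a * b) / 2, by omega⟩
  refine ⟨i, ?_⟩
  rw [← conj_pow_mul ha hb i,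
    show (a * b) ^ i * a * (a * (a * b) ^ i * a) = (a * b) ^ i * (a * a) * (a * b) ^ i * a by
      simp only [mul_assoc],
    ha, mul_one, ← pow_add, ← two_mul]
  have h1 : (a * b) ^ (2 * i) * (a * b) = 1 := by rw [← pow_succ, ← hi, pow_orderOf_eq_one]
  rw [eq_inv_of_mul_eq_one_left h1, mul_inv_rev, inv_eq_of_sq ha, inv_eq_of_sq hb, mul_assoc, ha,
    mul_one]

variable {t : G} (ht : Isolated t)

include ht

theorem Isolated.conj_sq (g : G) : g * t * g⁻¹ * (g * t * g⁻¹) = 1 := by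
  rw [show g * t * g⁻¹ * (g * t * g⁻¹) = g * (t * t) * g⁻¹ by group, ht.2.1]
  group

/-- **Products of two conjugates** have odd order. -/
theorem Isolated.odd_mul [Finite G] (g : G) : ¬ 2 ∣ orderOf (t * (g * t * g⁻¹)) := by
  set t' := g * t * g⁻¹
  set r := t * t' with hr
  rintro ⟨m, hm⟩
  have hm0 : 0 < m := by have := orderOf_pos r; omega
  have hr1 : r ^ m * r ^ m = 1 := by rw [← pow_add, ← two_mul, ← hm, pow_orderOf_eq_one]
  have hne : r ^ m ≠ 1 := fun h => by
    have := Nat.le_of_dvd hm0 (orderOf_dvd_of_pow_eq_one h)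
    omega
  have htr : ∀ i, t * r ^ i = (r ^ i)⁻¹ * t := fun i => by
    calc t * r ^ i = t * r ^ i * (t * t) := by rw [ht.2.1, mul_one]
      _ = (t * r ^ i * t) * t := by group
      _ = _ := by rw [hr, conj_pow_mul ht.2.1 (ht.conj_sq g)]
  have hcomm : Commute t (r ^ m * t) := by
    show t * (r ^ m * t) = r ^ m * t * t
    rw [← mul_assoc, htr, inv_eq_of_sq hr1]
  have hconj : ∃ c, c * t * c⁻¹ = r ^ m * t := by
    obtain ⟨k, hk⟩ : ∃ k, m = 2 * k ∨ m + 1 = 2 * k := ⟨(m + 1) / 2, by omega⟩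
    rcases hk with hk | hk
    · refine ⟨r ^ k, ?_⟩
      rw [hk, two_mul, pow_add, mul_assoc (r ^ k) (r ^ k), mul_inv_eq_iff_eq_mul]
      rw [mul_assoc (r ^ k) _ (r ^ k), mul_assoc (r ^ k) t, htr, mul_inv_cancel_left]
    · refine ⟨r ^ k * g, ?_⟩
      have ht' : t' = r⁻¹ * t := by
        rw [hr, mul_inv_rev, inv_eq_of_sq (ht.conj_sq g), inv_eq_of_sq ht.2.1, mul_assoc, ht.2.1,
          mul_one]
      calc r ^ k * g * t * (r ^ k * g)⁻¹ = r ^ k * t' * (r ^ k)⁻¹ := by simp only [t']; group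
        _ = r ^ k * (r⁻¹ * t) * (r ^ k)⁻¹ := by rw [ht']
        _ = r ^ k * r⁻¹ * (t * (r ^ k)⁻¹) := by group
        _ = r ^ k * r⁻¹ * (r ^ k * t) := by
          congr 1
          rw [mul_inv_eq_iff_eq_mul, mul_assoc, htr, mul_inv_cancel_left]
        _ = r ^ m * t := by
          rw [← mul_assoc]
          congr 1
          rw [eq_comm, ← mul_right_cancel_iff (a := r), ← pow_succ, hk, two_mul, pow_add]
          group
  obtain ⟨c, hc⟩ := hconj
  have := ht.2.2 c (hc.symm ▸ hcomm)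
  rw [hc, mul_eq_right] at this
  exact hne this

/-- Conjugates are conjugate by a power of their product. -/
theorem Isolated.exists_conj_pow [Finite G] (g : G) :
    ∃ i, (t * (g * t * g⁻¹)) ^ i * t * ((t * (g * t * g⁻¹)) ^ i)⁻¹ = g * t * g⁻¹ :=
  conj_of_odd ht.2.1 (ht.conj_sq g) (ht.odd_mul g)

/-- **Control**: two conjugate elements commuting with `t` are conjugate in its centraliser. -/
theorem Isolated.control [Finite G] {x g : G} (hx : Commute x t)
    (hgx : Commute (g * x * g⁻¹) t) : ∃ c, Commute c t ∧ c * x * c⁻¹ = g * x * g⁻¹ := by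
  obtain ⟨i, hi⟩ := ht.exists_conj_pow g
  set r := t * (g * t * g⁻¹)
  have hcy : Commute (r ^ i) (g * x * g⁻¹) := by
    refine (Commute.mul_left hgx.symm ?_).pow_left i
    show g * t * g⁻¹ * (g * x * g⁻¹) = g * x * g⁻¹ * (g * t * g⁻¹)
    rw [show g * t * g⁻¹ * (g * x * g⁻¹) = g * (t * x) * g⁻¹ by group, ← hx.eq]
    group
  refine ⟨(r ^ i)⁻¹ * g, ?_, ?_⟩
  · show (r ^ i)⁻¹ * g * t = t * ((r ^ i)⁻¹ * g)
    rw [show (r ^ i)⁻¹ * g * t = (r ^ i)⁻¹ * (g * t * g⁻¹) * g by group, ← hi]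
    group
  · calc (r ^ i)⁻¹ * g * x * ((r ^ i)⁻¹ * g)⁻¹ = (r ^ i)⁻¹ * (g * x * g⁻¹) * r ^ i := by group
      _ = g * x * g⁻¹ := by rw [mul_assoc, ← hcy.eq, inv_mul_cancel_left]

theorem Isolated.subgroup {H : Subgroup G} (htH : t ∈ H) : Isolated (⟨t, htH⟩ : H) :=
  ⟨fun h => ht.1 (congrArg Subtype.val h), Subtype.ext ht.2.1, fun g hg =>
    Subtype.ext (ht.2.2 (g : G) (congrArg Subtype.val hg))⟩

theorem Isolated.map [Finite G] {Q : Type u} [Group Q] (π : G →* Q)
    (hπ : Function.Surjective π) (h : π t ≠ 1) : Isolated (π t) := by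
  refine ⟨h, by rw [← map_mul, ht.2.1, map_one], fun q hq => ?_⟩
  obtain ⟨g, rfl⟩ := hπ q
  rw [← map_inv, ← map_mul, ← map_mul] at hq ⊢
  set r := t * (g * t * g⁻¹) with hr
  have h2 : π r ^ 2 = 1 := by
    rw [hr, map_mul, sq, mul_assoc, ← mul_assoc (π (g * t * g⁻¹)), ← hq.eq, mul_assoc,
      ← map_mul π (g * t * g⁻¹), ht.conj_sq g, map_one, mul_one, ← map_mul, ht.2.1, map_one]
  have h1 : π r = 1 := by
    rcases (Nat.dvd_prime Nat.prime_two).1 (orderOf_dvd_of_pow_eq_one h2) with e | e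
    · exact orderOf_eq_one_iff.1 e
    · exact absurd (e ▸ orderOf_map_dvd π r) (ht.odd_mul g)
  rw [hr, map_mul] at h1
  rw [eq_inv_of_mul_eq_one_right h1, ← map_inv, inv_eq_of_sq ht.2.1]

omit ht

theorem odd_card_sup {N M : Subgroup G} [N.Normal] [Finite G] (hN : Odd (Nat.card N))
    (hM : Odd (Nat.card M)) : Odd (Nat.card ↥(N ⊔ M)) := by
  have h : Nat.card ↥(N ⊔ M) = Nat.card N * N.relIndex (N ⊔ M) :=
    (card_mul_index (N.subgroupOf (N ⊔ M))).symm.trans (by
      rw [relIndex, Nat.card_congr (subgroupOfEquivOfLe (le_sup_left : N ≤ N ⊔ M)).toEquiv])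
  rw [h, sup_comm, relIndex_sup_right]
  exact hN.mul (hM.of_dvd_nat (N.relIndex_dvd_card M))

/-- The largest normal subgroup of odd order exists. -/
theorem exists_oddCore (G : Type u) [Group G] [Finite G] :
    ∃ N : Subgroup G, N.Normal ∧ Odd (Nat.card N) ∧
      ∀ M : Subgroup G, M.Normal → Odd (Nat.card M) → M ≤ N := by
  obtain ⟨N, ⟨hN, hodd⟩, hmax⟩ := Set.exists_max_image
    {N : Subgroup G | N.Normal ∧ Odd (Nat.card N)} (fun N => Nat.card N) (Set.toFinite _)
    ⟨⊥, inferInstance, by simp⟩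
  refine ⟨N, hN, hodd, fun M hM hMo => ?_⟩
  haveI := hN
  haveI := hM
  have h := eq_of_le_of_card_ge (le_sup_left : N ≤ N ⊔ M)
    (hmax _ ⟨sup_normal N M, odd_card_sup hodd hMo⟩)
  rw [h]
  exact le_sup_right

/-- No normal subgroup of odd order. -/
def NoOdd (G : Type u) [Group G] : Prop :=
  ∀ N : Subgroup G, N.Normal → Odd (Nat.card N) → N = ⊥

theorem card_lt_of_ne_top [Finite G] {H : Subgroup G} (h : H ≠ ⊤) : Nat.card H < Nat.card G :=
  lt_of_le_of_ne (Nat.le_of_dvd Nat.card_pos H.card_subgroup_dvd_card) fun e =>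
    h ((card_eq_iff_eq_top H).1 e)

theorem card_quotient_lt [Finite G] {H : Subgroup G} (h : H ≠ ⊥) :
    Nat.card (G ⧸ H) < Nat.card G := by
  rw [card_eq_card_quotient_mul_card_subgroup H]
  refine lt_mul_of_one_lt_right Nat.card_pos ?_
  exact (one_lt_card_iff_ne_bot H).2 h

theorem card_comap_mk {K : Subgroup G} [K.Normal] (N : Subgroup (G ⧸ K)) :
    Nat.card (N.comap (QuotientGroup.mk' K)) = Nat.card K * Nat.card N := by
  have h1 : K ≤ N.comap (QuotientGroup.mk' K) := fun k hk => by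
    rw [mem_comap, show QuotientGroup.mk' K k = 1 from (QuotientGroup.eq_one_iff k).2 hk]
    exact one_mem N
  rw [← card_mul_index (K.subgroupOf (N.comap (QuotientGroup.mk' K))),
    Nat.card_congr (subgroupOfEquivOfLe h1).toEquiv]
  congr 1
  have h2 : K = (⊥ : Subgroup (G ⧸ K)).comap (QuotientGroup.mk' K) := by
    rw [MonoidHom.comap_bot, QuotientGroup.ker_mk']
  show K.relIndex _ = _
  conv_lhs => arg 1; rw [h2]
  rw [relIndex_comap, map_comap_eq_self_of_surjective (QuotientGroup.mk'_surjective K),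
    relIndex_bot_left]

include ht

/-- Reduction to a trivial odd core. -/
theorem zcentral_of_noOdd [Finite G] (IH : Below G)
    (hcore : NoOdd G → ∀ g, g * t * g⁻¹ = t) : ZCentral G t := by
  obtain ⟨N, hN, hodd, hmax⟩ := exists_oddCore G
  rcases eq_or_ne N ⊥ with rfl | hne
  · refine ⟨⊥, hN, hodd, fun g => ?_⟩
    rw [hcore (fun M hM hMo => le_bot_iff.1 (hmax M hM hMo)) g, mul_inv_cancel]
    exact one_mem _
  haveI := hN
  set π := QuotientGroup.mk' N with hπdef
  have hπ : Function.Surjective π := QuotientGroup.mk'_surjective N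
  have htN : π t ≠ 1 := fun h => by
    have h1 : t ∈ N := (QuotientGroup.eq_one_iff t).1 h
    have h2 := N.orderOf_dvd_natCard h1
    rw [orderOf_eq_prime (p := 2) (by rw [sq]; exact ht.2.1) ht.1] at h2
    exact Nat.not_even_iff_odd.2 hodd (even_iff_two_dvd.2 h2)
  obtain ⟨M, hM, hMo, hMt⟩ := IH (G ⧸ N) (card_quotient_lt hne) (π t) (ht.map π hπ htN)
  haveI := hM
  refine ⟨M.comap π, inferInstance, ?_, fun g => ?_⟩
  · rw [hπdef, card_comap_mk]
    exact hodd.mul hMo
  · show π _ ∈ M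
    simpa using hMt (π g)

/-- **A proper normal subgroup containing `t`** makes it central. -/
theorem central_of_normal [Finite G] (IH : Below G) (hodd : NoOdd G) (L : Subgroup G) [L.Normal]
    (hL : L ≠ ⊤) (htL : t ∈ L) (g : G) : g * t * g⁻¹ = t := by
  obtain ⟨N, hN, hNo, hNt⟩ := IH L (card_lt_of_ne_top hL) _ (ht.subgroup htL)
  obtain ⟨N₀, hN₀, hN₀o, hmax⟩ := exists_oddCore L
  have hnorm : (N₀.map L.subtype).Normal := ⟨fun x hx c => by
    obtain ⟨y, hy, rfl⟩ := hx
    set e : L ≃* L := MulAut.conjNormal c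
    have hle : N₀.map e.toMonoidHom ≤ N₀ := hmax _ (hN₀.map _ e.surjective)
      ((congrArg Odd (Nat.card_congr (N₀.equivMapOfInjective e.toMonoidHom e.injective).toEquiv)).mp
        hN₀o)
    exact ⟨e y, hle ⟨y, hy, rfl⟩, MulAut.conjNormal_apply c y⟩⟩
  have hbot : N₀.map L.subtype = ⊥ := hodd _ hnorm (by
    rw [← Nat.card_congr (N₀.equivMapOfInjective _ L.subtype_injective).toEquiv]; exact hN₀o)
  rw [map_eq_bot_iff_of_injective _ L.subtype_injective] at hbot
  have htc : ∀ l : L, (l : G) * t * (l : G)⁻¹ = t := fun l => by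
    have h := hmax N hN hNo (hNt l)
    rw [hbot, mem_bot, mul_inv_eq_one] at h
    exact congrArg Subtype.val h
  refine ht.2.2 g ?_
  have h := htc ⟨g * t * g⁻¹, ‹L.Normal›.conj_mem t htL g⟩
  exact (mul_inv_eq_iff_eq_mul.1 h).symm

/-- **A central involution** makes `t` central. -/
theorem central_of_center [Finite G] (IH : Below G) (hodd : NoOdd G) {z : G} (hz : z * z = 1)
    (hz1 : z ≠ 1) (hzc : ∀ g, g * z = z * g) (g : G) : g * t * g⁻¹ = t := by
  rcases eq_or_ne t z with rfl | htz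
  · rw [hzc g, mul_inv_cancel_right]
  set Z := zpowers z
  have hZn : Z.Normal := ⟨fun x hx c => by
    obtain ⟨i, rfl⟩ := hx
    rw [((show Commute c z from hzc c).zpow_right i).eq, mul_inv_cancel_right]
    exact zpow_mem (mem_zpowers z) i⟩
  have hordz : orderOf z = 2 := orderOf_eq_prime (by rw [sq]; exact hz) hz1
  set π := QuotientGroup.mk' Z with hπdef
  have hker : ∀ x, π x = 1 → x = 1 ∨ x = z := fun x hx => by
    obtain ⟨i, hi⟩ := mem_zpowers_iff.1 ((QuotientGroup.eq_one_iff x).1 hx)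
    rw [← hi, zpow_eq_zpow_emod i (show z ^ (2 : ℤ) = 1 by rw [zpow_two]; exact hz)]
    rcases Int.emod_two_eq_zero_or_one i with h | h <;> simp [h]
  have htπ : π t ≠ 1 := fun h => (hker t h).elim ht.1 htz
  obtain ⟨M, hM, hMo, hMt⟩ := IH (G ⧸ Z)
    (card_quotient_lt (by rw [ne_eq, zpowers_eq_bot]; exact hz1))
    (π t) (ht.map π (QuotientGroup.mk'_surjective Z) htπ)
  set M' := M.comap π
  haveI := hM
  have hpow : ∀ x ∈ M', π (x ^ Nat.card M) = 1 := fun x hx => by
    rw [map_pow]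
    exact orderOf_dvd_iff_pow_eq_one.1 (M.orderOf_dvd_natCard hx)
  have hnz : z ^ Nat.card M = z := by
    obtain ⟨k, hk⟩ := hMo
    rw [hk, pow_succ, pow_mul, sq, hz, one_pow, one_mul]
  have hinv : ∀ x ∈ M', x * x = 1 → x = 1 ∨ x = z := fun x hx h2 => hker x (by
    have h := hpow x hx
    obtain ⟨k, hk⟩ := hMo
    rwa [hk, pow_succ, pow_mul, sq, h2, one_pow, one_mul] at h)
  -- `x ↦ x ^ card M` is a homomorphism on `M'`
  have hd : (center M').index ∣ Nat.card M := by
    have hzM : z ∈ M' := by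
      rw [mem_comap, show π z = 1 from (QuotientGroup.eq_one_iff z).2 (mem_zpowers z)]
      exact one_mem M
    have hle : Z.subgroupOf M' ≤ center M' := fun x hx => mem_center_iff.2 fun y => by
      obtain ⟨i, hi⟩ := mem_zpowers_iff.1 (mem_subgroupOf.1 hx)
      exact Subtype.ext (by
        push_cast
        rw [← hi, ((show Commute (y : G) z from hzc _).zpow_right i).eq])
    refine (index_dvd_of_le hle).trans (dvd_of_eq ?_)
    have h1 := card_mul_index (Z.subgroupOf M')
    rw [Nat.card_congr (subgroupOfEquivOfLe (zpowers_le.2 hzM)).toEquiv, card_comap_mk] at h1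
    exact Nat.eq_of_mul_eq_mul_left Nat.card_pos h1
  obtain ⟨e, he⟩ := hd
  have hmul : ∀ a b : M', (a * b) ^ Nat.card M = a ^ Nat.card M * b ^ Nat.card M := fun a b => by
    set c := (center M').index
    have hhom : ((a * b) ^ c : M') = a ^ c * b ^ c := by
      have h := map_mul (MonoidHom.transferCenterPow M') a b
      exact congrArg Subtype.val h
    have hcomm : Commute (a ^ c) (b ^ c) :=
      (mem_center_iff.1 (MonoidHom.transferCenterPow M' b).2 (a ^ c))
    rw [he, pow_mul, hhom, hcomm.mul_pow, ← pow_mul, ← pow_mul]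
  let K : Subgroup G :=
    { carrier := {x | x ∈ M' ∧ x ^ Nat.card M = 1}
      one_mem' := ⟨one_mem _, one_pow _⟩
      mul_mem' := fun {a b} ha hb => ⟨mul_mem ha.1 hb.1, by
        have h := congrArg Subtype.val (hmul ⟨a, ha.1⟩ ⟨b, hb.1⟩)
        push_cast at h
        rw [h, ha.2, hb.2, one_mul]⟩
      inv_mem' := fun {a} ha => ⟨inv_mem ha.1, by rw [inv_pow, ha.2, inv_one]⟩ }
  have hK : K.Normal := ⟨fun x hx c => ⟨(inferInstance : M'.Normal).conj_mem x hx.1 c, by
    rw [conj_pow, hx.2, mul_one, mul_inv_cancel]⟩⟩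
  have hKodd : Odd (Nat.card K) := by
    rw [← Nat.not_even_iff_odd, even_iff_two_dvd]
    intro h
    haveI : Fact (Nat.Prime 2) := ⟨Nat.prime_two⟩
    obtain ⟨x, hx⟩ := exists_prime_orderOf_dvd_card' (G := K) 2 h
    have hx2 : (x : G) * x = 1 := by
      rw [← sq, ← SubgroupClass.coe_pow, ← hx, pow_orderOf_eq_one, coe_one]
    rcases hinv x x.2.1 hx2 with h1 | h1
    · rw [← orderOf_coe, h1, orderOf_one] at hx
      exact absurd hx (by norm_num)
    · have h3 : (x : G) ^ Nat.card M = 1 := x.2.2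
      rw [h1, hnz] at h3
      exact hz1 h3
  set c := g * t * g⁻¹ * t⁻¹ with hc
  have hcM : c ∈ M' := by show π _ ∈ M; simpa [hc] using hMt (π g)
  have hcodd : ¬ 2 ∣ orderOf c := by
    have h1 := ht.odd_mul g
    rwa [← orderOf_inv, mul_inv_rev, inv_eq_of_sq (ht.conj_sq g)] at h1
  have hcn : c ^ Nat.card M = 1 := by
    rcases hker _ (hpow c hcM) with h | h
    · exact h
    · refine absurd ?_ hcodd
      rw [← hordz, ← h]
      exact orderOf_pow_dvd _
  have hcK : c ∈ K := ⟨hcM, hcn⟩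
  rw [hodd K hK hKodd, mem_bot, hc, mul_inv_eq_one] at hcK
  exact hcK

end FA.ZStar

end
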