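import Fermat.Agent.ZStar.Quaternion

/-!
# The centraliser of the involution

`C = C(t)` and `Q = C ⧸ ⟨t⟩`: the elements of odd order of the two groups correspond, the
centraliser of the image `xb` of `x` has a normal `2`-complement of index `4`, and the principal
block of `Q` consists of four characters, constant and `± 1` on the elements of even order.
-/

set_option autoImplicit false
set_option linter.style.haveILetI false

universe u

noncomputable section

open Finset FA.FrobeniusGroups FA.CharacterTheory FA.PrincipalBlock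
open FA.Thompson (Reg PComp exists_decomp exists_reg_lift reg_conj_iff)
open scoped Classical

namespace FA.ZStar

local instance : Fact (Nat.Prime 2) := ⟨Nat.prime_two⟩

theorem index_four {H : Type*} [Group H] [Finite H] (hP : PComp 2 H) (h4 : 4 ∣ Nat.card H)
    (h8 : ¬ 8 ∣ Nat.card H) : Nat.card H = 4 * Nat.card hP.regSubgroup := by
  haveI := hP.regSubgroup_normal
  obtain ⟨a, ha⟩ := IsPGroup.iff_card.1 hP.isPGroup_quotient
  have hK := hP.not_dvd_card
  have h := Subgroup.card_eq_card_quotient_mul_card_subgroup hP.regSubgroup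
  rw [ha] at h
  obtain ⟨i, hi⟩ : ∃ i, Nat.card hP.regSubgroup = 2 * i + 1 :=
    ⟨Nat.card hP.regSubgroup / 2, by omega⟩
  rw [h] at h4 h8 ⊢
  rcases a with _ | _ | _ | a
  · simp at h4; omega
  · simp at h4; omega
  · norm_num
  · exact absurd (Dvd.intro (2 ^ a * Nat.card hP.regSubgroup) (by ring)) h8

variable {G : Type u} [Group G] [Fintype G] (D : Setup G)

namespace Setup

theorem x_four : D.x * D.x * (D.x * D.x) = 1 := by rw [D.x_sq, D.t_iso.2.1]

theorem t_pEl : PEl 2 D.t := ⟨1, by rw [pow_one, sq, D.t_iso.2.1]⟩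

theorem x_pEl : PEl 2 D.x := pEl_of_sq_sq D.x_four

theorem x_t : Commute D.x D.t := by
  rw [← D.x_sq]
  exact (Commute.refl D.x).mul_right (Commute.refl D.x)

theorem y_t : Commute D.y D.t := by
  rw [← D.y_sq]
  exact (Commute.refl D.y).mul_right (Commute.refl D.y)

theorem x_inv : D.x⁻¹ = D.x * D.t :=
  inv_eq_of_mul_eq_one_right (by rw [← mul_assoc, D.x_sq, D.t_iso.2.1])

theorem orderOf_x : orderOf D.x = 4 := by
  refine orderOf_eq_prime_pow (p := 2) (n := 1) (fun h => D.t_iso.1 ?_) ?_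
  · rw [← D.x_sq, ← sq]; exact h
  · rw [show (2 : ℕ) ^ (1 + 1) = 2 + 2 from rfl, pow_add, sq, D.x_four]

/-- The centraliser of `x`. -/
def cx : Subgroup G := Subgroup.centralizer {D.x}

theorem mem_cx {g : G} : g ∈ D.cx ↔ g * D.x = D.x * g := Subgroup.mem_centralizer_singleton_iff

theorem x_mem_cx : D.x ∈ D.cx := D.mem_cx.2 rfl

theorem cx_facts : 4 ∣ Nat.card D.cx ∧ ¬ 8 ∣ Nat.card D.cx := by
  refine ⟨?_, fun h => ?_⟩
  · rw [← D.orderOf_x]
    exact D.cx.orderOf_dvd_natCard D.x_mem_cx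
  · obtain ⟨P, hP⟩ := Sylow.exists_subgroup_card_pow_prime (G := D.cx) 2 (n := 3) h
    have hle : P.map D.cx.subtype ≤ Subgroup.zpowers D.x := by
      rintro _ ⟨z, hz, rfl⟩
      refine D.xcls _ (D.mem_cx.1 z.2) ⟨3, ?_⟩
      have h1 : z ^ 2 ^ 3 = 1 :=
        orderOf_dvd_iff_pow_eq_one.1 (hP ▸ P.orderOf_dvd_natCard hz)
      exact congrArg Subtype.val h1
    have h1 := Subgroup.card_dvd_of_le hle
    rw [Nat.card_zpowers, D.orderOf_x,
      Nat.card_congr (P.equivMapOfInjective _ D.cx.subtype_injective).symm.toEquiv, hP] at h1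
    exact absurd h1 (by decide)

/-- The centraliser of `x` has a normal `2`-complement. -/
theorem pcomp_cx : PComp 2 D.cx := by
  set Z : Subgroup D.cx := Subgroup.zpowers ⟨D.x, D.x_mem_cx⟩
  have hZc : Z ≤ Subgroup.center D.cx := Subgroup.zpowers_le.2
    (Subgroup.mem_center_iff.2 fun g => Subtype.ext (D.mem_cx.1 g.2))
  have hZcard : Nat.card Z = 4 := by
    rw [Nat.card_zpowers, ← Subgroup.orderOf_coe]
    exact D.orderOf_x
  refine FA.Thompson.pcomp_of_central Z (IsPGroup.of_card (n := 2) hZcard) hZc fun h => ?_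
  refine D.cx_facts.2 ?_
  rw [← Z.card_mul_index, hZcard]
  exact mul_dvd_mul_left 4 h

/-- The centraliser of `t`. -/
def ct : Subgroup G := Subgroup.centralizer {D.t}

theorem mem_ct {g : G} : g ∈ D.ct ↔ g * D.t = D.t * g := Subgroup.mem_centralizer_singleton_iff

/-- The involution, in its centraliser. -/
def tC : D.ct := ⟨D.t, D.mem_ct.2 rfl⟩

/-- The element of order `4`. -/
def xC : D.ct := ⟨D.x, D.mem_ct.2 D.x_t⟩

/-- The element inverting it. -/
def yC : D.ct := ⟨D.y, D.mem_ct.2 D.y_t⟩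

theorem tC_central (g : D.ct) : g * D.tC = D.tC * g := Subtype.ext (D.mem_ct.1 g.2)

theorem tC_sq : D.tC * D.tC = 1 := Subtype.ext D.t_iso.2.1

theorem tC_ne_one : D.tC ≠ 1 := fun h => D.t_iso.1 (congrArg Subtype.val h)

theorem tC_tC (c : D.ct) : D.tC * (D.tC * c) = c := by rw [← mul_assoc, D.tC_sq, one_mul]

/-- The kernel of `C → Q`. -/
def Z : Subgroup D.ct := Subgroup.zpowers D.tC

instance : D.Z.Normal :=
  ⟨fun z hz g => by
    obtain ⟨i, rfl⟩ := Subgroup.mem_zpowers_iff.1 hz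
    rw [((show Commute g D.tC from D.tC_central g).zpow_right i).eq, mul_inv_cancel_right]
    exact zpow_mem (Subgroup.mem_zpowers _) i⟩

/-- The quotient by the involution. -/
abbrev Q : Type u := D.ct ⧸ D.Z

instance : Fintype D.Q := Fintype.ofFinite _

/-- The quotient map. -/
def π : D.ct →* D.Q := QuotientGroup.mk' D.Z

theorem π_surjective : Function.Surjective D.π := QuotientGroup.mk'_surjective _

theorem π_t : D.π D.tC = 1 := (QuotientGroup.eq_one_iff _).2 (Subgroup.mem_zpowers _)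

theorem π_t_mul (c : D.ct) : D.π (D.tC * c) = D.π c := by rw [map_mul, D.π_t, one_mul]

theorem π_eq_one {c : D.ct} (h : D.π c = 1) : c = 1 ∨ c = D.tC := by
  obtain ⟨i, rfl⟩ := Subgroup.mem_zpowers_iff.1 ((QuotientGroup.eq_one_iff (N := D.Z) c).1 h)
  rw [zpow_eq_zpow_emod i (show D.tC ^ (2 : ℤ) = 1 by rw [zpow_two]; exact D.tC_sq)]
  rcases Int.emod_two_eq_zero_or_one i with h | h <;> simp [h]

theorem π_eq {c d : D.ct} (h : D.π c = D.π d) : c = d ∨ c = D.tC * d := by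
  rcases D.π_eq_one (c := c * d⁻¹) (by rw [map_mul, map_inv, h, mul_inv_cancel]) with h | h
  · exact Or.inl (mul_inv_eq_one.1 h)
  · exact Or.inr (mul_inv_eq_iff_eq_mul.1 h)

theorem card_ct : Nat.card D.ct = 2 * Nat.card D.Q := by
  rw [Subgroup.card_eq_card_quotient_mul_card_subgroup D.Z, mul_comm]
  congr 1
  rw [Z, Nat.card_zpowers, orderOf_eq_prime (by rw [sq]; exact D.tC_sq) D.tC_ne_one]

theorem eight_Q : ¬ 8 ∣ Nat.card D.Q := fun h => D.not16 (by
  refine dvd_trans ?_ D.ct.card_subgroup_dvd_card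
  rw [D.card_ct]
  exact mul_dvd_mul_left 2 h)

/-- Elements of odd order are never `t` times elements of odd order. -/
theorem not_reg_t_mul {c : D.ct} (h : Reg 2 c) : ¬ Reg 2 (D.tC * c) := fun h' => by
  have h1 : D.tC ^ (orderOf c * orderOf (D.tC * c)) = 1 := by
    have hc : Commute D.tC c := (D.tC_central c).symm
    have h2 := hc.mul_pow (orderOf c * orderOf (D.tC * c))
    rw [pow_mul c, pow_orderOf_eq_one, one_pow, mul_one, mul_comm (orderOf c),
      pow_mul (D.tC * c), pow_orderOf_eq_one, one_pow] at h2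
    rw [mul_comm (orderOf c), ← h2]
  obtain ⟨i, hi⟩ : ∃ i, orderOf c * orderOf (D.tC * c) = 2 * i + 1 :=
    ⟨orderOf c * orderOf (D.tC * c) / 2, by
      have := Nat.prime_two.not_dvd_mul h h'
      omega⟩
  rw [hi, pow_succ, pow_mul, sq, D.tC_sq, one_pow, one_mul] at h1
  exact D.tC_ne_one h1

theorem reg_or {c : D.ct} (h : Reg 2 (D.π c)) : Reg 2 c ∨ Reg 2 (D.tC * c) := by
  obtain ⟨c', hc', he⟩ := exists_reg_lift D.π h
  rcases D.π_eq he with rfl | rfl
  · exact Or.inl hc'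
  · exact Or.inr hc'

/-- The lift of odd order. -/
def lift (q : D.Q) : D.ct :=
  if h : ∃ c, Reg 2 c ∧ D.π c = q then h.choose else 1

theorem lift_spec {q : D.Q} (h : Reg 2 q) : Reg 2 (D.lift q) ∧ D.π (D.lift q) = q := by
  have he : ∃ c, Reg 2 c ∧ D.π c = q := by
    obtain ⟨c, rfl⟩ := D.π_surjective q
    exact exists_reg_lift D.π h
  rw [lift, dif_pos he]
  exact he.choose_spec

theorem lift_unique {c : D.ct} (h : Reg 2 c) : D.lift (D.π c) = c := by
  obtain ⟨h1, h2⟩ := D.lift_spec (h.map D.π)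
  rcases D.π_eq h2 with e | e
  · exact e
  · exact absurd (e ▸ h1) (D.not_reg_t_mul h)

theorem lift_one : D.lift 1 = 1 := by simpa using D.lift_unique (c := 1) Reg.one

theorem lift_inv {q : D.Q} (h : Reg 2 q) : D.lift q⁻¹ = (D.lift q)⁻¹ := by
  obtain ⟨h1, h2⟩ := D.lift_spec h
  conv_lhs => rw [← h2, ← map_inv]
  exact D.lift_unique h1.inv

theorem lift_conj {q : D.Q} (h : Reg 2 q) (g : D.ct) :
    D.lift (D.π g * q * (D.π g)⁻¹) = g * D.lift q * g⁻¹ := by
  obtain ⟨h1, h2⟩ := D.lift_spec h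
  conv_lhs => rw [← h2, ← map_inv, ← map_mul, ← map_mul]
  exact D.lift_unique (reg_conj_iff.2 h1)

/-- **Sums over elements of odd order.** -/
theorem sum_reg (F : D.ct → ℂ) :
    ∑ c, (if Reg 2 c then F c else 0) = ∑ q, if Reg 2 q then F (D.lift q) else 0 := by
  rw [← sum_filter, ← sum_filter]
  refine sum_nbij' D.π D.lift (fun c hc => ?_) (fun q hq => ?_) (fun c hc => ?_) (fun q hq => ?_)
    fun c hc => ?_
  · exact mem_filter.2 ⟨mem_univ _, (mem_filter.1 hc).2.map D.π⟩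
  · exact mem_filter.2 ⟨mem_univ _, (D.lift_spec (mem_filter.1 hq).2).1⟩
  · exact D.lift_unique (mem_filter.1 hc).2
  · exact (D.lift_spec (mem_filter.1 hq).2).2
  · rw [D.lift_unique (mem_filter.1 hc).2]

theorem sum_reg_t (F : D.ct → ℂ) :
    ∑ c, (if Reg 2 (D.tC * c) then F c else 0) =
      ∑ q, if Reg 2 q then F (D.tC * D.lift q) else 0 := by
  rw [← D.sum_reg fun c => F (D.tC * c)]
  exact Fintype.sum_equiv (Equiv.mulLeft D.tC) _ _ fun c => by
    simp only [Equiv.coe_mulLeft, D.tC_tC]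

/-- The image of `x`. -/
def xb : D.Q := D.π D.xC

/-- Its centraliser. -/
def cb : Subgroup D.Q := Subgroup.centralizer {D.xb}

theorem mem_cb {q : D.Q} : q ∈ D.cb ↔ q * D.xb = D.xb * q :=
  Subgroup.mem_centralizer_singleton_iff

theorem xb_sq : D.xb * D.xb = 1 := by
  rw [xb, ← map_mul, show D.xC * D.xC = D.tC from Subtype.ext D.x_sq, D.π_t]

theorem xb_ne_one : D.xb ≠ 1 := fun h => by
  rcases D.π_eq_one h with e | e
  · have e' : D.x = 1 := congrArg Subtype.val e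
    exact D.t_iso.1 (by rw [← D.x_sq, e', mul_one])
  · have e' : D.x = D.t := congrArg Subtype.val e
    exact D.t_iso.1 (by
      have h2 := D.x_sq
      rw [e', D.t_iso.2.1] at h2
      exact h2.symm)

theorem xb_pEl : PEl 2 D.xb := ⟨1, by rw [pow_one, sq]; exact D.xb_sq⟩

theorem not_reg_xb : ¬ Reg 2 D.xb := not_reg_of_sq D.xb_sq D.xb_ne_one

theorem lift_commute_x {c : D.ct} (hc : Reg 2 c) (h : D.π c ∈ D.cb) : Commute (c : G) D.x := by
  have h1 := D.mem_cb.1 h
  rw [xb, ← map_mul, ← map_mul] at h1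
  rcases D.π_eq h1 with e | e
  · exact congrArg Subtype.val e
  · have he : (c : G) * D.x * (c : G)⁻¹ = D.x⁻¹ := by
      have e' : (c : G) * D.x = D.t * (D.x * c) := congrArg Subtype.val e
      rw [e', D.x_inv, D.x_t.eq]
      group
    have h2 : Commute ((c : G) ^ 2) D.x := by
      show (c : G) ^ 2 * D.x = D.x * (c : G) ^ 2
      refine mul_inv_eq_iff_eq_mul.1 ?_
      rw [show (c : G) ^ 2 * D.x * ((c : G) ^ 2)⁻¹ = c * (c * D.x * (c : G)⁻¹) * (c : G)⁻¹ by
        rw [sq]; group,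
        he, show (c : G) * D.x⁻¹ * (c : G)⁻¹ = (c * D.x * (c : G)⁻¹)⁻¹ by group, he, inv_inv]
    obtain ⟨i, hi⟩ : ∃ i, orderOf c = 2 * i + 1 := ⟨orderOf c / 2, by
      have := hc
      unfold Reg at this
      omega⟩
    have h3 : (c : G) = ((c : G) ^ 2) ^ (i + 1) := by
      rw [← pow_mul, show 2 * (i + 1) = orderOf c + 1 by omega, pow_succ, ← SubgroupClass.coe_pow,
        pow_orderOf_eq_one, OneMemClass.coe_one, one_mul]
    rw [h3]
    exact h2.pow_left _

theorem pcomp_cb : PComp 2 D.cb := fun a b ha hb => by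
  obtain ⟨la, ha'⟩ := D.lift_spec (reg_coe.2 ha)
  obtain ⟨lb, hb'⟩ := D.lift_spec (reg_coe.2 hb)
  have hca := D.lift_commute_x la (by rw [ha']; exact a.2)
  have hcb := D.lift_commute_x lb (by rw [hb']; exact b.2)
  have h : Reg 2 (D.lift a * D.lift b) := by
    have h0 := D.pcomp_cx ⟨_, D.mem_cx.2 hca⟩ ⟨_, D.mem_cx.2 hcb⟩
      ((reg_coe (c := (⟨_, D.mem_cx.2 hca⟩ : D.cx))).1 (reg_coe (c := D.lift a) |>.2 la))
      ((reg_coe (c := (⟨_, D.mem_cx.2 hcb⟩ : D.cx))).1 (reg_coe (c := D.lift b) |>.2 lb))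
    have h1 : Reg 2 ((D.lift a : G) * D.lift b) := reg_coe.2 h0
    exact (reg_coe (c := D.lift a * D.lift b)).1 h1
  have h2 := h.map D.π
  rw [map_mul, ha', hb'] at h2
  exact reg_coe.1 h2

theorem cb_facts : 4 ∣ Nat.card D.cb ∧ ¬ 8 ∣ Nat.card D.cb := by
  refine ⟨?_, fun h => D.eight_Q (h.trans D.cb.card_subgroup_dvd_card)⟩
  have hx : D.xb ∈ D.cb := D.mem_cb.2 rfl
  have hyx : D.π D.yC ∈ D.cb := D.mem_cb.2 (by
    rw [xb, ← map_mul, ← map_mul, show D.yC * D.xC = D.tC * (D.xC * D.yC) from Subtype.ext (by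
      show D.y * D.x = D.t * (D.x * D.y)
      rw [← mul_assoc, ← D.x_t.eq, ← D.x_inv]
      exact mul_inv_eq_iff_eq_mul.1 D.y_x), D.π_t_mul])
  set Z : Subgroup D.cb := Subgroup.zpowers ⟨D.xb, hx⟩
  haveI : Z.Normal := ⟨fun z hz g => by
    obtain ⟨i, rfl⟩ := Subgroup.mem_zpowers_iff.1 hz
    rw [((show Commute g ⟨D.xb, hx⟩ from Subtype.ext (D.mem_cb.1 g.2)).zpow_right i).eq,
      mul_inv_cancel_right]
    exact zpow_mem (Subgroup.mem_zpowers _) i⟩
  have hy2 : (QuotientGroup.mk' Z ⟨_, hyx⟩) ^ 2 = 1 := by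
    rw [← map_pow, show (⟨D.π D.yC, hyx⟩ : D.cb) ^ 2 = 1 from Subtype.ext (by
      show (D.π D.yC) ^ 2 = 1
      rw [sq, ← map_mul, show D.yC * D.yC = D.tC from Subtype.ext D.y_sq, D.π_t]), map_one]
  have hy1 : QuotientGroup.mk' Z ⟨_, hyx⟩ ≠ 1 := fun h => by
    obtain ⟨i, hi⟩ := Subgroup.mem_zpowers_iff.1 ((QuotientGroup.eq_one_iff _).1 h)
    have h1 : D.π (D.xC ^ i) = D.π D.yC := by
      rw [map_zpow]
      exact congrArg Subtype.val hi
    rcases D.π_eq h1 with e | e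
    · exact D.y_notMem ⟨i, congrArg Subtype.val e⟩
    · refine D.y_notMem ⟨2 + i, ?_⟩
      have e' : D.x ^ i = D.t * D.y := congrArg Subtype.val e
      show D.x ^ (2 + i) = D.y
      rw [zpow_add, zpow_two, D.x_sq, e', ← mul_assoc, D.t_iso.2.1, one_mul]
  have h2 : 2 ∣ Z.index := orderOf_eq_prime hy2 hy1 ▸ orderOf_dvd_natCard _
  rw [← Z.card_mul_index, Nat.card_zpowers, ← Subgroup.orderOf_coe,
    orderOf_eq_prime (by rw [sq]; exact D.xb_sq) D.xb_ne_one]
  exact mul_dvd_mul_left 2 h2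

/-- **An element of even order** is conjugate into `xb` times the odd core. -/
theorem singular_form {q : D.Q} (hq : ¬ Reg 2 q) :
    ∃ g s : D.Q, Reg 2 s ∧ s * D.xb = D.xb * s ∧ q = g * (D.xb * s) * g⁻¹ := by
  obtain ⟨a, b, ha, hb, hab, ⟨k, hk⟩, hbr⟩ := exists_decomp (p := 2) q
  have ha1 : a ≠ 1 := fun h => hq (by rw [hab, h, one_mul]; exact hbr)
  obtain ⟨c, hc⟩ := D.π_surjective a
  obtain ⟨c₁, c₂, -, hc₂, hcc, hk1, hc₂r⟩ := exists_decomp (p := 2) c
  have hπ2 : D.π c₂ = 1 := by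
    obtain ⟨i, rfl⟩ := hc₂
    refine (hc₂r.map D.π).eq_one_of_pow (k := k) ?_
    rw [map_zpow, hc, ← zpow_natCast, ← zpow_mul, mul_comm, zpow_mul, zpow_natCast, hk, one_zpow]
  have ha' : D.π c₁ = a := by rw [← hc, hcc, map_mul, hπ2, mul_one]
  rcases D.cls (c₁ : G) (D.mem_ct.1 c₁.2) (pEl_coe.2 hk1) with h | h | ⟨g, hgt, hg⟩
  · exact absurd (by rw [← ha', show c₁ = 1 from Subtype.ext h, map_one]) ha1
  · exact absurd (by rw [← ha', show c₁ = D.tC from Subtype.ext h, D.π_t]) ha1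
  set gC : D.ct := ⟨g, D.mem_ct.2 hgt⟩
  have hga : D.π gC * D.xb * (D.π gC)⁻¹ = a := by
    rw [xb, ← ha', ← map_inv, ← map_mul, ← map_mul]
    exact congrArg D.π (Subtype.ext hg)
  refine ⟨D.π gC, (D.π gC)⁻¹ * b * D.π gC, ?_, ?_, ?_⟩
  · have h := (reg_conj_iff (x := (D.π gC)⁻¹)).2 hbr
    rwa [inv_inv] at h
  · obtain ⟨i, hi⟩ := ha
    obtain ⟨l, hl⟩ := hb
    have hcomm : Commute a b := by
      rw [← hi, ← hl]
      exact Commute.zpow_zpow (Commute.refl q) i l
    calc (D.π gC)⁻¹ * b * D.π gC * D.xb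
        = (D.π gC)⁻¹ * (b * (D.π gC * D.xb * (D.π gC)⁻¹)) * D.π gC := by group
      _ = (D.π gC)⁻¹ * ((D.π gC * D.xb * (D.π gC)⁻¹) * b) * D.π gC := by rw [hga, hcomm.eq]
      _ = _ := by group
  · calc q = a * b := hab
      _ = D.π gC * D.xb * (D.π gC)⁻¹ * b := by rw [hga]
      _ = _ := by group

variable (v : Place 2)

/-- **The principal block of `Q` is constant on elements of even order.** -/
theorem prin_singular {φ : D.Q → ℂ} (hφ : φ ∈ prin D.Q v) {q : D.Q} (hq : ¬ Reg 2 q) :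
    φ q = φ D.xb := by
  obtain ⟨g, s, hs, hc, rfl⟩ := D.singular_form hq
  rw [irr_conj ((good_prin v).sub hφ)]
  haveI := D.pcomp_cb.regSubgroup_normal
  exact prin_const (v := v) D.xb_pEl D.cb (fun _ => D.mem_cb) D.pcomp_cb.not_dvd_card hφ
    (s := ⟨s, D.mem_cb.2 hc⟩) (D.pcomp_cb.mem_regSubgroup.2 (reg_coe.1 hs))

theorem prin_int {φ : D.Q → ℂ} (hφ : φ ∈ prin D.Q v) :
    ∃ n : ℤ, φ D.xb = n ∧ φ D.xb⁻¹ = n ∧ n ≠ 0 := by
  have hφi := (good_prin v).sub hφ
  have hinv : D.xb⁻¹ = D.xb := inv_eq_of_sq D.xb_sq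
  obtain ⟨n, hn⟩ := int_value hφi (g := D.xb)
    (by rw [show 4 = 2 + 2 from rfl, pow_add, sq, D.xb_sq, one_mul]) (by rw [hinv])
  refine ⟨n, hn, by rw [hinv, hn], fun h0 => ?_⟩
  set f : D.Q → ℂ := fun q => if IsConj D.xb q then 1 else 0
  have hfc : IsCen v f := ⟨fun g q => by
    have h : IsConj D.xb (g * q * g⁻¹) ↔ IsConj D.xb q :=
      ⟨fun h => h.trans (isConj_iff.2 ⟨g⁻¹, by group⟩), fun h => h.trans (isConj_iff.2 ⟨g, rfl⟩)⟩
    simp only [f, h], fun q => by
    simp only [f]; split_ifs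
    exacts [one_mem _, zero_mem _]⟩
  have hr := (mem_filter.1 hφ).2 f hfc
  have hone : ∀ q, f q * φ q = f q * n := fun q => by
    simp only [f]
    split_ifs with h
    · obtain ⟨g, rfl⟩ := isConj_iff.1 h
      rw [irr_conj hφi, hn]
    · simp
  rw [omega_one, omega, sum_congr rfl fun q _ => hone q, h0, Int.cast_zero, ← sum_mul, mul_zero,
    mul_zero, v.r_zero, show ∑ q, f q = ((univ.filter (IsConj D.xb)).card : ℂ) by simp [f],
    v.r_natCast, CharP.cast_eq_zero_iff v.k 2] at hr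
  -- the class has odd size
  have hcard : (univ.filter (IsConj D.xb)).card * Nat.card D.cb = Nat.card D.Q := by
    rw [Nat.card_eq_fintype_card (α := D.Q), ← card_univ, card_eq_sum_card_fiberwise
      (s := (univ : Finset D.Q)) (f := fun g : D.Q => g * D.xb * g⁻¹)
      (t := univ.filter (IsConj D.xb))
      fun g _ => mem_filter.2 ⟨mem_univ _, isConj_iff.2 ⟨g, rfl⟩⟩,
      sum_congr rfl (g := fun _ => Nat.card D.cb) ?_, sum_const, smul_eq_mul]
    intro q hq
    obtain ⟨g₀, rfl⟩ := isConj_iff.1 (mem_filter.1 hq).2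
    rw [Nat.card_eq_fintype_card, ← card_univ]
    symm
    refine card_nbij' (fun c => g₀ * (c : D.Q)) (fun g => if h : g₀⁻¹ * g ∈ D.cb then ⟨_, h⟩ else 1)
      (fun c _ => ?_) (fun g _ => mem_univ _) (fun c _ => ?_) fun g hg => ?_
    · refine mem_filter.2 ⟨mem_univ _, ?_⟩
      calc g₀ * (c : D.Q) * D.xb * (g₀ * (c : D.Q))⁻¹
          = g₀ * ((c : D.Q) * D.xb * (c : D.Q)⁻¹) * g₀⁻¹ := by group
        _ = _ := by rw [D.mem_cb.1 c.2, mul_inv_cancel_right]
    · simp only [inv_mul_cancel_left, c.2, dif_pos]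
    · have hm : g₀⁻¹ * g ∈ D.cb := D.mem_cb.2 (by
        have h := (mem_filter.1 hg).2
        calc g₀⁻¹ * g * D.xb = g₀⁻¹ * (g * D.xb * g⁻¹) * g := by group
          _ = _ := by rw [h]; group)
      simp only [dif_pos hm, mul_inv_cancel_left]
  refine D.eight_Q ?_
  rw [← hcard]
  exact mul_dvd_mul hr D.cb_facts.1

/-- **Four characters.** -/
theorem exists_basis : ∃ (φ : Fin 4 → D.Q → ℂ) (δ : Fin 4 → ℤ), φ 0 = (fun _ => 1) ∧ δ 0 = 1 ∧
    Function.Injective φ ∧ univ.image φ = prin D.Q v ∧ ∀ k, δ k * δ k = 1 ∧ φ k D.xb = δ k := by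
  haveI := D.pcomp_cb.regSubgroup_normal
  choose! n hn hn' hn0 using fun φ (hφ : φ ∈ prin D.Q v) => D.prin_int v hφ
  have h4 := sum_sq_prin (v := v) D.xb_pEl D.cb (fun _ => D.mem_cb) D.pcomp_cb.not_dvd_card
    fun c hc => D.pcomp_cb.mem_regSubgroup.2 hc
  rw [index_four D.pcomp_cb D.cb_facts.1 D.cb_facts.2, Nat.cast_mul,
    mul_div_cancel_right₀ _ (Nat.cast_ne_zero.2 Nat.card_pos.ne'),
    sum_congr rfl fun φ hφ => by rw [hn' φ hφ, hn φ hφ], Nat.cast_ofNat] at h4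
  have h4' : ∑ φ ∈ prin D.Q v, n φ * n φ = 4 := by
    refine Int.cast_injective (α := ℂ) ?_
    simp only [Int.cast_sum, Int.cast_mul, Int.cast_ofNat]
    exact h4
  set one : D.Q → ℂ := fun _ => 1
  have hn1 : n one = 1 := by
    refine Int.cast_injective (α := ℂ) ?_
    rw [← hn one (one_mem_prin v), Int.cast_one]
  have hrest : ∑ φ ∈ (prin D.Q v).erase one, n φ * n φ = 3 := by
    rw [← add_sum_erase _ _ (one_mem_prin v), hn1] at h4'
    linarith
  have hsq : ∀ φ ∈ (prin D.Q v).erase one, n φ * n φ = 1 := by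
    intro φ hφ
    have h1 := hn0 φ (mem_of_mem_erase hφ)
    have hle : n φ * n φ ≤ 3 :=
      hrest ▸ single_le_sum (f := fun φ => n φ * n φ) (fun ψ _ => mul_self_nonneg (n ψ)) hφ
    have h2 : n φ ≤ 1 := by nlinarith
    have h3 : -1 ≤ n φ := by nlinarith
    obtain h | h : n φ = 1 ∨ n φ = -1 := by omega
    all_goals rw [h]; norm_num
  have hcard : (prin D.Q v).card = 4 := by
    rw [sum_congr rfl hsq, sum_const, nsmul_eq_mul, mul_one] at hrest
    rw [← card_erase_add_one (show one ∈ prin D.Q v from one_mem_prin v)]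
    omega
  set e := (prin D.Q v).equivFinOfCardEq hcard
  set e' := e.trans (Equiv.swap (e ⟨one, one_mem_prin v⟩) 0)
  refine ⟨fun k => (e'.symm k : D.Q → ℂ), fun k => n (e'.symm k : D.Q → ℂ), ?_, ?_,
    Subtype.val_injective.comp e'.symm.injective, ?_, fun k => ⟨?_, hn _ (e'.symm k).2⟩⟩
  · simp [e', one]
  · simp [e']
    exact hn1
  · ext ψ
    simp only [mem_image, mem_univ, true_and]
    exact ⟨by rintro ⟨k, rfl⟩; exact (e'.symm k).2,
      fun h => ⟨e' ⟨ψ, h⟩, by rw [Equiv.symm_apply_apply]⟩⟩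
  · by_cases h : (e'.symm k : D.Q → ℂ) = one
    · show n (e'.symm k : D.Q → ℂ) * n (e'.symm k : D.Q → ℂ) = 1
      rw [h, hn1, mul_one]
    · exact hsq _ (mem_erase.2 ⟨h, (e'.symm k).2⟩)

end Setup

end FA.ZStar

end
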