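import Fermat.Agent.PrincipalBlock.SecondMain
import Mathlib.LinearAlgebra.Trace
import Mathlib.GroupTheory.Commutator.Basic

/-!
# Involutions acting as scalars, kernels, and rational values
-/

set_option autoImplicit false
set_option linter.style.haveILetI false

noncomputable section

open Finset FA.CharacterTheory FA.FrobeniusGroups
open scoped Classical commutatorElement

namespace FA.ZStar

variable {G : Type*} [Group G] [Fintype G] {χ : G → ℂ}

/-- The kernel of an irreducible character. -/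
def kerChar (_hχ : χ ∈ irr G) : Subgroup G where
  carrier := {n | ∀ x, χ (x * n) = χ x}
  one_mem' x := by rw [mul_one]
  mul_mem' {a b} ha hb x := by rw [← mul_assoc, hb, ha]
  inv_mem' {a} ha x := by
    conv_rhs => rw [← inv_mul_cancel_right x a, ha]

theorem kerChar_normal (hχ : χ ∈ irr G) : (kerChar hχ).Normal := ⟨fun n hn g x => by
  rw [show x * (g * n * g⁻¹) = g * (g⁻¹ * x * g⁻¹⁻¹ * n) * g⁻¹ by group, irr_conj hχ, hn,
    irr_conj hχ]⟩

theorem kerChar_ne_top (hχ : χ ∈ irr G) (hne : χ ≠ fun _ => 1) : kerChar hχ ≠ ⊤ := fun h => by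
  have hconst : ∀ g, χ g = χ 1 := fun g => by
    simpa using (h ▸ Subgroup.mem_top g : g ∈ kerChar hχ) 1
  have h1 := pairing_irr hχ one_mem_irr
  rw [if_neg hne, pairing, mul_eq_zero, or_iff_right
    (inv_ne_zero (Nat.cast_ne_zero.2 Nat.card_pos.ne'))] at h1
  rw [sum_congr rfl fun g _ => by rw [hconst g, mul_one], sum_const, card_univ, nsmul_eq_mul,
    mul_eq_zero, Nat.cast_eq_zero] at h1
  exact h1.elim Fintype.card_ne_zero (FA.PrincipalBlock.irr_one_ne_zero hχ)

theorem idem_of_sq {A : Type*} [Ring A] [Algebra ℂ A] {f : A} (hf : f * f = 1) {ε : ℂ}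
    (hε : ε * ε = 1) :
    ((2 : ℂ)⁻¹ • (1 - ε • f)) * ((2 : ℂ)⁻¹ • (1 - ε • f)) = (2 : ℂ)⁻¹ • (1 - ε • f) := by
  rw [smul_mul_smul_comm, mul_sub, sub_mul, sub_mul, one_mul, one_mul, mul_one, smul_mul_smul_comm,
    hε, hf, one_smul]
  module

/-- An involution with value `± χ 1` acts as that sign. -/
theorem scalar_of_involution (hχ : χ ∈ irr G) {t : G} (ht : t * t = 1) {ε : ℂ} (hε : ε * ε = 1)
    (h : χ t = ε * χ 1) (x : G) : χ (x * t) = ε * χ x := by
  obtain ⟨W, -, rfl⟩ := exists_of_mem_irr hχ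
  set ρ := W.toRepresentation
  set P : Module.End ℂ W.toSubmodule := (2 : ℂ)⁻¹ • (1 - ε • ρ t)
  have htt : ρ t * ρ t = 1 := by rw [← map_mul, ht, map_one]
  have hPP : P * P = P := by
    exact idem_of_sq (A := Module.End ℂ W.toSubmodule) (f := ρ t) htt hε
  have htr : LinearMap.trace ℂ W.toSubmodule P = 0 := by
    show LinearMap.trace ℂ W.toSubmodule ((2 : ℂ)⁻¹ • (1 - ε • ρ t)) = 0
    have e1 : LinearMap.trace ℂ W.toSubmodule (1 - ε • ρ t) =
        LinearMap.trace ℂ W.toSubmodule 1 - LinearMap.trace ℂ W.toSubmodule (ε • ρ t) :=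
      map_sub (LinearMap.trace ℂ W.toSubmodule) _ _
    rw [map_smul, e1, map_smul, smul_eq_mul, smul_eq_mul]
    rw [show LinearMap.trace ℂ W.toSubmodule (ρ t) = ρ.character t from rfl, h,
      show LinearMap.trace ℂ W.toSubmodule 1 = ρ.character 1 by
        rw [LinearMap.trace_one, Representation.char_one], ← mul_assoc ε ε, hε, one_mul, sub_self,
      mul_zero]
  haveI : FiniteDimensional ℂ W.toSubmodule := inferInstance
  have hP0 : P = 0 := by
    haveI : Module.Free ℂ (LinearMap.range P) := Module.Free.of_divisionRing ℂ ↥(LinearMap.range P)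
    haveI : Module.Free ℂ (LinearMap.ker P) := Module.Free.of_divisionRing ℂ ↥(LinearMap.ker P)
    have hproj := LinearMap.IsProj.trace (R := ℂ) (M := W.toSubmodule) (p := LinearMap.range P)
      (f := P) ⟨fun y => ⟨y, rfl⟩, by
        rintro _ ⟨y, rfl⟩
        exact LinearMap.congr_fun hPP y⟩
    rw [htr, eq_comm, Nat.cast_eq_zero, Submodule.finrank_eq_zero, LinearMap.range_eq_bot] at hproj
    exact hproj
  have hρ : ρ t = ε • 1 := by
    have h1 : ε • ρ t = 1 := by
      have := congrArg (fun f => (2 : ℂ) • f) hP0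
      simp only [P, smul_smul, mul_inv_cancel₀ (two_ne_zero (α := ℂ)), one_smul, smul_zero]
        at this
      exact (eq_of_sub_eq_zero this).symm
    rw [← h1, smul_smul, hε, one_smul]
  show LinearMap.trace ℂ W.toSubmodule (ρ (x * t)) = ε * LinearMap.trace ℂ W.toSubmodule (ρ x)
  rw [map_mul, hρ, mul_smul_comm, mul_one, map_smul, smul_eq_mul]

/-- A central involution acts as a sign. -/
theorem irr_mul_central (hχ : χ ∈ irr G) {t : G} (ht : t * t = 1) (hc : ∀ g, g * t = t * g) :
    (χ t / χ 1) * (χ t / χ 1) = 1 ∧ ∀ x, χ (x * t) = χ t / χ 1 * χ x := by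
  have h1 := FA.PrincipalBlock.irr_one_ne_zero hχ
  have hN : (Nat.card G : ℂ) ≠ 0 := Nat.cast_ne_zero.2 Nat.card_pos.ne'
  have key : ∀ x, χ x * χ t = χ 1 * χ (x * t) := fun x => by
    have h := FA.GlaubermanCorrespondence.card_mul_mul hχ x t
    rw [sum_congr rfl fun g _ => by rw [hc g, mul_inv_cancel_right], sum_const, card_univ,
      nsmul_eq_mul, ← Nat.card_eq_fintype_card, mul_left_comm (χ 1)] at h
    exact mul_left_cancel₀ hN h
  refine ⟨?_, fun x => ?_⟩
  · rw [div_mul_div_comm, key t, ht, div_self (mul_ne_zero h1 h1)]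
  · rw [div_mul_eq_mul_div, eq_div_iff h1, mul_comm (χ t), key x]
    ring

/-- A linear character is trivial on commutators. -/
theorem linear_commutator (hχ : χ ∈ irr G) (h1 : χ 1 = 1) (a b : G) :
    ⁅a, b⁆ ∈ kerChar hχ := by
  obtain ⟨W, -, rfl⟩ := exists_of_mem_irr hχ
  set ρ := W.toRepresentation
  have hr : Module.finrank ℂ W.toSubmodule = 1 := by
    have h := ρ.char_one
    rw [h1] at h
    exact_mod_cast h.symm
  have hcomm : ∀ f f' : Module.End ℂ W.toSubmodule, f * f' = f' * f := fun f f' => by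
    obtain ⟨v, hv, hspan⟩ := finrank_eq_one_iff'.1 hr
    obtain ⟨c, hc⟩ := hspan (f v)
    obtain ⟨c', hc'⟩ := hspan (f' v)
    refine LinearMap.ext fun w => ?_
    obtain ⟨d, rfl⟩ := hspan w
    rw [Module.End.mul_apply, Module.End.mul_apply, map_smul, map_smul, map_smul, map_smul, ← hc,
      ← hc', map_smul, map_smul, ← hc, ← hc', smul_smul c, smul_smul c', mul_comm c]
  intro x
  show LinearMap.trace ℂ W.toSubmodule (ρ (x * ⁅a, b⁆)) = LinearMap.trace ℂ W.toSubmodule (ρ x)
  rw [commutatorElement_def, map_mul ρ, map_mul ρ, map_mul ρ, map_mul ρ, hcomm (ρ a) (ρ b),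
    mul_assoc (ρ b) (ρ a), ← map_mul ρ a, mul_inv_cancel, map_one ρ, mul_one, ← map_mul ρ b,
    mul_inv_cancel, map_one ρ, mul_one]

/-- A real value at an element of order dividing `4` is an integer. -/
theorem int_value (hχ : χ ∈ irr G) {g : G} (h4 : g ^ 4 = 1) (hreal : IsConj g g⁻¹) :
    ∃ n : ℤ, χ g = n := by
  set C := Subgroup.zpowers g
  set gC : C := ⟨g, Subgroup.mem_zpowers g⟩
  have hcomm : ∀ a b : C, a * b = b * a := fun a b => Subtype.ext (by
    obtain ⟨i, hi⟩ := Subgroup.mem_zpowers_iff.1 a.2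
    obtain ⟨l, hl⟩ := Subgroup.mem_zpowers_iff.1 b.2
    rw [Subgroup.coe_mul, Subgroup.coe_mul, ← hi, ← hl]
    exact zpow_mul_comm g i l)
  obtain ⟨W, -, rfl⟩ := exists_of_mem_irr hχ
  choose! k hk using fun (p : C → ℂ) (hp : p ∈ irr C) =>
    show ∃ k : ℤ, pairing p (fun y : C => W.toRepresentation.character y) = k by
      obtain ⟨V, -, rfl⟩ := exists_of_mem_irr hp
      exact exists_int_pairing V.toRepresentation (W.toRepresentation.comp C.subtype)
  have hexp : ∀ y : C, W.toRepresentation.character y = ∑ p ∈ irr C, (k p : ℂ) * p y := fun y => by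
    rw [expansion (f := fun z : C => W.toRepresentation.character z)
      (fun a b => by rw [hcomm a b, mul_inv_cancel_right]) y]
    exact sum_congr rfl fun p hp => by rw [pairing_comm, hk p hp]
  have hval : ∀ p ∈ irr C, ∃ m : ℤ, p gC + p (gC ^ 3) = 2 * m := fun p hp => by
    obtain ⟨ψ, rfl⟩ := exists_hom_of_comm hcomm hp
    simp only [map_pow, Units.val_pow_eq_pow_val]
    set w : ℂ := (ψ gC : ℂ)
    have hw4 : w ^ 4 = 1 := by
      rw [← Units.val_pow_eq_pow_val, ← map_pow, show gC ^ 4 = 1 from Subtype.ext h4, map_one,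
        Units.val_one]
    rcases mul_eq_zero.1 (show (w - 1) * ((w + 1) * (w ^ 2 + 1)) = 0 by linear_combination hw4)
      with h | h
    · exact ⟨1, by rw [sub_eq_zero.1 h]; norm_num⟩
    rcases mul_eq_zero.1 h with h | h
    · exact ⟨-1, by rw [eq_neg_of_add_eq_zero_left h]; norm_num⟩
    · exact ⟨0, by push_cast; linear_combination w * h⟩
  choose! m hm using hval
  refine ⟨∑ p ∈ irr C, k p * m p, ?_⟩
  have h3 : g ^ 3 = g⁻¹ := eq_inv_of_mul_eq_one_left (by rw [← pow_succ, h4])
  have hreal' : W.toRepresentation.character g⁻¹ = W.toRepresentation.character g := by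
    obtain ⟨c, hc⟩ := isConj_iff.1 hreal
    rw [← hc, irr_conj hχ]
  have h : W.toRepresentation.character g + W.toRepresentation.character g =
      2 * ((∑ p ∈ irr C, k p * m p : ℤ) : ℂ) := by
    conv_lhs => arg 2; rw [← hreal', ← h3]
    rw [show W.toRepresentation.character g = W.toRepresentation.character ((gC : C) : G) from rfl,
      show W.toRepresentation.character (g ^ 3) =
        W.toRepresentation.character ((gC ^ 3 : C) : G) from rfl, hexp, hexp, ← sum_add_distrib]
    push_cast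
    rw [mul_sum]
    exact sum_congr rfl fun p hp => by rw [← mul_add, hm p hp]; ring
  linear_combination h / 2

end FA.ZStar

end
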