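import Mathlib.Algebra.Order.BigOperators.Group.Finset
import Mathlib.Algebra.Order.BigOperators.Ring.Finset
import Mathlib.Data.Fintype.Prod
import Mathlib.Data.Fin.VecNotation
import Mathlib.Tactic.FinCases
import Mathlib.Algebra.BigOperators.Intervals
import Mathlib.Data.Rat.Cast.Order
import Mathlib.Tactic.FieldSimp
import Mathlib.Tactic.IntervalCases
import Mathlib.Tactic.Linarith
import Mathlib.Tactic.LinearCombination

/-!
# Three integer vectors with Gram matrix `2 (1 + δ)`

The three generalised characters of a minimal counterexample, with the column `X` of an element of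
order `4`, determine a character other than `1` whose degree is `1` or equal to its value at the
involution.
-/

set_option autoImplicit false

open Finset

namespace FA.ZStar

/-- The column data of the principal block. -/
structure Table (ι : Type*) where
  B : Finset ι
  o : ι
  n : ι → ℤ
  a : ι → ℤ
  X : ι → ℤ
  v : Fin 3 → ι → ℤ
  y₁ : ℤ
  y₂ : ℤ
  o_mem : o ∈ B
  n_pos : ∀ i ∈ B, 0 < n i
  n_o : n o = 1
  X_o : X o = 1
  v_o : ∀ k, v k o = if k = 0 then 1 else 0
  gram : ∀ k l, ∑ i ∈ B, v k i * v l i = if k = l then 4 else 2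
  v_n : ∀ k, ∑ i ∈ B, v k i * n i = 0
  v_X : ∀ k, ∑ i ∈ B, v k i * X i = 0
  X_n : ∑ i ∈ B, X i * n i = 0
  X_sq : ∑ i ∈ B, X i * X i = 4
  v_c : ∀ k, ∑ i ∈ B, (v k i : ℚ) * ((a i : ℚ) ^ 2 / n i) = 0
  X_c : ∑ i ∈ B, (X i : ℚ) * ((a i : ℚ) ^ 2 / n i) = 0
  a_eq : ∀ i ∈ B, a i = v 0 i + y₁ * v 1 i + y₂ * v 2 i
  parity_a : ∀ i ∈ B, (2 : ℤ) ∣ n i - a i
  parity_X : ∀ i ∈ B, (2 : ℤ) ∣ n i - X i

variable {ι : Type*} (D : Table ι)

namespace Table

theorem v_sq_le {k : Fin 3} {i : ι} (hi : i ∈ D.B) : D.v k i * D.v k i ≤ 1 := by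
  classical
  have hsum := D.gram k k
  rw [if_pos rfl, ← add_sum_erase _ _ hi] at hsum
  have hrest := sum_nonneg (s := D.B.erase i) fun j _ => mul_self_nonneg (D.v k j)
  by_contra hgt
  have hle : D.v k i * D.v k i ≤ 4 := by linarith
  have h1 : D.v k i ≤ 2 := by nlinarith
  have h2 : -2 ≤ D.v k i := by nlinarith
  have h0 : ∀ j ∈ D.B.erase i, D.v k j = 0 := by
    have hz : ∑ j ∈ D.B.erase i, D.v k j * D.v k j = 0 := by
      interval_cases h : D.v k i <;> linarith
    exact fun j hj => mul_self_eq_zero.1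
      ((sum_eq_zero_iff_of_nonneg fun j _ => mul_self_nonneg (D.v k j)).1 hz j hj)
  have hn := D.v_n k
  rw [← add_sum_erase _ _ hi, sum_eq_zero fun j hj => by rw [h0 j hj, zero_mul], add_zero] at hn
  rcases mul_eq_zero.1 hn with h | h
  · rw [h] at hgt; omega
  · have := D.n_pos i hi; omega

theorem v_cases (k : Fin 3) {i : ι} (hi : i ∈ D.B) :
    D.v k i = -1 ∨ D.v k i = 0 ∨ D.v k i = 1 := by
  have h := D.v_sq_le (k := k) hi
  have h1 : D.v k i ≤ 1 := by nlinarith
  have h2 : -1 ≤ D.v k i := by nlinarith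
  omega

/-- Two of the vectors never have opposite signs. -/
theorem v_mul_nonneg {k l : Fin 3} {i : ι} (hi : i ∈ D.B) : 0 ≤ D.v k i * D.v l i := by
  classical
  rcases eq_or_ne k l with rfl | hkl
  · exact mul_self_nonneg _
  by_contra hlt
  have hd : ∑ j ∈ D.B, (D.v k j - D.v l j) * (D.v k j - D.v l j) = 4 := by
    rw [sum_congr rfl fun j _ => show (D.v k j - D.v l j) * (D.v k j - D.v l j) =
      D.v k j * D.v k j + D.v l j * D.v l j - 2 * (D.v k j * D.v l j) by ring, sum_sub_distrib,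
      sum_add_distrib, ← mul_sum, D.gram, D.gram, D.gram, if_pos rfl, if_pos rfl, if_neg hkl]
    norm_num
  have hi4 : (D.v k i - D.v l i) * (D.v k i - D.v l i) = 4 := by
    rcases D.v_cases k hi with h | h | h <;> rcases D.v_cases l hi with h' | h' | h' <;>
      rw [h, h'] at hlt ⊢ <;> omega
  rw [← add_sum_erase _ _ hi, hi4, add_eq_left,
    sum_eq_zero_iff_of_nonneg fun j _ => mul_self_nonneg _] at hd
  have hn : ∑ j ∈ D.B, (D.v k j - D.v l j) * D.n j = 0 := by
    rw [sum_congr rfl fun j _ => sub_mul (D.v k j) (D.v l j) (D.n j), sum_sub_distrib, D.v_n,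
      D.v_n, sub_zero]
  rw [← add_sum_erase _ _ hi, sum_eq_zero fun j hj => by
    rw [mul_self_eq_zero.1 (hd j hj), zero_mul], add_zero] at hn
  rcases mul_eq_zero.1 hn with h | h
  · rw [h] at hi4; omega
  · have := D.n_pos i hi; omega

/-- The support pattern. -/
def pat (i : ι) : Bool × Bool × Bool :=
  (decide (D.v 0 i ≠ 0), decide (D.v 1 i ≠ 0), decide (D.v 2 i ≠ 0))

/-- The common sign. -/
def sgn (i : ι) : ℤ := if D.v 0 i ≠ 0 then D.v 0 i else if D.v 1 i ≠ 0 then D.v 1 i else D.v 2 i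

/-- The entries of a pattern. -/
def bit (k : Fin 3) (P : Bool × Bool × Bool) : Bool := ![P.1, P.2.1, P.2.2] k

/-- The class of a pattern. -/
def cls (P : Bool × Bool × Bool) : Finset ι := D.B.filter fun i => D.pat i = P

theorem mem_cls {P : Bool × Bool × Bool} {i : ι} : i ∈ D.cls P ↔ i ∈ D.B ∧ D.pat i = P :=
  mem_filter

theorem v_eq (k : Fin 3) {P : Bool × Bool × Bool} {i : ι} (hi : i ∈ D.cls P) :
    D.v k i = if bit k P then D.sgn i else 0 := by
  obtain ⟨hB, rfl⟩ := D.mem_cls.1 hi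
  have h01 := D.v_mul_nonneg (k := 0) (l := 1) hB
  have h02 := D.v_mul_nonneg (k := 0) (l := 2) hB
  have h12 := D.v_mul_nonneg (k := 1) (l := 2) hB
  rcases D.v_cases 0 hB with h0 | h0 | h0 <;> rcases D.v_cases 1 hB with h1 | h1 | h1 <;>
    rcases D.v_cases 2 hB with h2 | h2 | h2 <;> fin_cases k <;>
    simp [bit, pat, sgn, h0, h1, h2] at h01 h02 h12 ⊢

theorem sgn_sq {P : Bool × Bool × Bool} (hP : P ≠ (false, false, false)) {i : ι}
    (hi : i ∈ D.cls P) : D.sgn i * D.sgn i = 1 := by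
  obtain ⟨hB, rfl⟩ := D.mem_cls.1 hi
  rcases D.v_cases 0 hB with h0 | h0 | h0 <;> rcases D.v_cases 1 hB with h1 | h1 | h1 <;>
    rcases D.v_cases 2 hB with h2 | h2 | h2 <;> simp_all [pat, sgn]

theorem split (F : ι → ℚ) : ∑ i ∈ D.B, F i =
    ∑ i ∈ D.cls (true, true, true), F i + ∑ i ∈ D.cls (true, true, false), F i +
    ∑ i ∈ D.cls (true, false, true), F i + ∑ i ∈ D.cls (true, false, false), F i +
    ∑ i ∈ D.cls (false, true, true), F i + ∑ i ∈ D.cls (false, true, false), F i +
    ∑ i ∈ D.cls (false, false, true), F i + ∑ i ∈ D.cls (false, false, false), F i := by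
  rw [← sum_fiberwise D.B D.pat F]
  simp only [Fintype.sum_prod_type, Fintype.sum_bool, cls]
  ring

/-- The signed sum over a class. -/
def T (P : Bool × Bool × Bool) (F : ι → ℚ) : ℚ := ∑ i ∈ D.cls P, (D.sgn i : ℚ) * F i

theorem sum_v_cls (k : Fin 3) (P : Bool × Bool × Bool) (F : ι → ℚ) :
    ∑ i ∈ D.cls P, (D.v k i : ℚ) * F i = if bit k P then D.T P F else 0 := by
  split_ifs with h
  · exact sum_congr rfl fun i hi => by rw [D.v_eq k hi, if_pos h]
  · exact sum_eq_zero fun i hi => by rw [D.v_eq k hi, if_neg h, Int.cast_zero, zero_mul]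

theorem sum_v (F : ι → ℚ) :
    (∑ i ∈ D.B, (D.v 0 i : ℚ) * F i = D.T (true, true, true) F + D.T (true, true, false) F +
      D.T (true, false, true) F + D.T (true, false, false) F) ∧
    (∑ i ∈ D.B, (D.v 1 i : ℚ) * F i = D.T (true, true, true) F + D.T (true, true, false) F +
      D.T (false, true, true) F + D.T (false, true, false) F) ∧
    ∑ i ∈ D.B, (D.v 2 i : ℚ) * F i = D.T (true, true, true) F + D.T (true, false, true) F +
      D.T (false, true, true) F + D.T (false, false, true) F := by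
  refine ⟨?_, ?_, ?_⟩ <;> rw [D.split] <;> simp [sum_v_cls, bit]

theorem v_pair_sum (k l : Fin 3) :
    (if k = l then (4 : ℚ) else 2) = ∑ i ∈ D.B, (D.v k i : ℚ) * (D.v l i : ℚ) := by
  have h := congrArg (Int.cast : ℤ → ℚ) (D.gram k l)
  push_cast at h
  exact h.symm

theorem T_v (k : Fin 3) {P : Bool × Bool × Bool} (hP : P ≠ (false, false, false)) :
    D.T P (fun i => (D.v k i : ℚ)) = if bit k P then ((D.cls P).card : ℚ) else 0 := by
  split_ifs with h
  · rw [card_eq_sum_ones, Nat.cast_sum]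
    refine sum_congr rfl fun i hi => ?_
    dsimp only
    rw [D.v_eq k hi, if_pos h, ← Int.cast_mul, D.sgn_sq hP hi, Int.cast_one, Nat.cast_one]
  · exact sum_eq_zero fun i hi => by
      dsimp only
      rw [D.v_eq k hi, if_neg h, Int.cast_zero, mul_zero]

/-- The sizes of the classes. -/
theorem counts : ∃ m, (m = 1 ∨ m = 2) ∧ (D.cls (true, true, true)).card = m ∧
    (D.cls (true, true, false)).card = 2 - m ∧ (D.cls (true, false, true)).card = 2 - m ∧
    (D.cls (false, true, true)).card = 2 - m ∧ (D.cls (true, false, false)).card = m ∧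
    (D.cls (false, true, false)).card = m ∧ (D.cls (false, false, true)).card = m := by
  have h : ∀ k l, _ := fun k l => D.v_pair_sum k l
  have h00 := (h 0 0).trans (D.sum_v _).1
  have h11 := (h 1 1).trans (D.sum_v _).2.1
  have h22 := (h 2 2).trans (D.sum_v _).2.2
  have h01 := (h 0 1).trans (D.sum_v _).1
  have h02 := (h 0 2).trans (D.sum_v _).1
  have h12 := (h 1 2).trans (D.sum_v _).2.1
  simp [T_v, bit] at h00 h11 h22 h01 h02 h12
  norm_cast at h00 h11 h22 h01 h02 h12
  have ho : 0 < (D.cls (true, false, false)).card :=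
    card_pos.2 ⟨D.o, D.mem_cls.2 ⟨D.o_mem, by simp [pat, D.v_o]⟩⟩
  exact ⟨(D.cls (true, true, true)).card, by omega⟩

theorem o_cls : D.o ∈ D.cls (true, false, false) :=
  D.mem_cls.2 ⟨D.o_mem, by simp [pat, D.v_o]⟩

theorem sgn_o : D.sgn D.o = 1 := by simp [sgn, D.v_o]

/-- The coefficient of the involution on a pattern. -/
def coeff (P : Bool × Bool × Bool) : ℤ :=
  (if P.1 then 1 else 0) + (if P.2.1 then D.y₁ else 0) + if P.2.2 then D.y₂ else 0

theorem a_cls {P : Bool × Bool × Bool} {i : ι} (hi : i ∈ D.cls P) :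
    D.a i = D.sgn i * D.coeff P := by
  rw [D.a_eq i (D.mem_cls.1 hi).1, D.v_eq 0 hi, D.v_eq 1 hi, D.v_eq 2 hi, coeff]
  obtain ⟨a, b, c⟩ := P
  cases a <;> cases b <;> cases c <;> simp [bit] <;> ring

theorem parity_cls {P : Bool × Bool × Bool} (hP : P ≠ (false, false, false)) {i : ι}
    (hi : i ∈ D.cls P) : (2 : ℤ) ∣ D.coeff P ↔ (2 : ℤ) ∣ D.X i := by
  have hB := (D.mem_cls.1 hi).1
  have h1 := D.parity_a i hB
  have h2 := D.parity_X i hB
  rw [D.a_cls hi] at h1
  rcases Int.isUnit_eq_one_or (IsUnit.of_mul_eq_one _ (D.sgn_sq hP hi)) with h | h <;>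
    rw [h] at h1 <;> omega

/-- When four classes' elements have odd entries, there is nothing else. -/
theorem X_support (O : Finset ι) (hO : O ⊆ D.B) (hodd : ∀ i ∈ O, ¬ (2 : ℤ) ∣ D.X i) :
    O.card ≤ 4 ∧ (O.card = 4 → (∀ i ∈ O, D.X i * D.X i = 1) ∧
      ∀ i ∈ D.B, i ∉ O → D.X i = 0) := by
  classical
  have h := D.X_sq
  rw [← sum_sdiff hO] at h
  have h1 : ∀ i ∈ O, 1 ≤ D.X i * D.X i := fun i hi => by
    have hne : D.X i ≠ 0 := fun h0 => hodd i hi (h0 ▸ dvd_zero _)
    have := mul_self_pos.2 hne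
    omega
  have h2 : (O.card : ℤ) ≤ ∑ i ∈ O, D.X i * D.X i := by
    rw [card_eq_sum_ones, Nat.cast_sum]
    exact sum_le_sum fun i hi => by simpa using h1 i hi
  have h3 := sum_nonneg (s := D.B \ O) fun i _ => mul_self_nonneg (D.X i)
  refine ⟨by omega, fun h4 => ⟨fun i hi => ?_, fun i hi hn => ?_⟩⟩
  · have hz : ∑ j ∈ O, (D.X j * D.X j - 1) = 0 := by
      rw [sum_sub_distrib, sum_const, nsmul_eq_mul, mul_one]
      omega
    have := (sum_eq_zero_iff_of_nonneg fun j hj => sub_nonneg.2 (h1 j hj)).1 hz i hi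
    omega
  · have hz : ∑ j ∈ D.B \ O, D.X j * D.X j = 0 := by omega
    exact mul_self_eq_zero.1 ((sum_eq_zero_iff_of_nonneg fun j _ => mul_self_nonneg (D.X j)).1
      hz i (mem_sdiff.2 ⟨hi, hn⟩))

/-- The elements of the classes with odd coefficient. -/
def odd : Finset ι :=
  D.B.filter fun i => D.pat i ≠ (false, false, false) ∧ ¬ (2 : ℤ) ∣ D.coeff (D.pat i)

theorem card_odd : (D.odd.card : ℚ) =
    (if (2 : ℤ) ∣ D.coeff (true, true, true) then 0 else ((D.cls (true, true, true)).card : ℚ)) +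
    (if (2 : ℤ) ∣ D.coeff (true, true, false) then 0 else ((D.cls (true, true, false)).card : ℚ)) +
    (if (2 : ℤ) ∣ D.coeff (true, false, true) then 0 else ((D.cls (true, false, true)).card : ℚ)) +
    (if (2 : ℤ) ∣ D.coeff (true, false, false) then 0 else
      ((D.cls (true, false, false)).card : ℚ)) +
    (if (2 : ℤ) ∣ D.coeff (false, true, true) then 0 else ((D.cls (false, true, true)).card : ℚ)) +
    (if (2 : ℤ) ∣ D.coeff (false, true, false) then 0 else
      ((D.cls (false, true, false)).card : ℚ)) +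
    (if (2 : ℤ) ∣ D.coeff (false, false, true) then 0 else
      ((D.cls (false, false, true)).card : ℚ)) := by
  rw [odd, card_filter, Nat.cast_sum, D.split]
  have hc : ∀ P : Bool × Bool × Bool, P ≠ (false, false, false) →
      ∑ i ∈ D.cls P, ((if D.pat i ≠ (false, false, false) ∧ ¬ (2 : ℤ) ∣ D.coeff (D.pat i)
        then 1 else 0 : ℕ) : ℚ) = if (2 : ℤ) ∣ D.coeff P then 0 else ((D.cls P).card : ℚ) := by
    intro P hP
    rw [sum_congr rfl fun i hi => by rw [(D.mem_cls.1 hi).2], sum_const, nsmul_eq_mul]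
    split_ifs <;> simp_all
  rw [hc _ (by decide), hc _ (by decide), hc _ (by decide), hc _ (by decide), hc _ (by decide),
    hc _ (by decide), hc _ (by decide),
    sum_eq_zero (s := D.cls (false, false, false)) fun i hi => by simp [(D.mem_cls.1 hi).2],
    add_zero]

theorem X_values : D.odd.card ≤ 4 ∧ (D.odd.card = 4 → ∀ P, ∀ i ∈ D.cls P,
    if P ≠ (false, false, false) ∧ ¬ (2 : ℤ) ∣ D.coeff P then D.X i * D.X i = 1
    else D.X i = 0) := by
  obtain ⟨hle, h4⟩ := D.X_support D.odd (filter_subset _ _) fun i hi => by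
    obtain ⟨hB, hne, hodd⟩ := mem_filter.1 hi
    rwa [← D.parity_cls hne (D.mem_cls.2 ⟨hB, rfl⟩)]
  refine ⟨hle, fun h P i hi => ?_⟩
  obtain ⟨hB, rfl⟩ := D.mem_cls.1 hi
  split_ifs with hc
  · exact (h4 h).1 i (mem_filter.2 ⟨hB, hc⟩)
  · exact (h4 h).2 i hB fun hm => hc (mem_filter.1 hm).2

theorem X_sum (h4 : D.odd.card = 4) (F : ι → ℚ) : ∑ i ∈ D.B, (D.X i : ℚ) * F i =
    ∑ i ∈ D.cls (true, true, true), (D.X i : ℚ) * F i +
    ∑ i ∈ D.cls (true, true, false), (D.X i : ℚ) * F i +
    ∑ i ∈ D.cls (true, false, true), (D.X i : ℚ) * F i +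
    ∑ i ∈ D.cls (true, false, false), (D.X i : ℚ) * F i +
    ∑ i ∈ D.cls (false, true, true), (D.X i : ℚ) * F i +
    ∑ i ∈ D.cls (false, true, false), (D.X i : ℚ) * F i +
    ∑ i ∈ D.cls (false, false, true), (D.X i : ℚ) * F i := by
  rw [D.split, sum_eq_zero (s := D.cls (false, false, false)) fun i hi => by
    have := D.X_values.2 h4 _ i hi
    rw [if_neg (fun h => h.1 rfl)] at this
    rw [this, Int.cast_zero, zero_mul], add_zero]

theorem T_even (h4 : D.odd.card = 4) {P : Bool × Bool × Bool} (hP : (2 : ℤ) ∣ D.coeff P) :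
    (∀ F : ι → ℚ, ∑ i ∈ D.cls P, (D.X i : ℚ) * F i = 0) ∧
      D.T P (fun i => (D.X i : ℚ)) = 0 := by
  have h0 : ∀ i ∈ D.cls P, (D.X i : ℚ) = 0 := fun i hi => by
    have := D.X_values.2 h4 P i hi
    rw [if_neg (fun h => h.2 hP)] at this
    rw [this, Int.cast_zero]
  exact ⟨fun F => sum_eq_zero fun i hi => by rw [h0 i hi, zero_mul],
    sum_eq_zero fun i hi => by dsimp only; rw [h0 i hi, mul_zero]⟩

/-- A class with one element. -/
theorem sum_single {P : Bool × Bool × Bool} (hP : P ≠ (false, false, false))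
    (h : (D.cls P).card = 1) (F : ι → ℚ) :
    ∑ i ∈ D.cls P, (D.X i : ℚ) * F i = D.T P (fun i => (D.X i : ℚ)) * D.T P F := by
  obtain ⟨i, hi⟩ := card_eq_one.1 h
  have hs : (D.sgn i : ℚ) * D.sgn i = 1 :=
    mod_cast D.sgn_sq hP (by rw [hi]; exact mem_singleton_self i)
  simp only [T, hi, sum_singleton]
  linear_combination -((D.X i : ℚ) * F i) * hs

theorem n_eq_one_of {P : Bool × Bool × Bool} (hP : P ≠ (false, false, false)) {i : ι}
    (hi : i ∈ D.cls P) {e : ℚ} (he : e * e = 1) (h : (D.sgn i : ℚ) * D.n i = e) : D.n i = 1 := by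
  have hs : (D.sgn i : ℚ) * D.sgn i = 1 := mod_cast D.sgn_sq hP hi
  have h1 : (D.n i : ℚ) * D.n i = 1 := by
    linear_combination ((D.sgn i : ℚ) * D.n i + e) * h + he - (D.n i : ℚ) * D.n i * hs
  norm_cast at h1
  have := D.n_pos i (D.mem_cls.1 hi).1
  rcases Int.eq_one_or_neg_one_of_mul_eq_one h1 with h2 | h2
  · exact h2
  · omega

theorem linear_found {P : Bool × Bool × Bool} (hP : P ≠ (false, false, false))
    (hP0 : P ≠ (true, false, false)) (h : (D.cls P).card = 1) {e : ℚ} (he : e * e = 1)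
    (hT : D.T P (fun i => (D.n i : ℚ)) = e) : ∃ i ∈ D.B, i ≠ D.o ∧ D.n i = 1 := by
  obtain ⟨i, hi⟩ := card_eq_one.1 h
  have hmem : i ∈ D.cls P := by rw [hi]; exact mem_singleton_self i
  refine ⟨i, (D.mem_cls.1 hmem).1, fun hio => hP0 ?_, D.n_eq_one_of hP hmem he ?_⟩
  · rw [← (D.mem_cls.1 hmem).2, hio, (D.mem_cls.1 D.o_cls).2]
  · rwa [T, hi, sum_singleton] at hT

/-- **One triple**. -/
theorem found_one (h111 : (D.cls (true, true, true)).card = 1)
    (h110 : (D.cls (true, true, false)).card = 1) (h101 : (D.cls (true, false, true)).card = 1)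
    (h011 : (D.cls (false, true, true)).card = 1) (h100 : (D.cls (true, false, false)).card = 1)
    (h010 : (D.cls (false, true, false)).card = 1) (h001 : (D.cls (false, false, true)).card = 1) :
    ∃ i ∈ D.B, i ≠ D.o ∧ (D.n i = 1 ∨ D.a i = D.n i) := by
  have h4 : D.odd.card = 4 := by
    have h := D.card_odd
    simp only [h111, h110, h101, h011, h100, h010, h001, coeff, if_true, Bool.false_eq_true,
      if_false, add_zero, zero_add, Nat.cast_one] at h
    have h' : (D.odd.card : ℚ) = 4 := by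
      rw [h]
      rcases Int.emod_two_eq_zero_or_one D.y₁ with e₁ | e₁ <;>
        rcases Int.emod_two_eq_zero_or_one D.y₂ with e₂ | e₂ <;>
        simp [Int.dvd_iff_emod_eq_zero, Int.add_emod, e₁, e₂] <;> norm_num
    exact_mod_cast h'
  have hoP : ∀ F, D.T (true, false, false) F = F D.o := fun F => by
    obtain ⟨i, hi⟩ := card_eq_one.1 h100
    have ho := D.o_cls
    rw [hi, mem_singleton] at ho
    rw [T, hi, sum_singleton, ← ho, D.sgn_o, Int.cast_one, one_mul]
  have hv : ∀ F : ι → ℚ, (∀ k, ∑ i ∈ D.B, (D.v k i : ℚ) * F i = 0) → F D.o = 1 →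
      (D.T (true, true, true) F + D.T (true, true, false) F + D.T (true, false, true) F + 1 = 0) ∧
      (D.T (true, true, true) F + D.T (true, true, false) F +
        D.T (false, true, true) F + D.T (false, true, false) F = 0) ∧
      (D.T (true, true, true) F + D.T (true, false, true) F +
        D.T (false, true, true) F + D.T (false, false, true) F = 0) := fun F hF ho =>
    ⟨by rw [← ho, ← hoP F, ← (D.sum_v F).1, hF], by rw [← (D.sum_v F).2.1, hF],
      by rw [← (D.sum_v F).2.2, hF]⟩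
  have ao : D.a D.o = 1 := by simp [D.a_eq D.o D.o_mem, D.v_o]
  obtain ⟨n0, n1, n2⟩ := hv (fun i => (D.n i : ℚ)) (fun k => mod_cast D.v_n k) (by simp [D.n_o])
  obtain ⟨x0, x1, x2⟩ := hv (fun i => (D.X i : ℚ)) (fun k => mod_cast D.v_X k) (by simp [D.X_o])
  obtain ⟨c0, c1, c2⟩ := hv (fun i => (D.a i : ℚ) ^ 2 / D.n i) D.v_c (by simp [ao, D.n_o])
  have hXn : ∑ i ∈ D.B, (D.X i : ℚ) * (D.n i : ℚ) = 0 := mod_cast D.X_n
  have hXc := D.X_c
  rw [D.X_sum h4] at hXn hXc
  simp only [D.sum_single (P := (true, true, true)) (by decide) h111,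
    D.sum_single (P := (true, true, false)) (by decide) h110,
    D.sum_single (P := (true, false, true)) (by decide) h101,
    D.sum_single (P := (true, false, false)) (by decide) h100,
    D.sum_single (P := (false, true, true)) (by decide) h011,
    D.sum_single (P := (false, true, false)) (by decide) h010,
    D.sum_single (P := (false, false, true)) (by decide) h001, hoP, D.n_o, D.X_o, ao,
    Int.cast_one, one_pow, div_one, one_mul] at hXn hXc
  by_cases e₁ : (2 : ℤ) ∣ D.y₁ <;> by_cases e₂ : (2 : ℤ) ∣ D.y₂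
  · have z : ∀ P ∈ [(false, true, true), (false, true, false), (false, false, true)],
        D.T P (fun i => (D.X i : ℚ)) = 0 := fun P hP => (D.T_even h4 (by
          simp at hP; rcases hP with rfl | rfl | rfl <;> simp [coeff] <;> omega)).2
    simp only [z, List.mem_cons, true_or, or_true, add_zero, zero_mul] at hXn x1 x2
    obtain ⟨i, hi, hne, h⟩ := D.linear_found (P := (true, true, true)) (by decide) (by decide) h111
      (e := -1) (by norm_num) (by
        have e1 : D.T (true, true, true) (fun i => (D.X i : ℚ)) = 1 := by linarith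
        have e2 : D.T (true, true, false) (fun i => (D.X i : ℚ)) = -1 := by linarith
        have e3 : D.T (true, false, true) (fun i => (D.X i : ℚ)) = -1 := by linarith
        rw [e1, e2, e3] at hXn
        linarith)
    exact ⟨i, hi, hne, Or.inl h⟩
  · have z : ∀ P ∈ [(true, true, true), (true, false, true), (false, true, false)],
        D.T P (fun i => (D.X i : ℚ)) = 0 := fun P hP => (D.T_even h4 (by
          simp at hP; rcases hP with rfl | rfl | rfl <;> simp [coeff] <;> omega)).2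
    simp only [z, List.mem_cons, true_or, or_true, add_zero, zero_add, zero_mul] at hXn x0 x1 x2
    obtain ⟨i, hi, hne, h⟩ := D.linear_found (P := (false, false, true)) (by decide) (by decide)
      h001
      (e := 1) (by norm_num) (by
        have e1 : D.T (true, true, false) (fun i => (D.X i : ℚ)) = -1 := by linarith
        have e2 : D.T (false, true, true) (fun i => (D.X i : ℚ)) = 1 := by linarith
        have e3 : D.T (false, false, true) (fun i => (D.X i : ℚ)) = -1 := by linarith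
        rw [e1, e2, e3] at hXn
        linarith)
    exact ⟨i, hi, hne, Or.inl h⟩
  · have z : ∀ P ∈ [(true, true, true), (true, true, false), (false, false, true)],
        D.T P (fun i => (D.X i : ℚ)) = 0 := fun P hP => (D.T_even h4 (by
          simp at hP; rcases hP with rfl | rfl | rfl <;> simp [coeff] <;> omega)).2
    simp only [z, List.mem_cons, true_or, or_true, add_zero, zero_add, zero_mul] at hXn x0 x1 x2
    obtain ⟨i, hi, hne, h⟩ := D.linear_found (P := (false, true, false)) (by decide) (by decide)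
      h010
      (e := 1) (by norm_num) (by
        have e1 : D.T (true, false, true) (fun i => (D.X i : ℚ)) = -1 := by linarith
        have e2 : D.T (false, true, true) (fun i => (D.X i : ℚ)) = 1 := by linarith
        have e3 : D.T (false, true, false) (fun i => (D.X i : ℚ)) = -1 := by linarith
        rw [e1, e2, e3] at hXn
        linarith)
    exact ⟨i, hi, hne, Or.inl h⟩
  · have z : ∀ P ∈ [(true, true, false), (true, false, true), (false, true, true)],
        D.T P (fun i => (D.X i : ℚ)) = 0 := fun P hP => (D.T_even h4 (by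
          simp at hP; rcases hP with rfl | rfl | rfl <;> simp [coeff] <;> omega)).2
    simp only [z, List.mem_cons, true_or, or_true, add_zero, zero_mul] at hXn hXc x0 x1 x2
    have e1 : D.T (true, true, true) (fun i => (D.X i : ℚ)) = -1 := by linarith
    have e2 : D.T (false, true, false) (fun i => (D.X i : ℚ)) = 1 := by linarith
    have e3 : D.T (false, false, true) (fun i => (D.X i : ℚ)) = 1 := by linarith
    rw [e1, e2, e3] at hXn hXc
    obtain ⟨i, hi⟩ := card_eq_one.1 h010
    obtain ⟨j, hj⟩ := card_eq_one.1 h110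
    have hmi : i ∈ D.cls (false, true, false) := by rw [hi]; exact mem_singleton_self i
    have hmj : j ∈ D.cls (true, true, false) := by rw [hj]; exact mem_singleton_self j
    set p : ℚ := (D.sgn i : ℚ) * D.n i with hp
    set q : ℚ := (D.sgn j : ℚ) * D.n j with hq
    have hsi : (D.sgn i : ℚ) * D.sgn i = 1 := mod_cast D.sgn_sq (by decide) hmi
    have hsj : (D.sgn j : ℚ) * D.sgn j = 1 := mod_cast D.sgn_sq (by decide) hmj
    have hpq : p + q = -1 := by
      have a1 : D.T (false, true, false) (fun k => (D.n k : ℚ)) = p := by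
        rw [T, hi, sum_singleton]
      have a2 : D.T (true, true, false) (fun k => (D.n k : ℚ)) = q := by
        rw [T, hj, sum_singleton]
      rw [← a1, ← a2]
      linarith
    have hn : ∀ {k : ι} {P : Bool × Bool × Bool}, k ∈ D.cls P → (D.n k : ℚ) ≠ 0 := fun hk =>
      Int.cast_ne_zero.2 (D.n_pos _ (D.mem_cls.1 hk).1).ne'
    have hinv : ∀ (s a n : ℚ), s * s = 1 → n ≠ 0 → s * (a ^ 2 / n) = a ^ 2 / (s * n) :=
      fun s a n hs hn0 => by
        have hs0 : s ≠ 0 := fun h => by rw [h, zero_mul] at hs; exact zero_ne_one hs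
        field_simp
        linear_combination a ^ 2 * hs
    have hc : (D.y₁ : ℚ) ^ 2 / p + (1 + (D.y₁ : ℚ)) ^ 2 / q = -1 := by
      have a1 : D.T (false, true, false) (fun k => (D.a k : ℚ) ^ 2 / D.n k) =
          (D.y₁ : ℚ) ^ 2 / p := by
        rw [T, hi, sum_singleton, hinv _ _ _ hsi (hn hmi), D.a_cls hmi]
        simp [coeff, mul_pow, sq (D.sgn i : ℚ), hsi, hp]
      have a2 : D.T (true, true, false) (fun k => (D.a k : ℚ) ^ 2 / D.n k) =
          (1 + (D.y₁ : ℚ)) ^ 2 / q := by
        rw [T, hj, sum_singleton, hinv _ _ _ hsj (hn hmj), D.a_cls hmj]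
        simp [coeff, mul_pow, sq (D.sgn j : ℚ), hsj, hq]
      rw [← a1, ← a2]
      linarith
    have hp0 : p ≠ 0 := mul_ne_zero (left_ne_zero_of_mul_eq_one hsi) (hn hmi)
    have hq0 : q ≠ 0 := mul_ne_zero (left_ne_zero_of_mul_eq_one hsj) (hn hmj)
    field_simp at hc
    have hy : (D.y₁ : ℚ) = p := by
      have h0 : ((D.y₁ : ℚ) - p) * ((D.y₁ : ℚ) - p) = 0 := by
        linear_combination -hc + ((D.y₁ : ℚ) ^ 2 + p) * hpq
      exact sub_eq_zero.1 (mul_self_eq_zero.1 h0)
    refine ⟨i, (D.mem_cls.1 hmi).1, fun h => ?_, Or.inr ?_⟩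
    · have := (D.mem_cls.1 D.o_cls).2
      rw [← h, (D.mem_cls.1 hmi).2] at this
      exact absurd this (by decide)
    · have h1 : (D.a i : ℚ) = D.n i := by
        rw [D.a_cls hmi]
        simp only [coeff, Bool.false_eq_true, if_false, if_true, zero_add, add_zero, Int.cast_mul]
        rw [hy, hp]
        linear_combination (D.n i : ℚ) * hsi
      exact_mod_cast h1

/-- A class with two elements on which the signed column of `X` sums to `0`. -/
theorem sum_two {P : Bool × Bool × Bool} (hP : P ≠ (false, false, false)) {i j : ι} (hij : i ≠ j)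
    (h : ∀ k, k ∈ D.cls P ↔ k = i ∨ k = j) :
    (∀ F : ι → ℚ, D.T P F = (D.sgn i : ℚ) * F i + (D.sgn j : ℚ) * F j) ∧
      (D.T P (fun k => (D.X k : ℚ)) = 0 → ∀ F : ι → ℚ, ∑ k ∈ D.cls P, (D.X k : ℚ) * F k =
        (D.sgn i : ℚ) * D.X i * ((D.sgn i : ℚ) * F i - (D.sgn j : ℚ) * F j)) := by
  classical
  have hset : D.cls P = {i, j} := by ext k; rw [h k]; simp
  have hT : ∀ F : ι → ℚ, D.T P F = (D.sgn i : ℚ) * F i + (D.sgn j : ℚ) * F j := fun F => by
    rw [T, hset, sum_pair hij]
  refine ⟨hT, fun h0 F => ?_⟩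
  rw [hT] at h0
  have hsi : (D.sgn i : ℚ) * D.sgn i = 1 := mod_cast D.sgn_sq hP ((h i).2 (Or.inl rfl))
  have hsj : (D.sgn j : ℚ) * D.sgn j = 1 := mod_cast D.sgn_sq hP ((h j).2 (Or.inr rfl))
  rw [hset, sum_pair hij]
  linear_combination -((D.X i : ℚ) * F i) * hsi - ((D.X j : ℚ) * F j) * hsj +
    ((D.sgn j : ℚ) * F j) * h0

/-- In a pair of classes one degree is `1`. -/
theorem found_pair (h4 : D.odd.card = 4) {P : Bool × Bool × Bool}
    (hP : P ≠ (false, false, false)) (hP0 : P ≠ (true, false, false))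
    (hodd : ¬ (2 : ℤ) ∣ D.coeff P) (hc : (D.cls P).card = 2) {o' : ι} (ho' : o' ≠ D.o)
    (hcls : ∀ k, k ∈ D.cls (true, false, false) ↔ k = D.o ∨ k = o') {ε : ℚ} (hε : ε * ε = 1)
    (hsum : D.T P (fun k => (D.n k : ℚ)) = ε * (1 + (D.sgn o' : ℚ) * D.n o'))
    (hX0 : D.T P (fun k => (D.X k : ℚ)) = 0)
    (hXo : D.T (true, false, false) (fun k => (D.X k : ℚ)) = 0)
    (hXn : ∑ k ∈ D.cls (true, false, false), (D.X k : ℚ) * (D.n k : ℚ) +
      ∑ k ∈ D.cls P, (D.X k : ℚ) * (D.n k : ℚ) = 0) :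
    ∃ i ∈ D.B, i ≠ D.o ∧ D.n i = 1 := by
  classical
  obtain ⟨i, j, hij, hset⟩ := card_eq_two.1 hc
  have hmem : ∀ k, k ∈ D.cls P ↔ k = i ∨ k = j := fun k => by rw [hset]; simp
  obtain ⟨hT, hX⟩ := D.sum_two hP hij hmem
  rw [(D.sum_two (by decide) ho'.symm hcls).2 hXo, hX hX0, D.sgn_o, D.X_o, D.n_o] at hXn
  rw [hT] at hsum
  simp only [Int.cast_one, one_mul] at hXn
  have hi := (hmem i).2 (Or.inl rfl)
  have hj := (hmem j).2 (Or.inr rfl)
  set e : ℚ := (D.sgn i : ℚ) * D.X i
  have he : e * e = 1 := by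
    have h := D.X_values.2 h4 P i hi
    rw [if_pos ⟨hP, hodd⟩] at h
    have h' : (D.X i : ℚ) * D.X i = 1 := mod_cast h
    have hs : (D.sgn i : ℚ) * D.sgn i = 1 := mod_cast D.sgn_sq hP hi
    simp only [e]
    linear_combination (D.X i : ℚ) * D.X i * hs + h'
  have hne : ∀ k ∈ D.cls P, k ≠ D.o := fun k hk h => hP0 (by
    rw [← (D.mem_cls.1 hk).2, h, (D.mem_cls.1 D.o_cls).2])
  rcases mul_eq_zero.1 (show (e - ε) * (e + ε) = 0 by linear_combination he - hε) with h | h
  · rw [sub_eq_zero] at h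
    refine ⟨j, (D.mem_cls.1 hj).1, hne j hj, D.n_eq_one_of hP hj (e := ε) hε ?_⟩
    rw [h] at hXn
    linear_combination (hsum - ε * hXn + (((D.sgn i : ℚ) * D.n i) - (D.sgn j : ℚ) * D.n j) * hε) / 2
  · have h' : e = -ε := by linarith
    refine ⟨i, (D.mem_cls.1 hi).1, hne i hi, D.n_eq_one_of hP hi (e := ε) hε ?_⟩
    rw [h'] at hXn
    linear_combination (hsum - ε * hXn - (((D.sgn i : ℚ) * D.n i) - (D.sgn j : ℚ) * D.n j) * hε) / 2

/-- **Two triples**. -/
theorem found_two (h111 : (D.cls (true, true, true)).card = 2)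
    (h110 : (D.cls (true, true, false)).card = 0) (h101 : (D.cls (true, false, true)).card = 0)
    (h011 : (D.cls (false, true, true)).card = 0) (h100 : (D.cls (true, false, false)).card = 2)
    (h010 : (D.cls (false, true, false)).card = 2) (h001 : (D.cls (false, false, true)).card = 2) :
    ∃ i ∈ D.B, i ≠ D.o ∧ D.n i = 1 := by
  classical
  obtain ⟨o', ho', hcls⟩ : ∃ o', o' ≠ D.o ∧ ∀ k, k ∈ D.cls (true, false, false) ↔
      k = D.o ∨ k = o' := by
    obtain ⟨a, b, hab, hset⟩ := card_eq_two.1 h100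
    have ho := D.o_cls
    rw [hset, mem_insert, mem_singleton] at ho
    rcases ho with rfl | rfl
    · exact ⟨b, hab.symm, fun k => by rw [hset]; simp⟩
    · exact ⟨a, hab, fun k => by rw [hset]; simp [or_comm]⟩
  have hco : D.coeff (true, false, false) = 1 := by simp [coeff]
  have h4 : ¬ (¬ (2 : ℤ) ∣ D.y₁ ∧ ¬ (2 : ℤ) ∣ D.y₂) ∧ D.odd.card = 4 := by
    have h := D.card_odd
    simp only [h111, h110, h101, h011, h100, h010, h001, coeff, if_true, Bool.false_eq_true,
      if_false, add_zero, zero_add, Nat.cast_zero, ite_self, Nat.cast_ofNat] at h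
    have hle := D.X_values.1
    have hev : (D.odd.card : ℚ) =
        if ¬ (2 : ℤ) ∣ D.y₁ ∧ ¬ (2 : ℤ) ∣ D.y₂ then 8 else 4 := by
      rw [h]
      rcases Int.emod_two_eq_zero_or_one D.y₁ with e₁ | e₁ <;>
        rcases Int.emod_two_eq_zero_or_one D.y₂ with e₂ | e₂ <;>
        simp [Int.dvd_iff_emod_eq_zero, Int.add_emod, e₁, e₂] <;> norm_num
    split_ifs at hev with hc
    · have : D.odd.card = 8 := by exact_mod_cast hev
      omega
    · exact ⟨hc, by exact_mod_cast hev⟩
  obtain ⟨hne, h4⟩ := h4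
  have hz : ∀ P ∈ [(true, true, false), (true, false, true), (false, true, true)],
      ∀ F : ι → ℚ, D.T P F = 0 ∧ ∑ k ∈ D.cls P, (D.X k : ℚ) * F k = 0 := fun P hP F => by
    have : D.cls P = ∅ := card_eq_zero.1 (by
      simp at hP; rcases hP with rfl | rfl | rfl <;> assumption)
    simp [T, this]
  have hv : ∀ F : ι → ℚ, (∀ k, ∑ i ∈ D.B, (D.v k i : ℚ) * F i = 0) →
      D.T (true, true, true) F + D.T (true, false, false) F = 0 ∧
      D.T (true, true, true) F + D.T (false, true, false) F = 0 ∧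
      D.T (true, true, true) F + D.T (false, false, true) F = 0 := fun F hF => by
    have h0 := (D.sum_v F).1
    have h1 := (D.sum_v F).2.1
    have h2 := (D.sum_v F).2.2
    simp only [hF, hz, List.mem_cons, true_or, or_true, add_zero] at h0 h1 h2
    exact ⟨h0.symm, h1.symm, h2.symm⟩
  obtain ⟨n0, n1, n2⟩ := hv (fun i => (D.n i : ℚ)) (fun k => mod_cast D.v_n k)
  obtain ⟨x0, x1, x2⟩ := hv (fun i => (D.X i : ℚ)) (fun k => mod_cast D.v_X k)
  have hTo : D.T (true, false, false) (fun i => (D.n i : ℚ)) =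
      1 + (D.sgn o' : ℚ) * D.n o' := by
    rw [(D.sum_two (by decide) ho'.symm hcls).1, D.sgn_o, D.n_o]
    simp
  have hXn : ∑ i ∈ D.B, (D.X i : ℚ) * (D.n i : ℚ) = 0 := mod_cast D.X_n
  rw [D.X_sum h4] at hXn
  simp only [hz, List.mem_cons, true_or, or_true, add_zero] at hXn
  by_cases e₁ : (2 : ℤ) ∣ D.y₁ <;> by_cases e₂ : (2 : ℤ) ∣ D.y₂
  · obtain ⟨s1, t1⟩ := D.T_even h4 (P := (false, true, false)) (by simp [coeff]; omega)
    obtain ⟨s2, t2⟩ := D.T_even h4 (P := (false, false, true)) (by simp [coeff]; omega)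
    simp only [s1, s2, add_zero] at hXn
    rw [hTo] at n0
    exact D.found_pair h4 (P := (true, true, true)) (by decide) (by decide)
      (by simp [coeff]; omega) h111 ho' hcls (ε := -1) (by norm_num) (by linarith) (by linarith)
      (by linarith) (by linarith)
  · obtain ⟨s1, t1⟩ := D.T_even h4 (P := (true, true, true)) (by simp [coeff]; omega)
    obtain ⟨s2, t2⟩ := D.T_even h4 (P := (false, true, false)) (by simp [coeff]; omega)
    simp only [s1, s2, add_zero, zero_add] at hXn
    rw [hTo] at n0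
    exact D.found_pair h4 (P := (false, false, true)) (by decide) (by decide)
      (by simp [coeff]; omega) h001 ho' hcls (ε := 1) (by norm_num) (by linarith) (by linarith)
      (by linarith) (by linarith)
  · obtain ⟨s1, t1⟩ := D.T_even h4 (P := (true, true, true)) (by simp [coeff]; omega)
    obtain ⟨s2, t2⟩ := D.T_even h4 (P := (false, false, true)) (by simp [coeff]; omega)
    simp only [s1, s2, add_zero, zero_add] at hXn
    rw [hTo] at n0
    exact D.found_pair h4 (P := (false, true, false)) (by decide) (by decide)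
      (by simp [coeff]; omega) h010 ho' hcls (ε := 1) (by norm_num) (by linarith) (by linarith)
      (by linarith) (by linarith)
  · exact absurd ⟨e₁, e₂⟩ hne

/-- **A character of degree `1`, or one equal to its degree at the involution.** -/
theorem found : ∃ i ∈ D.B, i ≠ D.o ∧ (D.n i = 1 ∨ D.a i = D.n i) := by
  obtain ⟨m, rfl | rfl, h⟩ := D.counts
  · obtain ⟨h1, h2, h3, h4, h5, h6, h7⟩ := h
    exact D.found_one h1 h2 h3 h4 h5 h6 h7
  · obtain ⟨h1, h2, h3, h4, h5, h6, h7⟩ := h
    obtain ⟨i, hi, hne, h⟩ := D.found_two h1 h2 h3 h4 h5 h6 h7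
    exact ⟨i, hi, hne, Or.inl h⟩

end Table

end FA.ZStar
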