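import Fermat.Agent.ZStar.Centraliser
import Fermat.Agent.BrauerInduction.Main
import Fermat.Agent.SuzukiCA.Induced

/-!
# Three generalised characters

The characters `η k` of `Q` vanishing on the elements of even order give class functions `θ k` of
`C`, supported on `t` times the elements of odd order; they are generalised characters by Brauer,
and their inductions to `G` only involve the principal block.
-/

set_option autoImplicit false
set_option linter.style.haveILetI false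

universe u

noncomputable section

open Finset FA.FrobeniusGroups FA.CharacterTheory FA.PrincipalBlock FA.SuzukiCA
open FA.Thompson (Reg)
open scoped Classical

namespace FA.ZStar

local instance : Fact (Nat.Prime 2) := ⟨Nat.prime_two⟩

variable {G : Type u} [Group G] [Fintype G]

/-- The principal block of `Q` with its signs at `xb`. -/
structure Basis (D : Setup G) (v : Place 2) where
  φ : Fin 4 → D.Q → ℂ
  δ : Fin 4 → ℤ
  φ_zero : φ 0 = fun _ => 1
  δ_zero : δ 0 = 1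
  inj : Function.Injective φ
  image : univ.image φ = prin D.Q v
  δ_sq : ∀ k, δ k * δ k = 1
  value : ∀ k, φ k D.xb = δ k

theorem exists_basis' (D : Setup G) (v : Place 2) : Nonempty (Basis D v) := by
  obtain ⟨φ, δ, h0, h0', hinj, him, h⟩ := D.exists_basis v
  exact ⟨⟨φ, δ, h0, h0', hinj, him, fun k => (h k).1, fun k => (h k).2⟩⟩

variable {D : Setup G} {v : Place 2} (E : Basis D v)

namespace Setup

variable (D)

theorem sum_π (F : D.Q → ℂ) : ∑ c, F (D.π c) = 2 * ∑ q, F q := by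
  rw [← sum_fiberwise univ D.π, mul_sum]
  refine sum_congr rfl fun q _ => ?_
  obtain ⟨c, rfl⟩ := D.π_surjective q
  rw [sum_congr rfl fun d hd => by rw [(mem_filter.1 hd).2], sum_const,
    show univ.filter (fun d => D.π d = D.π c) = {c, D.tC * c} by
      ext d
      simp only [mem_filter, mem_univ, true_and, mem_insert, mem_singleton]
      exact ⟨D.π_eq, by rintro (rfl | rfl) <;> simp [D.π_t_mul]⟩,
    card_pair fun h => D.tC_ne_one (mul_eq_right.1 h.symm), nsmul_eq_mul, Nat.cast_ofNat]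

theorem inflate_mem_irr {φ : D.Q → ℂ} (hφ : φ ∈ irr D.Q) : (fun c => φ (D.π c)) ∈ irr D.ct := by
  obtain ⟨W, -, hW⟩ := exists_of_mem_irr hφ
  subst hW
  refine mem_irr_of_norm (W.toRepresentation.comp D.π) ?_
  have hn := pairing_irr hφ hφ
  rw [if_pos rfl] at hn
  rw [← hn]
  show (Nat.card D.ct : ℂ)⁻¹ * ∑ c, W.toRepresentation.character (D.π c) *
    W.toRepresentation.character (D.π c⁻¹) = _
  simp only [map_inv]
  rw [D.sum_π fun q => W.toRepresentation.character q * W.toRepresentation.character q⁻¹, D.card_ct,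
    pairing]
  push_cast
  have hN : (Nat.card D.Q : ℂ) ≠ 0 := Nat.cast_ne_zero.2 Nat.card_pos.ne'
  field_simp

variable (v)

/-- A character of `Q` inflating into the principal block is in the principal block. -/
theorem prin_of_inflate {φ : D.Q → ℂ} (hφ : φ ∈ irr D.Q)
    (h : (fun c => φ (D.π c)) ∈ prin D.ct v) : φ ∈ prin D.Q v := by
  by_contra hn
  have hQ := good_prin (G := D.Q) v
  set f : D.ct → ℂ := fun c => if Reg 2 c then aS (prin D.Q v) (D.π c) else 0
  have hf : IsCen v f := ⟨fun g c => by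
    simp only [f, FA.Thompson.reg_conj_iff, map_mul, map_inv, isCls_aS hQ.sub (D.π g) (D.π c)],
    fun c => by
      simp only [f]
      split_ifs
      exacts [hQ.cen.mem _, zero_mem _]⟩
  have hsum : ∀ F : D.Q → ℂ, ∑ c, f c * F (D.π c) = ∑ q, aS (prin D.Q v) q * F q := fun F => by
    rw [sum_congr rfl fun c _ => show f c * F (D.π c) =
      if Reg 2 c then aS (prin D.Q v) (D.π c) * F (D.π c) else 0 by
        simp only [f, ite_mul, zero_mul],
      D.sum_reg]
    refine sum_congr rfl fun q _ => ?_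
    split_ifs with hq
    · rw [(D.lift_spec hq).2]
    · rw [hQ.aS_singular hq, zero_mul]
  have h1 := (mem_filter.1 h).2 f hf
  have e1 : omega (fun _ => 1) f = 1 := by
    rw [omega_one, ← (show ∑ q, aS (prin D.Q v) q = 1 from sum_aS_prin)]
    simpa using hsum fun _ => 1
  have e2 : omega (fun c => φ (D.π c)) f = 0 := by
    rw [omega, hsum, map_one]
    exact (omega_aS hQ.sub hφ).trans (if_neg hn)
  rw [e1, e2, v.r_one, v.r_zero] at h1
  exact one_ne_zero h1

/-- **Across the blocks** the elements of odd order are orthogonal. -/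
theorem cross {φ : D.Q → ℂ} (hφ : φ ∈ irr D.Q) {ψ : D.ct → ℂ} (hψ : ψ ∈ irr D.ct)
    (h : φ ∈ prin D.Q v ∧ ψ ∉ prin D.ct v ∨ φ ∉ prin D.Q v ∧ ψ ∈ prin D.ct v) :
    ∑ q, (if Reg 2 q then φ q * ψ (D.lift q)⁻¹ else 0) = 0 ∧
      ∑ q, (if Reg 2 q then φ q⁻¹ * ψ (D.lift q) else 0) = 0 := by
  have hC := good_prin (G := D.ct) v
  have e1 : ∑ q, (if Reg 2 q then φ q * ψ (D.lift q)⁻¹ else 0) = 0 := by
    rw [sum_congr rfl fun q _ => show (if Reg 2 q then φ q * ψ (D.lift q)⁻¹ else 0) =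
      if Reg 2 q then φ (D.π (D.lift q)) * ψ (D.lift q)⁻¹ else 0 by
        split_ifs with hq
        · rw [(D.lift_spec hq).2]
        · rfl, ← D.sum_reg fun c => φ (D.π c) * ψ c⁻¹, ← sum_filter]
    rcases h with ⟨h1, h2⟩ | ⟨h1, h2⟩
    · have := hC.regular_orth hψ h2 (comp_mem_prin D.π_surjective h1)
      rw [← this]
      refine sum_equiv (Equiv.inv D.ct) (fun c => ?_) fun c _ => ?_
      · simp [Reg, orderOf_inv]
      · simp [mul_comm]
    · exact hC.regular_orth (D.inflate_mem_irr hφ) (fun hm => h1 (D.prin_of_inflate v hφ hm)) h2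
  refine ⟨e1, Eq.trans ?_ e1⟩
  refine Fintype.sum_equiv (Equiv.inv D.Q) _ _ fun q => ?_
  simp only [Equiv.inv_apply, show Reg 2 q⁻¹ ↔ Reg 2 q by rw [Reg, Reg, orderOf_inv]]
  split_ifs with hq
  · rw [D.lift_inv hq, inv_inv]
  · rfl

/-- Restriction to the centraliser. -/
theorem res_eq {χ : G → ℂ} (hχ : χ ∈ irr G) (c : D.ct) :
    χ c = ∑ ψ ∈ irr D.ct, (mult D.ct χ ψ : ℂ) * ψ c := by
  rw [expansion (f := fun d : D.ct => χ d) (fun g x => by
    show χ ((g * x * g⁻¹ : D.ct) : G) = _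
    rw [Subgroup.coe_mul, Subgroup.coe_mul, Subgroup.coe_inv]
    exact irr_conj hχ _ _) c]
  exact sum_congr rfl fun ψ hψ => by
    rw [← mult_spec hχ hψ, pairing_comm]
    rfl

theorem irr_t_mul {ψ : D.ct → ℂ} (hψ : ψ ∈ irr D.ct) (c : D.ct) :
    ψ (D.tC * c) = ψ D.tC / ψ 1 * ψ c := by
  rw [← D.tC_central c]
  exact (irr_mul_central hψ D.tC_sq D.tC_central).2 c

end Setup

namespace Basis

theorem mem_prin (k : Fin 4) : E.φ k ∈ prin D.Q v :=
  E.image ▸ mem_image_of_mem E.φ (mem_univ k)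

theorem mem_irr (k : Fin 4) : E.φ k ∈ irr D.Q := (good_prin v).sub (E.mem_prin k)

/-- The virtual characters of `Q` vanishing on the elements of even order. -/
def η (k : Fin 3) (q : D.Q) : ℂ :=
  (E.δ k.castSucc : ℂ) * E.φ k.castSucc q - (E.δ 3 : ℂ) * E.φ 3 q

theorem δ_sq' (k : Fin 4) : (E.δ k : ℂ) * E.δ k = 1 := mod_cast E.δ_sq k

theorem η_singular (k : Fin 3) {q : D.Q} (hq : ¬ Reg 2 q) : E.η k q = 0 := by
  rw [η, D.prin_singular v (E.mem_prin _) hq, D.prin_singular v (E.mem_prin _) hq, E.value,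
    E.value, E.δ_sq', E.δ_sq', sub_self]

theorem η_conj (k : Fin 3) (g q : D.Q) : E.η k (g * q * g⁻¹) = E.η k q := by
  rw [η, η, irr_conj (E.mem_irr _), irr_conj (E.mem_irr _)]

theorem pairing_η (k : Fin 3) (f : D.Q → ℂ) : pairing (E.η k) f =
    (E.δ k.castSucc : ℂ) * pairing (E.φ k.castSucc) f - (E.δ 3 : ℂ) * pairing (E.φ 3) f := by
  simp only [pairing, η, sub_mul, sum_sub_distrib, mul_assoc, ← mul_sum, mul_sub]
  ring

theorem pairing_φ (k l : Fin 4) : pairing (E.φ k) (E.φ l) = if k = l then 1 else 0 := by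
  rw [pairing_irr (E.mem_irr k) (E.mem_irr l)]
  simp only [E.inj.eq_iff]

theorem η_gram (k l : Fin 3) : pairing (E.η k) (E.η l) = if k = l then 2 else 1 := by
  have h : ∀ j, pairing (E.φ j) (E.η l) =
      (E.δ l.castSucc : ℂ) * (if l.castSucc = j then 1 else 0) -
        (E.δ 3 : ℂ) * (if (3 : Fin 4) = j then 1 else 0) := fun j => by
    rw [pairing_comm, E.pairing_η, E.pairing_φ, E.pairing_φ]
  have hne : ∀ i : Fin 3, i.castSucc ≠ (3 : Fin 4) := by decide
  rw [E.pairing_η, h, h, if_pos rfl, if_neg (hne k).symm, if_neg (hne l)]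
  rcases eq_or_ne k l with rfl | hkl
  · rw [if_pos rfl, if_pos rfl]
    linear_combination E.δ_sq' k.castSucc + E.δ_sq' 3
  · rw [if_neg hkl, if_neg fun h => hkl (Fin.castSucc_injective _ h).symm]
    linear_combination E.δ_sq' 3

theorem η_one (k : Fin 3) : pairing (E.η k) (fun _ => 1) = if k = 0 then 1 else 0 := by
  rw [E.pairing_η, ← E.φ_zero, E.pairing_φ, E.pairing_φ]
  fin_cases k <;> simp [E.δ_zero]

/-- The class functions of `C`. -/
def θ (k : Fin 3) (c : D.ct) : ℂ := if Reg 2 (D.tC * c) then 2 * E.η k (D.π c) else 0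

theorem θ_conj (k : Fin 3) (g c : D.ct) : E.θ k (g * c * g⁻¹) = E.θ k c := by
  have h : D.tC * (g * c * g⁻¹) = g * (D.tC * c) * g⁻¹ := by
    simp only [← mul_assoc, ← D.tC_central g]
  simp only [θ, h, FA.Thompson.reg_conj_iff, map_mul, map_inv, E.η_conj]

/-- The pairing with `θ` as a sum over `Q`. -/
theorem pairing_θ (k : Fin 3) (f : D.ct → ℂ) : pairing (E.θ k) f = (Nat.card D.Q : ℂ)⁻¹ *
    ∑ q, if Reg 2 q then E.η k q * f (D.tC * (D.lift q)⁻¹) else 0 := by
  rw [pairing, sum_congr rfl fun c _ => show E.θ k c * f c⁻¹ =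
    if Reg 2 (D.tC * c) then 2 * (E.η k (D.π c) * f c⁻¹) else 0 by
      simp only [θ, ite_mul, zero_mul, mul_assoc],
    D.sum_reg_t fun c => 2 * (E.η k (D.π c) * f c⁻¹), D.card_ct,
    sum_congr rfl fun q _ => show (if Reg 2 q then
      2 * (E.η k (D.π (D.tC * D.lift q)) * f (D.tC * D.lift q)⁻¹) else 0) =
      2 * if Reg 2 q then E.η k q * f (D.tC * (D.lift q)⁻¹) else 0 by
      split_ifs with hq
      · rw [D.π_t_mul, (D.lift_spec hq).2, mul_inv_rev, inv_eq_of_sq D.tC_sq, D.tC_central]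
      · rw [mul_zero], ← mul_sum]
  push_cast
  field_simp

theorem int_elementary (k : Fin 3) (H : Subgroup D.ct) (hH : FA.BrauerInduction.IsElementary H)
    {ξ : H → ℂ} (hξ : ξ ∈ irr H) : ∃ n : ℤ, pairing (fun y : H => E.θ k y) ξ = n := by
  by_cases htH : D.tC ∈ H
  swap
  · refine ⟨0, ?_⟩
    have h0 : ∀ y : H, E.θ k y = 0 := fun y => by
      rw [θ, if_neg fun hr => htH ?_]
      obtain ⟨i, hi⟩ : ∃ i, orderOf (D.tC * (y : D.ct)) = 2 * i + 1 :=
        ⟨orderOf (D.tC * (y : D.ct)) / 2, by unfold Reg at hr; omega⟩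
      have h1 := pow_orderOf_eq_one (D.tC * (y : D.ct))
      rw [hi, (show Commute D.tC (y : D.ct) from (D.tC_central _).symm).mul_pow, pow_succ, pow_mul,
        sq, D.tC_sq, one_pow, one_mul] at h1
      rw [eq_inv_of_mul_eq_one_left h1]
      exact inv_mem (pow_mem y.2 _)
    simp [pairing, h0]
  obtain ⟨p, c, P, hp, hP, hco, hcomm, hHeq⟩ := hH
  obtain ⟨e, m, hm, hem⟩ :=
    Nat.exists_eq_pow_mul_and_not_dvd (Nat.card_pos (α := H)).ne' 2 (by norm_num)
  obtain ⟨M, hM0, hM1⟩ := Nat.chineseRemainder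
    (Nat.Coprime.pow_left e (Nat.prime_two.coprime_iff_not_dvd.2 hm) : (2 ^ e).Coprime m) 0 1
  have hreg : ∀ z : H, Reg 2 z → z ^ M = z := fun z hz => by
    have h1 : orderOf z ∣ m := by
      have h := orderOf_dvd_natCard z
      rw [hem] at h
      exact (Nat.Coprime.pow_right e
        (Nat.prime_two.coprime_iff_not_dvd.2 hz).symm).dvd_of_dvd_mul_left h
    conv_rhs => rw [← pow_one z]
    exact pow_eq_pow_iff_modEq.2 (hM1.of_dvd h1)
  have hpel : ∀ z : H, PEl 2 z → z ^ M = 1 := fun z hz => by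
    obtain ⟨i, hi⟩ := hz
    obtain ⟨j, -, hj⟩ := (Nat.dvd_prime_pow Nat.prime_two).1 (orderOf_dvd_of_pow_eq_one hi)
    have h := orderOf_dvd_natCard z
    rw [hem, hj] at h
    have h1 : orderOf z ∣ 2 ^ e := hj ▸ (Nat.Coprime.pow_left j
      (Nat.prime_two.coprime_iff_not_dvd.2 hm)).dvd_of_dvd_mul_right h
    exact orderOf_dvd_iff_pow_eq_one.1 (h1.trans (Nat.modEq_zero_iff_dvd.1 hM0))
  have hPy : ∀ y ∈ P, y ∈ H := fun y hy => hHeq ▸ Subgroup.mem_sup_right hy
  have hPmul : ∀ y ∈ P, ∀ y' ∈ P, (y * y') ^ M = y ^ M * y' ^ M := by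
    have key : ∀ y ∈ P, y ^ M = if p = 2 then 1 else y := fun y hy => by
      obtain ⟨i, hi⟩ := hP ⟨y, hy⟩
      have hi' : y ^ p ^ i = 1 := congrArg Subtype.val hi
      split_ifs with h2
      · exact congrArg Subtype.val (hpel ⟨y, hPy y hy⟩ ⟨i, Subtype.ext (h2 ▸ hi')⟩)
      · refine congrArg Subtype.val (hreg ⟨y, hPy y hy⟩ ((reg_coe (c := (⟨y, hPy y hy⟩ : H))).1 ?_))
        intro hd
        have h3 := hd.trans (orderOf_dvd_of_pow_eq_one hi')
        exact h2 (((Nat.prime_dvd_prime_iff_eq Nat.prime_two hp).1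
          (Nat.prime_two.dvd_of_dvd_pow h3)).symm)
    intro y hy y' hy'
    rw [key _ (mul_mem hy hy'), key y hy, key y' hy']
    split_ifs <;> simp
  have hhom : ∀ a b : H, (a * b) ^ M = a ^ M * b ^ M := fun a b => by
    obtain ⟨i, y, hy, ha⟩ := FA.BrauerInduction.exists_of_mem_sup hcomm
      (show (a : D.ct) ∈ Subgroup.zpowers c ⊔ P by rw [← hHeq]; exact a.2)
    obtain ⟨i', y', hy', hb⟩ := FA.BrauerInduction.exists_of_mem_sup hcomm
      (show (b : D.ct) ∈ Subgroup.zpowers c ⊔ P by rw [← hHeq]; exact b.2)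
    refine Subtype.ext ?_
    push_cast
    have hcy : ∀ (j : ℤ), ∀ z ∈ P, Commute (c ^ j) z := fun j z hz =>
      Commute.zpow_left (hcomm z hz) j
    have e : c ^ i * y * (c ^ i' * y') = c ^ (i + i') * (y * y') := by
      rw [zpow_add, mul_assoc, ← mul_assoc y, ← (hcy i' y hy).eq]
      group
    rw [ha, hb, e, (hcy _ _ (mul_mem hy hy')).mul_pow, (hcy i y hy).mul_pow,
      (hcy i' y' hy').mul_pow, hPmul y hy y' hy', zpow_add,
      ((Commute.refl c).zpow_zpow i i').mul_pow]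
    rw [mul_assoc ((c ^ i) ^ M), ← mul_assoc ((c ^ i') ^ M),
      (((hcy i' y hy)).pow_pow M M).eq]
    simp only [mul_assoc]
  set f : H →* H :=
    { toFun := fun z => z ^ M, map_one' := one_pow M, map_mul' := hhom }
  set tH : H := ⟨D.tC, htH⟩
  have htH2 : tH * tH = 1 := Subtype.ext D.tC_sq
  have htc : ∀ g : H, g * tH = tH * g := fun g => Subtype.ext (D.tC_central g)
  have hft : f tH = 1 := hpel tH ⟨1, by rw [pow_one, sq, htH2]⟩
  obtain ⟨hε, hmul⟩ := irr_mul_central hξ htH2 htc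
  set ε : ℂ := ξ tH / ξ 1
  -- the integer
  obtain ⟨W, -, hW⟩ := exists_of_mem_irr hξ
  have hint : ∀ j, ∃ n : ℤ,
      pairing (fun y : H => E.φ j (D.π y)) (fun y => ξ (f y)) = n := fun j => by
    obtain ⟨V, -, hV⟩ := exists_of_mem_irr (E.mem_irr j)
    obtain ⟨n, hn⟩ := exists_int_pairing (V.toRepresentation.comp (D.π.comp H.subtype))
      (W.toRepresentation.comp f)
    exact ⟨n, by rw [← hn, ← hV, ← hW]; rfl⟩
  obtain ⟨n₁, hn₁⟩ := hint k.castSucc
  obtain ⟨n₃, hn₃⟩ := hint 3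
  have hWint : pairing (fun y : H => E.η k (D.π y)) (fun y => ξ (f y)) =
      (E.δ k.castSucc * n₁ - E.δ 3 * n₃ : ℤ) := by
    push_cast
    rw [← hn₁, ← hn₃]
    simp only [pairing, η, sub_mul, sum_sub_distrib, mul_assoc, ← mul_sum, mul_sub]
    ring
  obtain ⟨s, hs⟩ : ∃ s : ℤ, ε = s := by
    rcases mul_eq_zero.1 (show (ε - 1) * (ε + 1) = 0 by linear_combination hε) with h | h
    · exact ⟨1, by rw [sub_eq_zero.1 h, Int.cast_one]⟩
    · exact ⟨-1, by rw [eq_neg_of_add_eq_zero_left h]; simp⟩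
  refine ⟨s * (E.δ k.castSucc * n₁ - E.δ 3 * n₃), ?_⟩
  rw [Int.cast_mul, ← hs, ← hWint]
  set A : H → ℂ := fun y => E.η k (D.π y) * ξ (f y⁻¹)
  have hA : ∑ y, A y = 2 * ∑ y : H, if Reg 2 (D.tC * (y : D.ct)) then A y else 0 := by
    rw [two_mul]
    nth_rw 1 [← Fintype.sum_equiv (Equiv.mulLeft tH)
      (fun y : H => if Reg 2 (y : D.ct) then A y else 0)
      (fun y : H => if Reg 2 (D.tC * (y : D.ct)) then A y else 0) fun y => by
        show _ = if Reg 2 (D.tC * (D.tC * (y : D.ct))) then A (tH * y) else 0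
        rw [D.tC_tC]
        congr 1
        show _ = E.η k (D.π (D.tC * y)) * ξ (f (tH * y)⁻¹)
        rw [D.π_t_mul, mul_inv_rev, map_mul f, map_inv f tH, hft, inv_one, mul_one]]
    rw [← sum_add_distrib]
    refine sum_congr rfl fun y _ => ?_
    by_cases h1 : Reg 2 (y : D.ct)
    · rw [if_pos h1, if_neg (D.not_reg_t_mul h1), add_zero]
    · rw [if_neg h1, zero_add]
      split_ifs with h2
      · rfl
      · show E.η k (D.π y) * _ = 0
        rw [E.η_singular k fun hr => (D.reg_or hr).elim h1 h2, zero_mul]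
  show (Nat.card H : ℂ)⁻¹ * ∑ y : H, E.θ k y * ξ y⁻¹ = ε * ((Nat.card H : ℂ)⁻¹ * ∑ y, A y)
  rw [hA, mul_sum, mul_sum, mul_sum, mul_sum]
  refine sum_congr rfl fun y _ => ?_
  simp only [θ]
  split_ifs with hy
  · have hs : Reg 2 (tH * y) := (reg_coe (c := tH * y)).1 hy
    have h2 : f (tH * y) = tH * y := hreg _ hs
    rw [map_mul f, hft, one_mul] at h2
    have he : y⁻¹ = f y⁻¹ * tH := by
      rw [map_inv, h2, mul_inv_rev, inv_eq_of_sq htH2, mul_assoc, htH2, mul_one]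
    conv_lhs => rw [he, hmul]
    simp only [A]
    ring
  · simp

/-- **`θ` is a generalised character.** -/
theorem int_θ (k : Fin 3) {ψ : D.ct → ℂ} (hψ : ψ ∈ irr D.ct) :
    ∃ n : ℤ, pairing (E.θ k) ψ = n :=
  FA.BrauerInduction.exists_int_pairing_of_elementary (E.θ_conj k)
    (fun H hH _ hξ => E.int_elementary k H hH hξ) hψ

/-- The coefficient of a character of `G`. -/
def V (k : Fin 3) (χ : G → ℂ) : ℂ := pairing (E.θ k) fun c : D.ct => χ c

theorem V_int (k : Fin 3) {χ : G → ℂ} (hχ : χ ∈ irr G) : ∃ n : ℤ, E.V k χ = n := by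
  choose! a ha using fun (ψ : D.ct → ℂ) (hψ : ψ ∈ irr D.ct) => E.int_θ k hψ
  refine ⟨∑ ψ ∈ irr D.ct, mult D.ct χ ψ * a ψ, ?_⟩
  rw [V, pairing_comm, funext fun c => D.res_eq hχ c, pairing_sum_left]
  push_cast
  exact sum_congr rfl fun ψ hψ => by rw [pairing_comm ψ, ha ψ hψ]

theorem V_eq (k : Fin 3) (χ : G → ℂ) : E.V k χ = (Nat.card D.Q : ℂ)⁻¹ *
    ∑ q, if Reg 2 q then E.η k q * χ ((D.tC * (D.lift q)⁻¹ : D.ct) : G) else 0 :=
  E.pairing_θ k _

/-- **Only the principal block occurs.** -/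
theorem V_not_prin (k : Fin 3) {χ : G → ℂ} (hχ : χ ∈ irr G) (hn : χ ∉ prin G v) :
    E.V k χ = 0 := by
  have hmem : ∀ g, g ∈ D.ct ↔ g * D.t = D.t * g := fun _ => D.mem_ct
  have hrw : ∀ q, Reg 2 q → χ ((D.tC * (D.lift q)⁻¹ : D.ct) : G) =
      ∑ ψ ∈ irr D.ct \ prin D.ct v, (mult D.ct χ ψ : ℂ) * (ψ D.tC / ψ 1) * ψ (D.lift q)⁻¹ := by
    intro q hq
    have h0 : ∑ ψ ∈ prin D.ct v, (mult D.ct χ ψ : ℂ) * ψ (D.tC * (D.lift q)⁻¹) = 0 :=
      second_main_not_prin (v := v) D.t_pEl D.ct hmem hχ hn (D.lift_spec hq).1.inv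
    rw [D.res_eq hχ, ← sum_sdiff (good_prin (G := D.ct) v).sub, h0, add_zero]
    exact sum_congr rfl fun ψ hψ => by rw [D.irr_t_mul (mem_sdiff.1 hψ).1]; ring
  have hη : ∀ ψ ∈ irr D.ct \ prin D.ct v,
      ∑ q, (if Reg 2 q then E.η k q * ψ (D.lift q)⁻¹ else 0) = 0 := fun ψ hψ => by
    obtain ⟨h1, h2⟩ := mem_sdiff.1 hψ
    have hk := fun j => (D.cross v (E.mem_irr j) h1 (Or.inl ⟨E.mem_prin j, h2⟩)).1
    rw [sum_congr rfl fun q _ => show (if Reg 2 q then E.η k q * ψ (D.lift q)⁻¹ else 0) =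
      (E.δ k.castSucc : ℂ) * (if Reg 2 q then E.φ k.castSucc q * ψ (D.lift q)⁻¹ else 0) -
        (E.δ 3 : ℂ) * (if Reg 2 q then E.φ 3 q * ψ (D.lift q)⁻¹ else 0) by
        rw [η]; split_ifs <;> ring, sum_sub_distrib, ← mul_sum, ← mul_sum, hk, hk, mul_zero,
      mul_zero, sub_zero]
  rw [E.V_eq, sum_congr rfl fun q _ => show (if Reg 2 q then
      E.η k q * χ ((D.tC * (D.lift q)⁻¹ : D.ct) : G) else 0) =
    ∑ ψ ∈ irr D.ct \ prin D.ct v, (mult D.ct χ ψ : ℂ) * (ψ D.tC / ψ 1) *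
      (if Reg 2 q then E.η k q * ψ (D.lift q)⁻¹ else 0) by
    split_ifs with hq
    · rw [hrw q hq, mul_sum]
      exact sum_congr rfl fun ψ _ => by ring
    · simp, sum_comm, sum_eq_zero fun ψ hψ => by rw [← mul_sum, hη ψ hψ, mul_zero], mul_zero]

/-- **The value at the involution.** -/
theorem value_t {χ : G → ℂ} (hχ : χ ∈ prin G v) :
    χ D.t = ∑ k : Fin 3, E.V k χ * ((E.δ k.castSucc : ℂ) * E.φ k.castSucc 1) := by
  have hmem : ∀ g, g ∈ D.ct ↔ g * D.t = D.t * g := fun _ => D.mem_ct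
  have hχi := (good_prin v).sub hχ
  set h : D.Q → ℂ := fun q => if Reg 2 q then χ ((D.tC * D.lift q : D.ct) : G) else 0
  have hcls : ∀ g q, h (g * q * g⁻¹) = h q := fun g q => by
    obtain ⟨c, rfl⟩ := D.π_surjective g
    simp only [h, FA.Thompson.reg_conj_iff]
    split_ifs with hq
    · rw [D.lift_conj hq, show D.tC * (c * D.lift q * c⁻¹) = c * (D.tC * D.lift q) * c⁻¹ by
        simp only [← mul_assoc, D.tC_central c]]
      push_cast
      exact irr_conj hχi _ _
    · rfl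
  have hout : ∀ φ ∈ irr D.Q, φ ∉ prin D.Q v → pairing h φ = 0 := fun φ hφ hn => by
    rw [pairing, sum_congr rfl fun q _ => show h q * φ q⁻¹ =
      ∑ ψ ∈ prin D.ct v, (mult D.ct χ ψ : ℂ) * (ψ D.tC / ψ 1) *
        (if Reg 2 q then φ q⁻¹ * ψ (D.lift q) else 0) by
      simp only [h]
      split_ifs with hq
      · rw [show χ ((D.tC * D.lift q : D.ct) : G) =
          ∑ ψ ∈ prin D.ct v, (mult D.ct χ ψ : ℂ) * ψ (D.tC * D.lift q) from
            second_main (v := v) D.t_pEl D.ct hmem hχ (D.lift_spec hq).1, sum_mul]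
        exact sum_congr rfl fun ψ hψ => by
          rw [D.irr_t_mul ((good_prin v).sub hψ)]; ring
      · simp, sum_comm, sum_eq_zero fun ψ hψ => by
        rw [← mul_sum, (D.cross v hφ ((good_prin v).sub hψ) (Or.inr ⟨hn, hψ⟩)).2, mul_zero],
      mul_zero]
  have hexp : ∀ q, h q = ∑ j, pairing h (E.φ j) * E.φ j q := fun q => by
    rw [expansion hcls q, ← sum_subset (good_prin (G := D.Q) v).sub
      fun φ hφ hn => by rw [hout φ hφ hn, zero_mul], ← E.image, sum_image fun a _ b _ e => E.inj e]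
  have hu : ∑ j, pairing h (E.φ j) * (E.δ j : ℂ) = 0 := by
    have hx := hexp D.xb
    simp only [h, if_neg D.not_reg_xb, E.value] at hx
    exact hx.symm
  have hz : ∑ j, (E.δ j : ℂ) * E.φ j 1 = 0 := by
    have ho := (good_prin (G := D.Q) v).orth (Reg.one) D.not_reg_xb
    rw [← E.image, sum_image fun a _ b _ e => E.inj e] at ho
    rw [← ho]
    exact sum_congr rfl fun j _ => by rw [E.value, mul_comm]
  have hV : ∀ k : Fin 3, E.V k χ = (E.δ k.castSucc : ℂ) * pairing h (E.φ k.castSucc) -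
      (E.δ 3 : ℂ) * pairing h (E.φ 3) := fun k => by
    rw [pairing_comm h, pairing_comm h, ← E.pairing_η, E.V_eq, pairing]
    congr 1
    refine sum_congr rfl fun q _ => ?_
    by_cases hq : Reg 2 q
    · simp only [h, if_pos hq, if_pos hq.inv, D.lift_inv hq]
    · simp only [if_neg hq, E.η_singular k hq, zero_mul]
  have h1 := hexp 1
  simp only [h, if_pos Reg.one, D.lift_one, mul_one] at h1
  rw [show χ D.t = χ ((D.tC : D.ct) : G) from rfl, h1, Fin.sum_univ_three, hV, hV, hV]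
  rw [Fin.sum_univ_four] at hu hz ⊢
  have e0 := E.δ_sq' 0
  have e1 := E.δ_sq' 1
  have e2 := E.δ_sq' 2
  have e3 := E.δ_sq' 3
  show _ = ((E.δ 0 : ℂ) * pairing h (E.φ 0) - _) * ((E.δ 0 : ℂ) * E.φ 0 1) +
    ((E.δ 1 : ℂ) * pairing h (E.φ 1) - _) * ((E.δ 1 : ℂ) * E.φ 1 1) +
    ((E.δ 2 : ℂ) * pairing h (E.φ 2) - _) * ((E.δ 2 : ℂ) * E.φ 2 1)
  linear_combination -(pairing h (E.φ 0) * E.φ 0 1) * e0 - (pairing h (E.φ 1) * E.φ 1 1) * e1 -
    (pairing h (E.φ 2) * E.φ 2 1) * e2 - (pairing h (E.φ 3) * E.φ 3 1) * e3 +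
    ((E.δ 3 : ℂ) * pairing h (E.φ 3)) * hz

/-- `θ` is supported on `t` times elements of odd order. -/
theorem pow_eq_t {c : D.ct} (h : Reg 2 (D.tC * c)) :
    ∃ i, ∀ j, (c : G) ^ ((2 * i + 1) * (2 * j + 1)) = D.t := by
  obtain ⟨i, hi⟩ : ∃ i, orderOf (D.tC * c) = 2 * i + 1 :=
    ⟨orderOf (D.tC * c) / 2, by unfold Reg at h; omega⟩
  refine ⟨i, fun j => ?_⟩
  have hc : c ^ (2 * i + 1) = D.tC := by
    conv_lhs => rw [← D.tC_tC c]
    rw [(show Commute D.tC (D.tC * c) from (D.tC_central _).symm).mul_pow, pow_succ, pow_mul, sq,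
      D.tC_sq, one_pow, one_mul, ← hi, pow_orderOf_eq_one, mul_one]
  have h2 : c ^ ((2 * i + 1) * (2 * j + 1)) = D.tC := by
    rw [pow_mul, hc, pow_succ, pow_mul, sq, D.tC_sq, one_pow, one_mul]
  exact congrArg Subtype.val h2

theorem ind_eq_zero (k : Fin 3) {g : G} (h : Reg 2 g ∨ g = D.x) :
    induced D.ct (E.θ k) g = 0 := by
  rw [induced, sum_eq_zero fun w _ => ?_, mul_zero]
  split_ifs with hmem
  · rw [θ, if_neg fun hr => ?_]
    rcases h with h | rfl
    · exact D.not_reg_t_mul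
        ((reg_coe (c := (⟨_, hmem⟩ : D.ct))).1 (FA.Thompson.reg_conj_iff.2 h)) hr
    · obtain ⟨i, hi⟩ := pow_eq_t hr
      have h4 : D.x ^ (4 : ℕ) = 1 := by rw [← D.orderOf_x, pow_orderOf_eq_one]
      have h1 := hi 0
      simp only [Nat.mul_zero, zero_add, mul_one, conj_pow] at h1
      have h2 := congrArg (· ^ 2) h1
      simp only [conj_pow, ← pow_mul, sq D.t, D.t_iso.2.1, conj_eq_one_iff] at h2
      have h3 := orderOf_dvd_of_pow_eq_one h2
      rw [D.orderOf_x] at h3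
      omega
  · rfl

theorem ind_eq (k : Fin 3) {c : D.ct} (hc : Reg 2 (D.tC * c)) :
    induced D.ct (E.θ k) c = E.θ k c := by
  have hterm : ∀ w : G, (if h : w * (c : G) * w⁻¹ ∈ D.ct then E.θ k ⟨_, h⟩ else 0) =
      if w ∈ D.ct then E.θ k c else 0 := fun w => by
    by_cases hw : w ∈ D.ct
    · rw [if_pos hw, dif_pos (mul_mem (mul_mem hw c.2) (inv_mem hw))]
      exact E.θ_conj k ⟨w, hw⟩ c
    · rw [if_neg hw]
      split_ifs with hmem
      · rw [θ, if_neg fun hr => hw ?_]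
        obtain ⟨i, hi⟩ := pow_eq_t hr
        obtain ⟨i', hi'⟩ := pow_eq_t hc
        have h1 := hi i'
        rw [mul_comm, conj_pow, hi' i] at h1
        exact D.mem_ct.2 (mul_inv_eq_iff_eq_mul.1 h1)
      · rfl
  rw [induced, sum_congr rfl fun w _ => hterm w, ← sum_filter, sum_const, nsmul_eq_mul,
    ← mul_assoc, show (univ.filter fun w => w ∈ D.ct).card = Nat.card D.ct by
      rw [Nat.card_eq_fintype_card, Fintype.card_subtype],
    inv_mul_cancel₀ (Nat.cast_ne_zero.2 Nat.card_pos.ne'), one_mul]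

theorem ind_expansion (k : Fin 3) (g : G) :
    ∑ χ ∈ prin G v, E.V k χ * χ g = induced D.ct (E.θ k) g := by
  rw [expansion (induced_conj (E.θ k)) g,
    ← sum_subset (good_prin (G := G) v).sub fun χ hχ hn => by
      rw [pairing_induced D.ct (E.θ k) (irr_conj hχ), show pairing (E.θ k) (fun c : D.ct => χ c) =
        E.V k χ from rfl, E.V_not_prin k hχ hn, zero_mul]]
  exact sum_congr rfl fun χ hχ => by
    rw [pairing_induced D.ct (E.θ k) (irr_conj ((good_prin v).sub hχ))]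
    rfl

/-- **Orthogonality to regular columns and to the column of `x`.** -/
theorem V_column (k : Fin 3) {g : G} (h : Reg 2 g ∨ g = D.x) :
    ∑ χ ∈ prin G v, E.V k χ * χ g = 0 := by rw [E.ind_expansion, E.ind_eq_zero k h]

/-- **The Gram matrix.** -/
theorem V_gram (k l : Fin 3) :
    ∑ χ ∈ prin G v, E.V k χ * E.V l χ = if k = l then 4 else 2 := by
  have hkl : pairing (E.θ k) (fun c : D.ct => induced D.ct (E.θ l) c) =
      ∑ χ ∈ prin G v, E.V k χ * E.V l χ := by
    rw [funext fun c : D.ct => (E.ind_expansion l (c : G)).symm, pairing_comm,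
      pairing_sum_left]
    exact sum_congr rfl fun χ _ => by rw [pairing_comm _ (E.θ k), mul_comm]; rfl
  rw [← hkl, E.pairing_θ, sum_congr rfl fun q _ => show (if Reg 2 q then
      E.η k q * induced D.ct (E.θ l) ((D.tC * (D.lift q)⁻¹ : D.ct) : G) else 0) =
      2 * (E.η k q * E.η l q⁻¹) by
    split_ifs with hq
    · obtain ⟨h1, h2⟩ := D.lift_spec hq
      have hr : Reg 2 (D.tC * (D.tC * (D.lift q)⁻¹)) := by rw [D.tC_tC]; exact h1.inv
      rw [E.ind_eq l hr, θ, if_pos hr, D.π_t_mul, map_inv, h2]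
      ring
    · rw [E.η_singular k hq, zero_mul, mul_zero], ← mul_sum, ← mul_assoc,
    mul_comm _ (2 : ℂ), mul_assoc]
  show (2 : ℂ) * pairing (E.η k) (E.η l) = _
  rw [E.η_gram]
  split_ifs <;> norm_num

theorem V_one (k : Fin 3) : E.V k (fun _ => 1) = if k = 0 then 1 else 0 := by
  rw [E.V_eq, ← E.η_one, pairing]
  congr 1
  refine sum_congr rfl fun q _ => ?_
  split_ifs with hq
  · rfl
  · rw [E.η_singular k hq, zero_mul]

end Basis

end FA.ZStar

end
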