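import Fermat.Agent.ZStar.Decomp
import Fermat.Agent.ZStar.Combinatorics

/-!
# The quaternion group of order `8` does not occur

The principal block of a minimal counterexample with Sylow subgroup `Q₈` would contain a second
linear character or a second character trivial on `t`; the group being perfect, neither exists.
-/

set_option autoImplicit false
set_option linter.style.haveILetI false

universe u

noncomputable section

open Finset FA.FrobeniusGroups FA.CharacterTheory FA.PrincipalBlock
open FA.Thompson (Reg)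
open scoped Classical

namespace FA.ZStar

local instance : Fact (Nat.Prime 2) := ⟨Nat.prime_two⟩

variable {G : Type u} [Group G] [Fintype G] (D : Setup G) (v : Place 2)

/-- Class functions orthogonal to the elements of odd order see nothing of `χ t ^ 2 / χ 1`. -/
theorem Setup.sum_sq_eq_zero (W : (G → ℂ) → ℂ)
    (hW : ∀ g, Reg 2 g → ∑ χ ∈ prin G v, W χ * χ g = 0) :
    ∑ χ ∈ prin G v, W χ * (χ D.t ^ 2 / χ 1) = 0 := by
  have hN : (Nat.card G : ℂ) ≠ 0 := Nat.cast_ne_zero.2 Nat.card_pos.ne'
  have h : ∀ χ ∈ prin G v, W χ * (χ D.t ^ 2 / χ 1) =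
      (Nat.card G : ℂ)⁻¹ * ∑ g : G, W χ * χ (D.t * (g * D.t * g⁻¹)) := fun χ hχ => by
    have hχi := (good_prin v).sub hχ
    have h1 := FA.GlaubermanCorrespondence.card_mul_mul hχi D.t D.t
    have h2 := irr_one_ne_zero hχi
    rw [← mul_sum]
    field_simp
    linear_combination (W χ) * h1
  rw [sum_congr rfl h, ← mul_sum, sum_comm, sum_eq_zero fun g _ => hW _ (D.t_iso.odd_mul g),
    mul_zero]

/-- **No group has this configuration.** -/
theorem Setup.false {G : Type u} [Group G] [Fintype G] (D : Setup G) : False := by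
  obtain ⟨v⟩ := exists_place (p := 2) Nat.prime_two
  obtain ⟨E⟩ := exists_basis' D v
  have hG := good_prin (G := G) v
  have hone := one_mem_prin (G := G) v
  choose! N _ hN using fun (χ : G → ℂ) (hχ : χ ∈ prin G v) => irr_one (hG.sub hχ)
  choose! A hA using fun (χ : G → ℂ) (hχ : χ ∈ prin G v) =>
    int_value (hG.sub hχ) (g := D.t)
      (by rw [show 4 = 2 + 2 from rfl, pow_add, sq, D.t_iso.2.1, one_mul])
      (by rw [inv_eq_of_sq D.t_iso.2.1])
  have hxreal : IsConj D.x D.x⁻¹ := isConj_iff.2 ⟨D.y, D.y_x⟩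
  choose! X hX using fun (χ : G → ℂ) (hχ : χ ∈ prin G v) =>
    int_value (hG.sub hχ) (g := D.x) (by rw [← D.orderOf_x, pow_orderOf_eq_one]) hxreal
  have hVint : ∀ χ ∈ prin G v, ∃ V : Fin 3 → ℤ, ∀ k, E.V k χ = V k := fun χ hχ => by
    choose V hV using fun k => E.V_int k (hG.sub hχ)
    exact ⟨V, hV⟩
  choose! V hV using hVint
  choose d _ hd using fun k => irr_one (E.mem_irr k)
  set z : Fin 4 → ℤ := fun k => E.δ k * (d k : ℤ)
  have hXinv : ∀ χ ∈ prin G v, χ D.x⁻¹ = X χ := fun χ hχ => by
    rw [← D.y_x, irr_conj (hG.sub hχ), hX χ hχ]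
  have hxs : ¬ Reg 2 D.x := fun h => h ⟨2, by rw [D.orderOf_x]⟩
  have hcast : ∀ {W : (G → ℂ) → ℤ},
      ∑ χ ∈ prin G v, (W χ : ℂ) * (χ D.t ^ 2 / χ 1) = 0 →
        ∑ χ ∈ prin G v, (W χ : ℚ) * ((A χ : ℚ) ^ 2 / ((N χ : ℤ) : ℚ)) = 0 := fun {W} h => by
    refine Rat.cast_injective (α := ℂ) ?_
    rw [Rat.cast_sum, Rat.cast_zero, ← h]
    refine sum_congr rfl fun χ hχ => ?_
    rw [hA χ hχ, hN χ hχ]
    push_cast
    ring
  let T : Table (G → ℂ) :=
    { B := prin G v
      o := fun _ => 1
      n := fun χ => N χ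
      a := A
      X := X
      v := fun k χ => V χ k
      y₁ := z 1
      y₂ := z 2
      o_mem := hone
      n_pos := fun χ hχ => by
        have h := irr_one_ne_zero (hG.sub hχ)
        rw [hN χ hχ] at h
        exact_mod_cast Nat.pos_of_ne_zero (Nat.cast_ne_zero.1 h)
      n_o := by exact_mod_cast (hN _ hone).symm
      X_o := Int.cast_injective (α := ℂ) (by rw [← hX _ hone, Int.cast_one])
      v_o := fun k => Int.cast_injective (α := ℂ) (by
        rw [← hV _ hone, E.V_one]; split_ifs <;> simp)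
      gram := fun k l => Int.cast_injective (α := ℂ) (by
        rw [Int.cast_sum, sum_congr rfl fun χ hχ => by rw [Int.cast_mul, ← hV χ hχ, ← hV χ hχ],
          E.V_gram]
        split_ifs <;> simp)
      v_n := fun k => Int.cast_injective (α := ℂ) (by
        rw [Int.cast_sum, Int.cast_zero, ← E.V_column k (Or.inl Reg.one)]
        exact sum_congr rfl fun χ hχ => by rw [Int.cast_mul, ← hV χ hχ, hN χ hχ]; simp)
      v_X := fun k => Int.cast_injective (α := ℂ) (by
        rw [Int.cast_sum, Int.cast_zero, ← E.V_column k (Or.inr rfl)]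
        exact sum_congr rfl fun χ hχ => by rw [Int.cast_mul, ← hV χ hχ, hX χ hχ])
      X_n := Int.cast_injective (α := ℂ) (by
        rw [Int.cast_sum, Int.cast_zero, ← hG.orth Reg.one hxs]
        exact sum_congr rfl fun χ hχ => by rw [hN χ hχ, hX χ hχ]; push_cast; ring)
      X_sq := Int.cast_injective (α := ℂ) (by
        haveI := D.pcomp_cx.regSubgroup_normal
        have h := sum_sq_prin (v := v) D.x_pEl D.cx (fun _ => D.mem_cx) D.pcomp_cx.not_dvd_card
          fun c hc => D.pcomp_cx.mem_regSubgroup.2 hc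
        rw [index_four D.pcomp_cx D.cx_facts.1 D.cx_facts.2, Nat.cast_mul,
          mul_div_cancel_right₀ _ (Nat.cast_ne_zero.2 Nat.card_pos.ne')] at h
        push_cast at h ⊢
        rw [← h]
        exact sum_congr rfl fun χ hχ => by rw [hXinv χ hχ, hX χ hχ])
      v_c := fun k => hcast (W := fun χ => V χ k) (D.sum_sq_eq_zero v _ fun g hg => by
        rw [← E.V_column k (Or.inl hg)]
        exact sum_congr rfl fun χ hχ => by rw [← hV χ hχ])
      X_c := hcast (W := X) (D.sum_sq_eq_zero v _ fun g hg => by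
        rw [← hG.orth hg hxs]
        exact sum_congr rfl fun χ hχ => by rw [hX χ hχ, mul_comm])
      a_eq := fun χ hχ => Int.cast_injective (α := ℂ) (by
        rw [← hA χ hχ, E.value_t hχ, Fin.sum_univ_three, hV χ hχ, hV χ hχ, hV χ hχ]
        simp only [z, Int.cast_add, Int.cast_mul, Int.cast_natCast, ← hd]
        show _ * ((E.δ 0 : ℂ) * E.φ 0 1) + _ * ((E.δ 1 : ℂ) * E.φ 1 1) +
          _ * ((E.δ 2 : ℂ) * E.φ 2 1) = _
        rw [E.φ_zero, E.δ_zero]
        ring)
      parity_a := fun χ hχ => by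
        have h := v.irr_pElement (hG.sub hχ) (g := D.t) (j := 1)
          (by rw [pow_one, sq, D.t_iso.2.1])
        rw [hA χ hχ, hN χ hχ, ← Int.cast_natCast, v.r_intCast, v.r_intCast] at h
        have h2 : v.r (((N χ : ℤ) - A χ : ℤ) : ℂ) = 0 := by
          rw [v.r_intCast, Int.cast_sub, h, sub_self]
        exact_mod_cast v.int_eq_zero_iff.1 h2
      parity_X := fun χ hχ => by
        have h := v.irr_pElement (hG.sub hχ) (g := D.x) (j := 2)
          (by rw [show 2 ^ 2 = 4 from rfl, ← D.orderOf_x, pow_orderOf_eq_one])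
        rw [hX χ hχ, hN χ hχ, ← Int.cast_natCast, v.r_intCast, v.r_intCast] at h
        have h2 : v.r (((N χ : ℤ) - X χ : ℤ) : ℂ) = 0 := by
          rw [v.r_intCast, Int.cast_sub, h, sub_self]
        exact_mod_cast v.int_eq_zero_iff.1 h2 }
  obtain ⟨χ, hχ, hne, h⟩ := T.found
  have hχi := hG.sub hχ
  rcases h with h | h
  · have h1 : χ 1 = 1 := by
      rw [hN χ hχ]
      have h' : (N χ : ℤ) = 1 := h
      exact_mod_cast h'
    refine kerChar_ne_top hχi hne (eq_top_iff.2 ?_)
    rw [← D.perfect, _root_.commutator, Subgroup.commutator_le]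
    exact fun a _ b _ => linear_commutator hχi h1 a b
  · refine hne (D.eq_one χ hχi ?_)
    rw [hA χ hχ, hN χ hχ]
    have h' : A χ = (N χ : ℤ) := h
    exact_mod_cast h'

end FA.ZStar

end
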