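import Fermat.Agent.ZStar.Basic
import Fermat.Agent.ZStar.Characters

/-!
# An isolated involution commuting with another involution

In a minimal counterexample to the `Z*` theorem the isolated involution `t` is the only involution
of its centraliser: a second one `v` gives `χ t * χ v = χ 1 * χ (t * v)` in the principal block,
and the orthogonality of `1` against `v` and against `t * v` then fails.
-/

set_option autoImplicit false
set_option linter.style.haveILetI false

universe u

noncomputable section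

open Finset FA.CharacterTheory FA.FrobeniusGroups FA.PrincipalBlock
open FA.Thompson (Reg)
open scoped Classical

namespace FA.ZStar

variable {G : Type u} [Group G] [Fintype G] {t : G}

omit [Fintype G] in
theorem not_reg_of_sq {v : G} (hv : v * v = 1) (hv1 : v ≠ 1) : ¬ Reg 2 v := fun h =>
  h (by rw [orderOf_eq_prime (by rw [sq]; exact hv) hv1])

variable (ht : Isolated t) (IH : Below G) (hodd : NoOdd G) (hnc : ¬ ∀ g, g * t * g⁻¹ = t)

include ht IH hodd hnc

/-- The key equation, one conjugate at a time. -/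
theorem prin_mul_conj {P : Place 2} {χ : G → ℂ} (hχ : χ ∈ prin G P) {v : G} (hv : v * v = 1)
    (hvt : v ≠ t) (hvc : Commute v t) (g : G) :
    χ (t * (g * v * g⁻¹)) = χ (t * v) := by
  haveI : Fact (Nat.Prime 2) := ⟨Nat.prime_two⟩
  set v' := g * v * g⁻¹ with hv'
  set d := t * v' with hd
  have hv'2 : v' * v' = 1 := by
    rw [hv', show g * v * g⁻¹ * (g * v * g⁻¹) = g * (v * v) * g⁻¹ by group, hv]
    group
  set m := orderOf (d * d) with hm
  have hd2 : d * d = t * (v' * t * v'⁻¹) := by
    rw [hd, inv_eq_of_sq hv'2]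
    group
  have hmo : ¬ 2 ∣ m := by rw [hm, hd2]; exact ht.odd_mul v'
  obtain ⟨i, hi⟩ : ∃ i, m = 2 * i + 1 := ⟨m / 2, by omega⟩
  have hd2m : d ^ (2 * m) = 1 := by rw [pow_mul, sq]; exact pow_orderOf_eq_one _
  set z := d ^ m with hz
  have hz2 : z * z = 1 := by rw [hz, ← pow_add, ← two_mul, hd2m]
  have hneg : ∀ k, t * d ^ k * t = (d ^ k)⁻¹ := conj_pow_mul ht.2.1 hv'2
  have hzt : Commute z t := by
    have h := hneg m
    rw [← hz, inv_eq_of_sq hz2] at h
    calc z * t = t * z * t * t := by rw [h]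
      _ = t * z * (t * t) := by group
      _ = t * z := by rw [ht.2.1, mul_one]
  have hzd : Commute z d := (Commute.refl d).pow_left m
  have hzv' : Commute z v' := by
    rw [show v' = t * d by rw [hd, ← mul_assoc, ht.2.1, one_mul]]
    exact hzt.mul_right hzd
  have hflip : (d ^ i)⁻¹ * v' * d ^ i = t * z := by
    have h1 : (d ^ i)⁻¹ = t * d ^ i * t := (hneg i).symm
    calc (d ^ i)⁻¹ * v' * d ^ i = t * d ^ i * t * v' * d ^ i := by rw [h1]
      _ = t * (d ^ i * d * d ^ i) := by rw [hd]; group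
      _ = t * z := by rw [← pow_succ, ← pow_add, hz, hi]; ring_nf
  have hconjv : (d ^ i)⁻¹ * g * v * ((d ^ i)⁻¹ * g)⁻¹ = t * z := by
    rw [← hflip, hv']
    group
  obtain ⟨c, hct, hc⟩ := ht.control hvc (g := (d ^ i)⁻¹ * g)
    (by rw [hconjv]; exact (Commute.refl t).mul_left hzt)
  rw [hconjv] at hc
  have hz' : z = c * (t * v) * c⁻¹ := by
    calc z = t * (t * z) := by rw [← mul_assoc, ht.2.1, one_mul]
      _ = t * (c * v * c⁻¹) := by rw [hc]
      _ = _ := by rw [← mul_assoc, ← mul_assoc, ← hct.eq]; group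
  have hzχ : χ z = χ (t * v) := by rw [hz', irr_conj ((good_prin P).sub hχ)]
  have hz1 : z ≠ 1 := fun h => hvt (by
    rw [hz', conj_eq_one_iff] at h
    calc v = t * (t * v) := by rw [← mul_assoc, ht.2.1, one_mul]
      _ = t := by rw [h, mul_one])
  -- the centraliser of `z` is smaller
  set C := Subgroup.centralizer ({z} : Set G) with hC
  have hCmem : ∀ x, x ∈ C ↔ x * z = z * x := fun x => Subgroup.mem_centralizer_singleton_iff
  have hCtop : C ≠ ⊤ := fun h => hnc (central_of_center ht IH hodd hz2 hz1 fun x =>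
    (hCmem x).1 (h ▸ Subgroup.mem_top x))
  have htC : t ∈ C := (hCmem t).2 hzt.symm.eq
  have hvC : v' ∈ C := (hCmem v').2 hzv'.symm.eq
  obtain ⟨N, hN, hNo, hNt⟩ := IH C (card_lt_of_ne_top hCtop) _ (ht.subgroup htC)
  haveI := hN
  have hdC : d ∈ C := mul_mem htC hvC
  have hd2N : (⟨d, hdC⟩ * ⟨d, hdC⟩ : C) ∈ N := by
    have h := inv_mem (hNt ⟨v', hvC⟩)
    convert h using 1
    refine Subtype.ext ?_
    push_cast
    simp only [hd2, mul_inv_rev, inv_inv, inv_eq_of_sq ht.2.1, mul_assoc]
  have hs : (⟨d, hdC⟩ * ⟨d, hdC⟩ : C) ^ (i + 1) ∈ N := pow_mem hd2N _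
  have hd' : z * (((⟨d, hdC⟩ * ⟨d, hdC⟩ : C) ^ (i + 1) : C) : G) = d := by
    push_cast
    rw [← sq, ← pow_mul, hz, ← pow_add, show m + 2 * (i + 1) = 2 * m + 1 by omega, pow_succ, hd2m,
      one_mul]
  rw [← hzχ, ← prin_const (v := P) (u := z) ⟨1, by rw [pow_one, sq, hz2]⟩ C hCmem
    (fun h => Nat.not_even_iff_odd.2 hNo (even_iff_two_dvd.2 h)) hχ hs, hd']

/-- **The key equation**. -/
theorem prin_mul_involution {P : Place 2} {χ : G → ℂ} (hχ : χ ∈ prin G P) {v : G}
    (hv : v * v = 1) (hvt : v ≠ t) (hvc : Commute v t) : χ t * χ v = χ 1 * χ (t * v) := by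
  have h := FA.GlaubermanCorrespondence.card_mul_mul ((good_prin P).sub hχ) t v
  rw [sum_congr rfl fun g _ => prin_mul_conj ht IH hodd hnc hχ hv hvt hvc g, sum_const, card_univ,
    nsmul_eq_mul, ← Nat.card_eq_fintype_card, mul_left_comm (χ 1)] at h
  exact mul_left_cancel₀ (Nat.cast_ne_zero.2 Nat.card_pos.ne') h

/-- A character with value `χ 1` at `t` is trivial. -/
theorem eq_one_of_value {χ : G → ℂ} (hχ : χ ∈ irr G) (h : χ t = χ 1) : χ = fun _ => 1 := by
  by_contra hne
  haveI := kerChar_normal hχ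
  exact hnc (central_of_normal ht IH hodd (kerChar hχ) (kerChar_ne_top hχ hne) fun x => by
    rw [scalar_of_involution hχ ht.2.1 (ε := 1) (one_mul 1) (by rw [h, one_mul]) x, one_mul])

/-- **`t` is the only involution** of its centraliser. -/
theorem eq_of_commute {v : G} (hv : v * v = 1) (hv1 : v ≠ 1) (hvc : Commute v t) : v = t := by
  by_contra hvt
  haveI : Fact (Nat.Prime 2) := ⟨Nat.prime_two⟩
  obtain ⟨P⟩ := exists_place (p := 2) Nat.prime_two
  set w := t * v
  have hw2 : w * w = 1 := by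
    show t * v * (t * v) = 1
    rw [mul_assoc, ← mul_assoc v, hvc.eq, mul_assoc, hv, mul_one, ht.2.1]
  have hwt : w ≠ t := fun h => hv1 (mul_eq_left.1 h)
  have hw1 : w ≠ 1 := fun h => hvt (by
    calc v = t * (t * v) := by rw [← mul_assoc, ht.2.1, one_mul]
      _ = t := by show t * w = t; rw [h, mul_one])
  have hterm : ∀ χ ∈ prin G P, χ 1 * χ v + χ 1 * χ w = if χ = (fun _ => 1) then 2 else 0 := by
    intro χ hχ
    split_ifs with hone
    · subst hone; norm_num
    have hχi := (good_prin P).sub hχ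
    have e1 : χ t * χ v = χ 1 * χ w := prin_mul_involution ht IH hodd hnc hχ hv hvt hvc
    have e2 := prin_mul_involution ht IH hodd hnc hχ hw2 hwt ((Commute.refl t).mul_left hvc)
    rw [show t * w = v by show t * (t * v) = v; rw [← mul_assoc, ht.2.1, one_mul]] at e2
    have hsq : χ v * ((χ t - χ 1) * (χ t + χ 1)) = 0 := by
      linear_combination (χ t) * e1 + (χ 1) * e2
    rcases mul_eq_zero.1 hsq with h | h
    · rw [h, mul_zero, zero_add, ← e1, h, mul_zero]
    rcases mul_eq_zero.1 h with h | h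
    · exact absurd (eq_one_of_value ht IH hodd hnc hχi (sub_eq_zero.1 h)) hone
    · rw [show w = v * t from hvc.eq.symm, scalar_of_involution hχi ht.2.1 (ε := -1) (by norm_num)
        (by linear_combination h) v]
      ring
  have h1 := (good_prin (G := G) P).orth Reg.one (not_reg_of_sq hv hv1)
  have h2 := (good_prin (G := G) P).orth Reg.one (not_reg_of_sq hw2 hw1)
  have h := congrArg₂ (· + ·) h1 h2
  simp only [← sum_add_distrib] at h
  rw [sum_congr rfl hterm, sum_ite_eq', if_pos (one_mem_prin P), add_zero] at h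
  norm_num at h

end FA.ZStar

end
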