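import Fermat.Agent.ZStar.Endgame

/-!
# Glauberman's `Z*` theorem

By induction on the order an isolated involution is central modulo a normal subgroup of odd order.
-/

set_option autoImplicit false
set_option linter.style.haveILetI false

universe u

noncomputable section

namespace FA.ZStar

/-- **Glauberman's `Z*` theorem.** -/
theorem zCentral_of_isolated {G : Type u} [Group G] [Finite G] {t : G} (ht : Isolated t) :
    ZCentral G t := by
  suffices h : ∀ (n : ℕ) (H : Type u) [Group H] [Finite H], Nat.card H = n →
      ∀ x : H, Isolated x → ZCentral H x from h _ G rfl t ht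
  intro n
  induction n using Nat.strong_induction_on with
  | _ n ih =>
    intro H _ _ hn x hx
    haveI := Fintype.ofFinite H
    have IH : Below H := fun K _ _ hlt y hy => ih _ (hn ▸ hlt) K rfl y hy
    refine zcentral_of_noOdd hx IH fun hodd => ?_
    by_contra hnc
    obtain ⟨⟨D, -⟩⟩ := exists_setup hx IH hodd hnc
    exact D.false

end FA.ZStar

end
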