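import Fermat.Agent.ZStar.Sylow
import Mathlib.Data.Fintype.Pi

/-!
# The minimal counterexample with a Sylow subgroup of order `8`

All elements of order `4` are conjugate, in the centraliser of `t` even; an element `x` of order
`4` generates the Sylow subgroup of its centraliser.
-/

set_option autoImplicit false
set_option linter.style.haveILetI false

universe u

noncomputable section

open Subgroup FA.FrobeniusGroups FA.CharacterTheory FA.PrincipalBlock
open scoped Pointwise

namespace FA.ZStar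

theorem q8_pairs : ∀ s p p' : QuaternionGroup 2, s * s ≠ 1 → p * p ≠ 1 → p' * p' ≠ 1 →
    p * p'⁻¹ ∉ [1, s, s * s, s * s * s] →
    (p ∈ [s, s⁻¹] ∧ p' ∉ [s, s⁻¹]) ∨ (p' ∈ [s, s⁻¹] ∧ p ∉ [s, s⁻¹]) := by decide

theorem q8_rep : ∀ q : QuaternionGroup 2, q * q ≠ 1 → ∃ c, c * .a 1 * c⁻¹ = q ∨
    c * .xa 0 * c⁻¹ = q ∨ c * .xa 1 * c⁻¹ = q := by decide

theorem q8_conj : ∀ s c : QuaternionGroup 2, c * s * c⁻¹ ∈ [s, s⁻¹] := by decide

theorem q8_commute : ∀ q r : QuaternionGroup 2, q * q ≠ 1 → q * r = r * q →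
    r ∈ [1, q, q * q, q * q * q] := by decide

theorem q8_notMem : ∀ s : QuaternionGroup 2, ∃ c, c ∉ [1, s, s * s, s * s * s] := by decide

theorem q8_four : ∀ q : QuaternionGroup 2, q * q * (q * q) = 1 := by decide

variable {G : Type u} [Group G] [Fintype G] {t : G}

/-- The configuration left by Burnside and Brauer–Suzuki. -/
structure Setup (G : Type u) [Group G] [Fintype G] where
  t : G
  x : G
  y : G
  t_iso : Isolated t
  x_sq : x * x = t
  y_sq : y * y = t
  y_x : y * x * y⁻¹ = x⁻¹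
  y_notMem : y ∉ zpowers x
  not16 : ¬ 16 ∣ Nat.card G
  cls : ∀ h, Commute h t → PEl 2 h → h = 1 ∨ h = t ∨ ∃ c, Commute c t ∧ c * x * c⁻¹ = h
  xcls : ∀ h, Commute h x → PEl 2 h → h ∈ zpowers x
  perfect : commutator G = ⊤
  eq_one : ∀ χ ∈ irr G, χ t = χ 1 → χ = fun _ => 1

omit [Fintype G] in
theorem mem_four {z h : G} (hz : z * z * (z * z) = 1) (hh : h ∈ zpowers z) :
    h ∈ [1, z, z * z, z * z * z] := by
  obtain ⟨i, rfl⟩ := mem_zpowers_iff.1 hh
  have h4 : z ^ (4 : ℤ) = 1 := by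
    rw [show (4 : ℤ) = ((4 : ℕ) : ℤ) from rfl, zpow_natCast, ← hz]
    simp [pow_succ, mul_assoc]
  rw [zpow_eq_zpow_emod i h4]
  have h0 : 0 ≤ i % 4 := Int.emod_nonneg _ (by norm_num)
  have h1 : i % 4 < 4 := Int.emod_lt_of_pos _ (by norm_num)
  obtain h | h | h | h : i % 4 = 0 ∨ i % 4 = 1 ∨ i % 4 = 2 ∨ i % 4 = 3 := by omega
  all_goals rw [h]; simp [zpow_ofNat, pow_succ, mul_assoc]

omit [Fintype G] in
theorem isPGroup_zpowers {h : G} (hh : PEl 2 h) : IsPGroup 2 (zpowers h) := by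
  obtain ⟨k, hk⟩ := hh
  haveI : Fact (Nat.Prime 2) := ⟨Nat.prime_two⟩
  exact IsPGroup.of_card_dvd_pow (n := k) (by
    rw [Nat.card_zpowers]; exact orderOf_dvd_of_pow_eq_one hk)

/-- Two commuting `2`-elements are simultaneously conjugate into a given Sylow subgroup. -/
theorem exists_conj_pair (S : Sylow 2 G) {a b : G} (hab : Commute a b) (ha : PEl 2 a)
    (hb : PEl 2 b) : ∃ g : G, g * a * g⁻¹ ∈ S ∧ g * b * g⁻¹ ∈ S := by
  haveI : Fact (Nat.Prime 2) := ⟨Nat.prime_two⟩
  have hle : zpowers a ≤ normalizer (zpowers b : Set G) := by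
    refine le_trans (zpowers_le.2 ?_) (centralizer_le_normalizer _)
    refine mem_centralizer_iff.2 fun z hz => ?_
    obtain ⟨i, rfl⟩ := mem_zpowers_iff.1 hz
    exact ((hab.zpow_right i).symm).eq
  obtain ⟨T, hT⟩ := ((isPGroup_zpowers ha).to_sup_of_normal_right' (isPGroup_zpowers hb)
    hle).exists_le_sylow
  obtain ⟨g, hg⟩ := MulAction.exists_smul_eq G T S
  have key : ∀ z ∈ zpowers a ⊔ zpowers b, g * z * g⁻¹ ∈ S := fun z hz => by
    rw [← hg]
    show g * z * g⁻¹ ∈ MulAut.conj g • (T : Subgroup G)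
    simpa [mem_pointwise_smul_iff_inv_smul_mem, MulAut.smul_def, mul_assoc] using hT hz
  exact ⟨g, key a (mem_sup_left (mem_zpowers a)), key b (mem_sup_right (mem_zpowers b))⟩

omit [Fintype G] in
theorem pEl_of_sq_sq {z : G} (hz : z * z * (z * z) = 1) : PEl 2 z :=
  ⟨2, by rw [show 2 ^ 2 = 2 + 2 from rfl, pow_add, sq, hz]⟩

section
variable (ht : Isolated t) (IH : Below G) (hodd : NoOdd G) (hnc : ¬ ∀ g, g * t * g⁻¹ = t)
include ht IH hodd hnc

/-- All elements of order `4` of the Sylow subgroup are conjugate. -/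
theorem isConj_of_order_four (S : Sylow 2 G) (htS : t ∈ S)
    (e : (S : Subgroup G) ≃* QuaternionGroup 2) {q : QuaternionGroup 2} (hq : q * q ≠ 1) :
    IsConj ((e.symm (.a 1) : (S : Subgroup G)) : G) ((e.symm q : (S : Subgroup G)) : G) := by
  set ι : QuaternionGroup 2 →* G := (S : Subgroup G).subtype.comp e.symm.toMonoidHom
  have hinj : Function.Injective ι := Subtype.val_injective.comp e.symm.injective
  show IsConj (ι (.a 1)) (ι q)
  have hmem : ∀ r, ι r ∈ S := fun r => (e.symm r).2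
  have hinner : ∀ c r, IsConj (ι r) (ι (c * r * c⁻¹)) := fun c r =>
    isConj_iff.2 ⟨ι c, by simp only [map_mul, map_inv]⟩
  have hnbr : ∀ s : QuaternionGroup 2, s * s ≠ 1 →
      ∃ r, r * r ≠ 1 ∧ r ∉ [s, s⁻¹] ∧ IsConj (ι s) (ι r) := by
    intro s hs
    obtain ⟨c, hc⟩ := q8_notMem s
    have hlist : ∀ d, ι d ∈ zpowers (ι s) → d ∈ [1, s, s * s, s * s * s] := fun d hd => by
      have h := mem_four (by rw [← map_mul, ← map_mul, q8_four, map_one]) hd
      simpa [← map_mul, hinj.eq_iff, map_eq_one_iff ι hinj] using h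
    have hA : zpowers (ι s) < (S : Subgroup G) :=
      lt_of_le_of_ne (zpowers_le.2 (hmem s)) fun he =>
        hc (hlist c (he.symm ▸ hmem c : ι c ∈ zpowers (ι s)))
    obtain ⟨p₀, hp₀, g, hg, hout⟩ := exists_conj_notMem ht IH hodd hnc S hA
    obtain ⟨p, rfl⟩ : ∃ p, ι p = p₀ := ⟨e ⟨p₀, hp₀⟩, by simp [ι]⟩
    obtain ⟨p', hp'⟩ : ∃ p', ι p' = g * ι p * g⁻¹ := ⟨e ⟨_, hg⟩, by simp [ι]⟩
    rw [← hp'] at hout
    have hpp : p * p ≠ 1 := fun h1 => by
      refine hout ?_
      rcases eq_or_ne p 1 with rfl | hp1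
      · rw [hp', map_one, mul_one, mul_inv_cancel, inv_one, one_mul]
        exact one_mem _
      · have h2 : ι p * ι p = 1 := by rw [← map_mul, h1, map_one]
        have hpt : ι p = t := eq_of_mem_sylow ht IH hodd hnc S htS (hmem p) h2
          fun h => hp1 ((map_eq_one_iff ι hinj).1 h)
        have hp't : ι p' = t := eq_of_mem_sylow ht IH hodd hnc S htS (hmem p')
          (by rw [hp', hpt, show g * t * g⁻¹ * (g * t * g⁻¹) = g * (t * t) * g⁻¹ by group, ht.2.1,
            mul_one, mul_inv_cancel])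
          (by rw [hp', hpt, Ne, conj_eq_one_iff]; exact ht.1)
        rw [hpt, hp't, mul_inv_cancel]
        exact one_mem _
    have hpp' : p' * p' ≠ 1 := fun h1 => hpp ((map_eq_one_iff ι hinj).1 (by
      have h := congrArg ι h1
      rw [map_mul, map_one, hp', show g * ι p * g⁻¹ * (g * ι p * g⁻¹) = g * (ι p * ι p) * g⁻¹ by
        group, conj_eq_one_iff] at h
      rw [map_mul, h]))
    have hnot : p * p'⁻¹ ∉ [1, s, s * s, s * s * s] := fun h => hout (by
      rw [← map_inv, ← map_mul]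
      simp only [List.mem_cons, List.not_mem_nil, or_false] at h
      rcases h with h | h | h | h <;> rw [h] <;> (try simp only [map_mul, map_one])
      exacts [one_mem _, mem_zpowers _, mul_mem (mem_zpowers _) (mem_zpowers _),
        mul_mem (mul_mem (mem_zpowers _) (mem_zpowers _)) (mem_zpowers _)])
    have hconj : IsConj (ι p) (ι p') := isConj_iff.2 ⟨g, hp'.symm⟩
    have hs' : IsConj (ι s) (ι s⁻¹) → ∀ {r}, r ∈ [s, s⁻¹] → IsConj (ι s) (ι r) := fun h r hr => by
      simp only [List.mem_cons, List.not_mem_nil, or_false] at hr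
      rcases hr with rfl | rfl
      · rfl
      · exact h
    have hsinv : ∀ r, IsConj (ι r) (ι r⁻¹) := by
      have h : ∀ r : QuaternionGroup 2, ∃ d, d * r * d⁻¹ = r⁻¹ := by decide
      intro r
      obtain ⟨d, hd⟩ := h r
      exact hd ▸ hinner d r
    rcases q8_pairs s p p' hs hpp hpp' hnot with ⟨h, h'⟩ | ⟨h, h'⟩
    · exact ⟨p', hpp', h', (hs' (hsinv s) h).trans hconj⟩
    · exact ⟨p, hpp, h', (hs' (hsinv s) h).trans hconj.symm⟩
  have hedge : ∀ s, s * s ≠ 1 → ∃ r ∈ [QuaternionGroup.a 1, .xa 0, .xa 1],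
      r ≠ s ∧ IsConj (ι s) (ι r) := by
    intro s hs
    obtain ⟨r, hr, hrs, hconj⟩ := hnbr s hs
    obtain ⟨c, hc⟩ := q8_rep r hr
    rcases hc with hc | hc | hc <;> refine ⟨_, by simp, fun h => hrs ?_,
      hconj.trans (hc ▸ hinner c _).symm⟩ <;> rw [← hc, h] <;> exact q8_conj _ _
  obtain ⟨ri, hri, hnei, hi⟩ := hedge (.a 1) (by decide)
  obtain ⟨rj, hrj, hnej, hj⟩ := hedge (.xa 0) (by decide)
  obtain ⟨rk, hrk, hnek, hk⟩ := hedge (.xa 1) (by decide)
  simp only [List.mem_cons, List.not_mem_nil, or_false] at hri hrj hrk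
  have hall : IsConj (ι (.a 1)) (ι (.xa 0)) ∧ IsConj (ι (.a 1)) (ι (.xa 1)) := by
    rcases hri with rfl | rfl | rfl
    · exact absurd rfl hnei
    · rcases hrk with rfl | rfl | rfl
      · exact ⟨hi, hk.symm⟩
      · exact ⟨hi, hi.trans hk.symm⟩
      · exact absurd rfl hnek
    · rcases hrj with rfl | rfl | rfl
      · exact ⟨hj.symm, hi⟩
      · exact absurd rfl hnej
      · exact ⟨hi.trans hj.symm, hi⟩
  obtain ⟨c, hc | hc | hc⟩ := q8_rep q hq
  · exact hc ▸ hinner c _
  · exact hall.1.trans (hc ▸ hinner c _)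
  · exact hall.2.trans (hc ▸ hinner c _)

/-- **The configuration exists.** -/
theorem exists_setup : Nonempty {D : Setup G // D.t = t} := by
  haveI : Fact (Nat.Prime 2) := ⟨Nat.prime_two⟩
  have htP : PEl 2 t := ⟨1, by rw [pow_one, sq]; exact ht.2.1⟩
  obtain ⟨S, hS⟩ := (isPGroup_zpowers htP).exists_le_sylow
  have htS : t ∈ S := hS (mem_zpowers t)
  obtain ⟨e⟩ := exists_quaternion ht IH hodd hnc S htS
  set ι : QuaternionGroup 2 →* G := (S : Subgroup G).subtype.comp e.symm.toMonoidHom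
  have hinj : Function.Injective ι := Subtype.val_injective.comp e.symm.injective
  have hmem : ∀ r, ι r ∈ S := fun r => (e.symm r).2
  have hsurj : ∀ g ∈ S, ∃ q, ι q = g := fun g hg => ⟨e ⟨g, hg⟩, by simp [ι]⟩
  have hxx : ι (.a 1) * ι (.a 1) = t := eq_of_mem_sylow ht IH hodd hnc S htS
    (mul_mem (hmem _) (hmem _)) (by rw [← map_mul, ← map_mul, q8_four, map_one])
    (by rw [← map_mul, Ne, map_eq_one_iff ι hinj]; decide)
  have hxP : PEl 2 (ι (.a 1)) := pEl_of_sq_sq (by rw [← map_mul, ← map_mul, q8_four, map_one])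
  refine ⟨⟨{
    t := t
    x := ι (.a 1)
    y := ι (.xa 0)
    t_iso := ht
    x_sq := hxx
    y_sq := by
      rw [← hxx, ← map_mul, ← map_mul]
      exact congrArg ι (by decide)
    y_x := by
      rw [← map_inv, ← map_mul, ← map_mul, ← map_inv]
      exact congrArg ι (by decide)
    y_notMem := fun h => by
      have h' := mem_four (by rw [← map_mul, ← map_mul, q8_four, map_one]) h
      simp only [← map_mul, List.mem_cons, List.not_mem_nil, or_false, hinj.eq_iff,
        map_eq_one_iff ι hinj] at h'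
      revert h'
      decide
    not16 := fun h => by
      obtain ⟨k, hk⟩ := S.2.exists_card_eq
      have h8 : Nat.card (S : Subgroup G) = 8 := by
        rw [Nat.card_congr e.toEquiv, Nat.card_eq_fintype_card, QuaternionGroup.card]
      have h1 := S.pow_dvd_card_of_pow_dvd_card (n := 4) h
      rw [h8] at h1
      exact absurd h1 (by decide)
    cls := fun h hh hP => ?_
    xcls := fun h hh hP => ?_
    perfect := commutator_eq_top ht IH hodd hnc
    eq_one := fun χ hχ h => eq_one_of_value ht IH hodd hnc hχ h }, rfl⟩⟩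
  · obtain ⟨g, hgh, hgt⟩ := exists_conj_pair S hh hP htP
    have hgt' : g * t * g⁻¹ = t := eq_of_mem_sylow ht IH hodd hnc S htS hgt (ht.conj_sq g)
      (by rw [Ne, conj_eq_one_iff]; exact ht.1)
    have hgc : Commute g t := mul_inv_eq_iff_eq_mul.1 hgt'
    obtain ⟨r, hr⟩ := hsurj _ hgh
    by_cases hr2 : r * r = 1
    · rcases eq_or_ne r 1 with rfl | hr1
      · left
        rw [map_one, eq_comm, conj_eq_one_iff] at hr
        exact hr
      · right; left
        have h2 : ι r = t := eq_of_mem_sylow ht IH hodd hnc S htS (hmem r)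
          (by rw [← map_mul, hr2, map_one]) fun h1 => hr1 ((map_eq_one_iff ι hinj).1 h1)
        rw [hr, ← hgt'] at h2
        exact mul_left_cancel (mul_right_cancel h2)
    · right; right
      obtain ⟨c, hc⟩ := isConj_iff.1 (isConj_of_order_four ht IH hodd hnc S htS e hr2)
      have hc' : c * ι (.a 1) * c⁻¹ = ι r := hc
      have hct : Commute c t := mul_inv_eq_iff_eq_mul.1 (by
        have h2 : ι r * ι r = t := eq_of_mem_sylow ht IH hodd hnc S htS
          (mul_mem (hmem _) (hmem _)) (by rw [← map_mul, ← map_mul, q8_four, map_one])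
          (by rw [← map_mul, Ne, map_eq_one_iff ι hinj]; exact hr2)
        conv_rhs => rw [← h2, ← hc']
        rw [← hxx]
        group)
      refine ⟨g⁻¹ * c, hgc.inv_left.mul_left hct, ?_⟩
      rw [show g⁻¹ * c * ι (.a 1) * (g⁻¹ * c)⁻¹ = g⁻¹ * (c * ι (.a 1) * c⁻¹) * g by group, hc', hr]
      group
  · obtain ⟨g, hgh, hgx⟩ := exists_conj_pair S hh hP hxP
    obtain ⟨r, hr⟩ := hsurj _ hgh
    obtain ⟨q, hq⟩ := hsurj _ hgx
    have hq2 : q * q ≠ 1 := fun h2 => by
      have h3 := congrArg ι h2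
      rw [map_mul, map_one, hq, show g * ι (.a 1) * g⁻¹ * (g * ι (.a 1) * g⁻¹) =
        g * (ι (.a 1) * ι (.a 1)) * g⁻¹ by group, conj_eq_one_iff, hxx] at h3
      exact ht.1 h3
    have hqr : q * r = r * q := hinj (by
      rw [map_mul, map_mul, hq, hr, show g * ι (.a 1) * g⁻¹ * (g * h * g⁻¹) =
        g * (ι (.a 1) * h) * g⁻¹ by group, ← hh.eq]
      group)
    have hin : ι r ∈ zpowers (ι q) := by
      have h4 := q8_commute q r hq2 hqr
      simp only [List.mem_cons, List.not_mem_nil, or_false] at h4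
      rcases h4 with h4 | h4 | h4 | h4 <;> rw [h4] <;> (try simp only [map_mul, map_one])
      exacts [one_mem _, mem_zpowers _, mul_mem (mem_zpowers _) (mem_zpowers _),
        mul_mem (mul_mem (mem_zpowers _) (mem_zpowers _)) (mem_zpowers _)]
    rw [hr, hq] at hin
    obtain ⟨i, hi⟩ := mem_zpowers_iff.1 hin
    rw [conj_zpow] at hi
    exact mem_zpowers_iff.2 ⟨i, mul_left_cancel (mul_right_cancel hi)⟩

end

end FA.ZStar

end
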