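import Fermat.Agent.ZStar.Involution
import Fermat.Agent.FrobeniusComplements.PGroups
import Fermat.Agent.Root.SummaryBrauerSuzuki
import Mathlib.GroupTheory.Focal

/-!
# The Sylow subgroup of a minimal counterexample

Its Sylow `2`-subgroup has a single involution, so it is cyclic or generalised quaternion; Burnside
excludes the first case and Brauer–Suzuki all quaternion groups but the one of order `8`.  The
group is perfect, so by the focal subgroup theorem every element of order `4` has a conjugate in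
the Sylow subgroup outside the cyclic group it generates.
-/

set_option autoImplicit false
set_option linter.style.haveILetI false

universe u

noncomputable section

open Subgroup FA.FrobeniusComplements
open scoped commutatorElement

namespace FA.ZStar

variable {G : Type u} [Group G] [Fintype G] {t : G}
variable (ht : Isolated t) (IH : Below G) (hodd : NoOdd G) (hnc : ¬ ∀ g, g * t * g⁻¹ = t)

include ht IH hodd hnc

/-- A Sylow subgroup containing `t` has `t` as its only involution. -/
theorem eq_of_mem_sylow (S : Sylow 2 G) (htS : t ∈ S) {v : G} (hvS : v ∈ S) (hv : v * v = 1)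
    (hv1 : v ≠ 1) : v = t := by
  haveI : Fact (Nat.Prime 2) := ⟨Nat.prime_two⟩
  haveI : Nontrivial (S : Subgroup G) :=
    ⟨⟨⟨t, htS⟩, 1, fun h => ht.1 (congrArg Subtype.val h)⟩⟩
  haveI := S.2.center_nontrivial
  obtain ⟨n, hn, hn2⟩ := (S.2.to_subgroup (center (S : Subgroup G))).nontrivial_iff_card.1 ‹_›
  obtain ⟨⟨c, hc⟩, hco⟩ := exists_prime_orderOf_dvd_card' (G := center (S : Subgroup G)) 2
    (hn2 ▸ dvd_pow_self 2 hn.ne')
  have hc1 : (c : G) ≠ 1 := fun h => by
    rw [Subgroup.orderOf_mk, ← orderOf_coe, h, orderOf_one] at hco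
    omega
  have hc2 : (c : G) * c = 1 := by
    have h := pow_orderOf_eq_one (⟨c, hc⟩ : center (S : Subgroup G))
    rw [hco, sq] at h
    exact congrArg (fun x : center (S : Subgroup G) => ((x : (S : Subgroup G)) : G)) h
  have hcen : ∀ x ∈ S, Commute (c : G) x := fun x hx =>
    (congrArg Subtype.val (mem_center_iff.1 hc ⟨x, hx⟩)).symm
  have hct : (c : G) = t := eq_of_commute ht IH hodd hnc hc2 hc1 (hcen t htS)
  exact eq_of_commute ht IH hodd hnc hv hv1 (hct ▸ (hcen v hvS).symm)

/-- **The Sylow subgroup is quaternion of order `8`.** -/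
theorem exists_quaternion (S : Sylow 2 G) (htS : t ∈ S) :
    Nonempty ((S : Subgroup G) ≃* QuaternionGroup 2) := by
  haveI : Fact (Nat.Prime 2) := ⟨Nat.prime_two⟩
  have ht2 : orderOf t = 2 := orderOf_eq_prime (by rw [sq]; exact ht.2.1) ht.1
  have hu : UniqueSubgroup 2 (S : Subgroup G) := fun a b ha hb => by
    rcases eq_or_ne b 1 with rfl | hb1
    · exact one_mem _
    have ha' : (a : G) = t := eq_of_mem_sylow ht IH hodd hnc S htS a.2
      (congrArg Subtype.val (show a * a = 1 by
        have h := pow_orderOf_eq_one a; rwa [ha, sq] at h))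
      (fun h => by rw [OneMemClass.coe_eq_one.1 h, orderOf_one] at ha; omega)
    have hb' : (b : G) = t := eq_of_mem_sylow ht IH hodd hnc S htS b.2
      (congrArg Subtype.val (show b * b = 1 by rw [← sq, hb]))
      (fun h => hb1 (OneMemClass.coe_eq_one.1 h))
    rw [show b = a from Subtype.ext (hb'.trans ha'.symm)]
    exact mem_zpowers a
  rcases isCyclic_or_quaternion S.2 hu with hcyc | ⟨n, ⟨e⟩⟩
  · refine absurd ?_ hnc
    have h2G : 2 ∣ Nat.card G := ht2 ▸ orderOf_dvd_natCard t
    have hmin : (Nat.card G).minFac = 2 := (Nat.minFac_eq_two_iff _).2 h2G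
    have hcomp := IsCyclic.isComplement' (P := S) hmin hcyc
    set K := (MonoidHom.transferSylow S (IsCyclic.normalizer_le_centralizer hmin hcyc)).ker
    have hK : K = ⊥ := hodd K inferInstance (Nat.not_even_iff_odd.1 fun h =>
      MonoidHom.not_dvd_card_ker_transferSylow S _ (even_iff_two_dvd.1 h))
    have htop : (S : Subgroup G) = ⊤ := by
      rw [hK] at hcomp
      exact isComplement'_bot_left.1 hcomp
    intro g
    obtain ⟨z, hz⟩ := IsCyclic.exists_generator (α := (S : Subgroup G))
    obtain ⟨i, hi⟩ := mem_zpowers_iff.1 (hz ⟨g, htop ▸ mem_top g⟩)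
    obtain ⟨j, hj⟩ := mem_zpowers_iff.1 (hz ⟨t, htS⟩)
    have hgt : (⟨g, htop ▸ mem_top g⟩ * ⟨t, htS⟩ : (S : Subgroup G)) =
        ⟨t, htS⟩ * ⟨g, htop ▸ mem_top g⟩ := by rw [← hi, ← hj, zpow_mul_comm]
    rw [show g * t = t * g from congrArg Subtype.val hgt, mul_inv_cancel_right]
  · obtain rfl | hn := Nat.eq_zero_or_pos n
    · exact ⟨e⟩
    refine absurd ?_ hnc
    obtain ⟨N, hN, hNo, hNz⟩ := FA.BrauerSuzuki.Summary.brauer_suzuki S (by omega : 2 ≤ n + 1) e
    intro g
    have h := hNz t (by rw [sq]; exact ht.2.1) g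
    rwa [hodd N hN hNo, mem_bot, mul_inv_eq_one] at h

/-- **The group is perfect.** -/
theorem commutator_eq_top : commutator G = ⊤ := by
  by_contra h
  haveI : Fact (Nat.Prime 2) := ⟨Nat.prime_two⟩
  obtain ⟨S, hS⟩ := (IsPGroup.of_card_dvd_pow (p := 2) (n := 1) (by
    rw [Nat.card_zpowers]
    exact orderOf_dvd_of_pow_eq_one (by rw [pow_one, sq]; exact ht.2.1)) :
      IsPGroup 2 (zpowers t)).exists_le_sylow
  obtain ⟨e⟩ := exists_quaternion ht IH hodd hnc S (hS (mem_zpowers t))
  set a := e.symm (.a 1)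
  set b := e.symm (.xa 0)
  have hab : ⁅a, b⁆ ≠ 1 := fun h => by
    have h1 := congrArg e h
    simp only [a, b, map_commutatorElement, MulEquiv.apply_symm_apply, map_one] at h1
    exact absurd h1 (by decide)
  have hab2 : ⁅a, b⁆ * ⁅a, b⁆ = 1 := e.injective (by
    simp only [a, b, map_mul, map_commutatorElement, MulEquiv.apply_symm_apply, map_one]
    decide)
  have hval : ((⁅a, b⁆ : (S : Subgroup G)) : G) = ⁅(a : G), (b : G)⁆ :=
    map_commutatorElement (S : Subgroup G).subtype a b
  have hct : ((⁅a, b⁆ : (S : Subgroup G)) : G) = t :=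
    eq_of_mem_sylow ht IH hodd hnc S (hS (mem_zpowers t)) (⁅a, b⁆ : (S : Subgroup G)).2
      (congrArg Subtype.val hab2) (fun h => hab (OneMemClass.coe_eq_one.1 h))
  exact hnc (central_of_normal ht IH hodd _ h (hct ▸ hval ▸
    commutator_mem_commutator (mem_top _) (mem_top _)))

/-- **Fusion out of a cyclic subgroup of order `4`.** -/
theorem exists_conj_notMem (S : Sylow 2 G) {A : Subgroup G} (hA : A < (S : Subgroup G)) :
    ∃ x ∈ S, ∃ g : G, g * x * g⁻¹ ∈ S ∧ x * (g * x * g⁻¹)⁻¹ ∉ A := by
  haveI : Fact (Nat.Prime 2) := ⟨Nat.prime_two⟩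
  by_contra! hall
  have hle : (S : Subgroup G).focalSubgroup ≤ A := by
    rw [focalSubgroup_def, closure_le]
    rintro _ ⟨hgS, x, hx, u, rfl⟩
    rw [commutatorElement_def] at hgS ⊢
    have hu : u * x * u⁻¹ ∈ S := by
      have h := S.inv_mem ((S : Subgroup G).mul_mem ((S : Subgroup G).inv_mem hx) hgS)
      rwa [show (x⁻¹ * (x * u * x⁻¹ * u⁻¹))⁻¹ = u * x * u⁻¹ by group] at h
    rw [show x * u * x⁻¹ * u⁻¹ = x * (u * x * u⁻¹)⁻¹ by group]
    exact hall x hx u hu
  refine hA.not_ge ?_
  rw [← commutator_inf_eq_focalSubgroup, commutator_eq_top ht IH hodd hnc, top_inf_eq] at hle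
  exact hle

end FA.ZStar

end
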